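/-
Programme MW (S17) / AV, brick CURVE-INST (helper7): **the function field of `X₀(N)` over `ℚbar` is a
curve function field in the sense of the Prelude class `AlgebraicCurve.IsCurveOver`, and is essentially
of finite type** — the two instances needed to apply the AV bricks F1 (`F1Model15.ModelExists`),
F2 (`PicBridge84`), F3, S27 … to `JZero N = Pic0 ℚbar (modularFunctionFieldBar N)`.

Generic core (`K` algebraically closed of characteristic `0`, `F / K` a field, `x : F` with
`X0.FF.IsGen K x`, i.e. `x` transcendental and `F` finite over `K(x)`):
* `isCurveOver_of_isGen hx : IsCurveOver K F`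
  (principal divisors: `FFGenus.hasPrincipalDivisors`; residue fields: `FF.deg_eq_one`;
  `Ω[F⁄K] = F·dx ≠ 0`: `FF.span_D_eq_top`, `FF.D_ne_zero`);
* `essFiniteType_of_isGen hx : Algebra.EssFiniteType K F`  (any field `K`).

Instances for `X₀(N)`:
* `isCurveOver_bar N : IsCurveOver ℚbar (modularFunctionFieldBar N)`,
  `essFiniteType_bar N : Algebra.EssFiniteType ℚbar (modularFunctionFieldBar N)`;
* the same over any algebraically closed `L ⊇ ℚ` (`isCurveOver_L`, `essFiniteType_L`, via
  `ES/KUM/FieldL25.isGen_jL`) is in `CurveInstL7.lean` (heavier imports).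
-/
import Mathlib
import Fermat.Prelude.Def_AlgebraicCurve_IsCurveOver
import Fermat.Agent.X0.FFGenus
import Fermat.Agent.RED.TOP.FbarFacts20

set_option autoImplicit false
set_option linter.unusedSectionVars false

noncomputable section

open AlgebraicCurve ModularCurve IntermediateField

namespace Fermat.Agent.MW.CurveInst7

open Fermat.Agent.X0

section Generic

variable {K F : Type*} [Field K] [Field F] [Algebra K F] {x : F}

/-- A field finite over `K(x)` is essentially of finite type over `K`. -/
theorem essFiniteType_of_isGen (hx : FF.IsGen K x) : Algebra.EssFiniteType K F := by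
  have : FiniteDimensional K⟮x⟯ F := hx.finite
  have : Algebra.EssFiniteType K K⟮x⟯ :=
    IntermediateField.essFiniteType_iff.mpr
      (IntermediateField.fg_adjoin_of_finite (Set.finite_singleton x))
  exact Algebra.EssFiniteType.comp K K⟮x⟯ F

variable [IsAlgClosed K] [CharZero K]

/-- **A function field in one variable over an algebraically closed field of characteristic zero is
a curve function field** (Prelude class `IsCurveOver`). -/
theorem isCurveOver_of_isGen (hx : FF.IsGen K x) : IsCurveOver K F where
  toHasPrincipalDivisors := FFGenus.hasPrincipalDivisors hx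
  finiteResidue := fun v => by
    have h : Module.finrank K v.ResidueField = 1 := FF.deg_eq_one hx v
    exact Module.finite_of_finrank_pos (by rw [h]; exact one_pos)
  kaehler_free_rank_one :=
    ⟨Module.Free.of_divisionRing F _,
      (finrank_eq_one_iff_of_nonzero _ (FF.D_ne_zero hx)).mpr (FF.span_D_eq_top hx)⟩

end Generic

section X0

variable (N : ℕ) [NeZero N]

/-- **`ℚbar · F₀(N)` is a curve function field over `ℚbar`.** -/
theorem isCurveOver_bar : IsCurveOver (AlgebraicClosure ℚ) ↥(modularFunctionFieldBar N) :=
  isCurveOver_of_isGen (Fermat.Agent.RED.TOP.FbarFacts20.isGen_j N)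

/-- **`ℚbar · F₀(N)` is essentially of finite type over `ℚbar`.** -/
theorem essFiniteType_bar :
    Algebra.EssFiniteType (AlgebraicClosure ℚ) ↥(modularFunctionFieldBar N) :=
  essFiniteType_of_isGen (Fermat.Agent.RED.TOP.FbarFacts20.isGen_j N)

end X0

end Fermat.Agent.MW.CurveInst7
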