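/-
helper10 — programme MW (S17), brick ABSH, part (E): behaviour of the Mathlib height of a tuple
under an extension of number fields `K ⊆ L`:
  `Height.mulHeight (algebraMap K L ∘ x) = Height.mulHeight x ^ finrank K L`.
Finite part: `NumberField.absNorm_mul_finprod_finitePlace_eq_one` + `Ideal.absNorm_algebraMap`.
Archimedean part: fibres of the restriction map on complex embeddings.
-/
import Mathlib.NumberTheory.Height.NumberField
import Mathlib.RingTheory.Ideal.Norm.RelNorm

set_option autoImplicit false

open NumberField Height Module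

namespace Fermat.Agent.MW.AbsHeightExt10

section Arch

variable {K L : Type*} [Field K] [NumberField K] [Field L] [NumberField L] [Algebra K L]

open scoped Classical in
/-- product over infinite places with multiplicity = product over complex embeddings. -/
theorem prod_infinitePlace_pow_mult_eq_prod_embeddings (f : InfinitePlace K → ℝ) :
    ∏ v : InfinitePlace K, f v ^ v.mult = ∏ φ : K →+* ℂ, f (InfinitePlace.mk φ) := by
  rw [← Finset.univ.prod_fiberwise (fun φ : K →+* ℂ => InfinitePlace.mk φ)]
  refine Finset.prod_congr rfl fun v _ => ?_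
  rw [Finset.prod_congr rfl (g := fun _ => f v) (fun φ hφ => by
    rw [(Finset.mem_filter.mp hφ).2]), Finset.prod_const, InfinitePlace.card_filter_mk_eq]

/-- the extensions of a complex embedding `ψ` of `K` to `L` correspond to `K`-algebra maps. -/
noncomputable def extEquiv (ψ : K →+* ℂ) :
    letI := ψ.toAlgebra
    (L →ₐ[K] ℂ) ≃ {φ : L →+* ℂ // φ.comp (algebraMap K L) = ψ} :=
  letI := ψ.toAlgebra
  { toFun := fun f => ⟨f.toRingHom, by ext x; exact f.commutes x⟩
    invFun := fun φ =>
      { φ.1 with
        commutes' := fun x => by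
          have h := congrArg (fun g => g x) φ.2
          simpa [RingHom.algebraMap_toAlgebra] using h }
    left_inv := fun f => by ext; rfl
    right_inv := fun φ => by ext; rfl }

open scoped Classical in
/-- every complex embedding of `K` has exactly `[L : K]` extensions to `L`. -/
theorem card_ext (ψ : K →+* ℂ) :
    (Finset.univ.filter fun φ : L →+* ℂ => φ.comp (algebraMap K L) = ψ).card = finrank K L := by
  let _ := ψ.toAlgebra
  have h1 : Fintype.card (L →ₐ[K] ℂ) = finrank K L := AlgHom.card K L ℂ
  rw [← h1, Fintype.card_congr (extEquiv (L := L) ψ), Fintype.card_subtype]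

theorem prod_embeddings_comp (g : (K →+* ℂ) → ℝ) :
    ∏ φ : L →+* ℂ, g (φ.comp (algebraMap K L)) = (∏ ψ : K →+* ℂ, g ψ) ^ finrank K L := by
  classical
  rw [← Finset.univ.prod_fiberwise (fun φ : L →+* ℂ => φ.comp (algebraMap K L)),
    ← Finset.prod_pow]
  refine Finset.prod_congr rfl fun ψ _ => ?_
  rw [Finset.prod_congr rfl (g := fun _ => g ψ) (fun φ hφ => by
    rw [(Finset.mem_filter.mp hφ).2]), Finset.prod_const, card_ext]

/-- archimedean part of the extension formula. -/
theorem arch_part {ι : Type*} (x : ι → K) :
    ∏ w : InfinitePlace L, (⨆ i, w (algebraMap K L (x i))) ^ w.mult =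
      (∏ v : InfinitePlace K, (⨆ i, v (x i)) ^ v.mult) ^ finrank K L := by
  rw [prod_infinitePlace_pow_mult_eq_prod_embeddings (K := L)
      (fun w => ⨆ i, w (algebraMap K L (x i))),
    prod_infinitePlace_pow_mult_eq_prod_embeddings (K := K) (fun v => ⨆ i, v (x i)),
    ← prod_embeddings_comp (L := L)]
  rfl

end Arch

section Fin

variable {K L : Type*} [Field K] [NumberField K] [Field L] [NumberField L] [Algebra K L]

theorem absNorm_map_eq (I : Ideal (𝓞 K)) :
    Ideal.absNorm (I.map (algebraMap (𝓞 K) (𝓞 L))) = Ideal.absNorm I ^ finrank K L := by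
  rw [Ideal.absNorm_algebraMap, IsFractionRing.finrank_eq (𝓞 K) K (𝓞 L) L]

omit [NumberField K] [NumberField L] in
theorem coe_algebraMap_ringOfIntegers (a : 𝓞 K) :
    ((algebraMap (𝓞 K) (𝓞 L) a : 𝓞 L) : L) = algebraMap K L (a : K) := by
  have h1 := IsScalarTower.algebraMap_apply (𝓞 K) (𝓞 L) L a
  have h2 := IsScalarTower.algebraMap_apply (𝓞 K) K L a
  rw [h1] at h2
  exact h2.symm

/-- finite part of the extension formula, for integral tuples. -/
theorem fin_part_int {ι : Type*} [Finite ι] (x : ι → 𝓞 K) (hx : x ≠ 0) :
    ∏ᶠ w : FinitePlace L, ⨆ i, w (algebraMap K L (x i : K)) =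
      (∏ᶠ v : FinitePlace K, ⨆ i, v (x i : K)) ^ finrank K L := by
  set y : ι → 𝓞 L := fun i => algebraMap (𝓞 K) (𝓞 L) (x i) with hy
  have hy0 : y ≠ 0 := by
    intro h
    apply hx
    funext i
    have := congrFun h i
    simp only [hy, Pi.zero_apply] at this
    exact (FaithfulSMul.algebraMap_injective (𝓞 K) (𝓞 L)) (by simpa using this)
  have hK := absNorm_mul_finprod_finitePlace_eq_one hx
  have hL := absNorm_mul_finprod_finitePlace_eq_one hy0
  have hspan : Ideal.span (Set.range y) =
      (Ideal.span (Set.range x)).map (algebraMap (𝓞 K) (𝓞 L)) := by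
    rw [Ideal.map_span, ← Set.range_comp]; rfl
  rw [hspan, absNorm_map_eq] at hL
  have hyx : ∀ i, ((y i : 𝓞 L) : L) = algebraMap K L (x i : K) := fun i =>
    coe_algebraMap_ringOfIntegers (x i)
  simp_rw [hyx] at hL
  have hN : ((Ideal.absNorm (Ideal.span (Set.range x)) : ℕ) : ℝ) ≠ 0 := by
    intro h; rw [h, zero_mul] at hK; exact zero_ne_one hK
  have h1 : (∏ᶠ v : FinitePlace K, ⨆ i, v (x i : K)) =
      ((Ideal.absNorm (Ideal.span (Set.range x)) : ℕ) : ℝ)⁻¹ := by
    field_simp; linarith [hK]
  rw [h1, inv_pow]
  push_cast at hL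
  field_simp
  linarith [hL]

/-- extension formula for integral tuples. -/
theorem mulHeight_algebraMap_int {ι : Type*} [Finite ι] (a : ι → 𝓞 K) :
    mulHeight (fun i => algebraMap K L (a i : K)) =
      mulHeight (fun i => (a i : K)) ^ finrank K L := by
  by_cases ha : a = 0
  · subst ha
    have h1 : (fun i : ι => algebraMap K L ((0 : ι → 𝓞 K) i : K)) = 0 := by
      funext i; simp
    have h2 : (fun i : ι => ((0 : ι → 𝓞 K) i : K)) = 0 := by
      funext i; simp
    rw [h1, h2, mulHeight_zero, mulHeight_zero, one_pow]
  · have hK0 : (fun i => (a i : K)) ≠ 0 := by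
      intro h; apply ha; funext i
      have := congrFun h i
      exact RingOfIntegers.coe_injective (by simpa using this)
    have hL0 : (fun i => algebraMap K L (a i : K)) ≠ 0 := by
      intro h; apply hK0; funext i
      have := congrFun h i
      exact (algebraMap K L).injective (by simpa using this)
    rw [NumberField.mulHeight_eq hK0, NumberField.mulHeight_eq hL0, mul_pow, arch_part,
      fin_part_int a ha]

/-- **Extension formula.** For number fields `K ⊆ L` and a tuple `x` over `K`,
`H_L(x) = H_K(x) ^ [L : K]`. -/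
theorem mulHeight_algebraMap {ι : Type*} [Finite ι] (x : ι → K) :
    mulHeight (fun i => algebraMap K L (x i)) = mulHeight x ^ finrank K L := by
  obtain ⟨b, hb⟩ := IsLocalization.exist_integer_multiples_of_finite (nonZeroDivisors (𝓞 K)) x
  choose a ha using hb
  set c : K := algebraMap (𝓞 K) K (b : 𝓞 K) with hc
  have hc0 : c ≠ 0 := by
    rw [hc]
    exact IsLocalization.to_map_ne_zero_of_mem_nonZeroDivisors K le_rfl b.2
  have hcx : ∀ i, (a i : K) = c * x i := fun i => by
    have := ha i
    rw [Algebra.smul_def] at this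
    exact this
  have hK : mulHeight x = mulHeight (fun i => (a i : K)) := by
    rw [← mulHeight_smul_eq_mulHeight x hc0]
    congr 1; funext i; simp [hcx]
  have hL : mulHeight (fun i => algebraMap K L (x i)) =
      mulHeight (fun i => algebraMap K L (a i : K)) := by
    rw [← mulHeight_smul_eq_mulHeight (fun i => algebraMap K L (x i))
      (c := algebraMap K L c) (by simpa using hc0)]
    congr 1; funext i; simp [hcx]
  rw [hK, hL, mulHeight_algebraMap_int]

/-- logarithmic form of the extension formula. -/
theorem logHeight_algebraMap {ι : Type*} [Finite ι] (x : ι → K) :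
    logHeight (fun i => algebraMap K L (x i)) = finrank K L * logHeight x := by
  rw [logHeight_eq_log_mulHeight, logHeight_eq_log_mulHeight, mulHeight_algebraMap, Real.log_pow]

end Fin

end Fermat.Agent.MW.AbsHeightExt10
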