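/-
helper10 — programme MW (S17), brick ABSH, part (D): the absolute logarithmic height of a finite
tuple of algebraic numbers.
-/
import Fermat.Agent.MW.AbsHeightExt10

set_option autoImplicit false

open NumberField Height Module IntermediateField

namespace Fermat.Agent.MW.AbsHeightDef10

open Fermat.Agent.MW.AbsHeightExt10

section Norm

variable {K L : Type*} [Field K] [NumberField K] [Field L] [NumberField L]

/-- The normalised logarithmic height `h_K(x) / [K : ℚ]` is invariant under ring homomorphisms of
number fields. -/
theorem logHeight_div_finrank_map {ι : Type*} [Finite ι] (f : K →+* L) (x : ι → K) :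
    logHeight (fun i => f (x i)) / finrank ℚ L = logHeight x / finrank ℚ K := by
  let _ := f.toAlgebra
  have h1 : logHeight (fun i => f (x i)) = finrank K L * logHeight x :=
    logHeight_algebraMap (K := K) (L := L) x
  have h2 : finrank ℚ K * finrank K L = finrank ℚ L := Module.finrank_mul_finrank ℚ K L
  have hK : (0 : ℝ) < finrank ℚ K := by exact_mod_cast finrank_pos
  have hKL : (0 : ℝ) < finrank K L := by exact_mod_cast finrank_pos
  rw [h1, ← h2]
  push_cast
  field_simp

end Norm

section Def

variable {Ω : Type*} [Field Ω] [CharZero Ω] [Algebra.IsAlgebraic ℚ Ω]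
variable {ι : Type*}

/-- The subfield of `Ω` generated by the coordinates of a tuple. -/
abbrev tupleField (x : ι → Ω) : IntermediateField ℚ Ω := adjoin ℚ (Set.range x)

instance tupleField_finiteDimensional [Finite ι] (x : ι → Ω) :
    FiniteDimensional ℚ (tupleField x) :=
  finiteDimensional_adjoin (fun y _ => Algebra.IsIntegral.isIntegral y)

instance tupleField_numberField [Finite ι] (x : ι → Ω) : NumberField (tupleField x) where
  to_charZero := inferInstance
  to_finiteDimensional := inferInstance

/-- The tuple, viewed in the field generated by its coordinates. -/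
def tupleLift (x : ι → Ω) : ι → tupleField x := fun i => ⟨x i, subset_adjoin ℚ _ ⟨i, rfl⟩⟩

omit [Algebra.IsAlgebraic ℚ Ω] in
@[simp] theorem coe_tupleLift (x : ι → Ω) (i : ι) : ((tupleLift x i : tupleField x) : Ω) = x i := rfl

/-- **Absolute logarithmic height** of a finite tuple of algebraic numbers (a projective height:
see `absLogHeight_smul`). -/
noncomputable def absLogHeight [Finite ι] (x : ι → Ω) : ℝ :=
  logHeight (tupleLift x) / finrank ℚ (tupleField x)

theorem absLogHeight_nonneg [Finite ι] (x : ι → Ω) : 0 ≤ absLogHeight x :=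
  div_nonneg (logHeight_nonneg _) (Nat.cast_nonneg _)

/-- The absolute height is computed by any number field containing the coordinates. -/
theorem absLogHeight_map [Finite ι] {K : Type*} [Field K] [NumberField K] (f : K →+* Ω)
    (x : ι → K) : absLogHeight (fun i => f (x i)) = logHeight x / finrank ℚ K := by
  set y : ι → Ω := fun i => f (x i) with hy
  let f' : K →ₐ[ℚ] Ω := f.toRatAlgHom
  have hle : tupleField y ≤ f'.fieldRange := by
    rw [tupleField, adjoin_le_iff]
    rintro _ ⟨i, rfl⟩
    exact ⟨x i, rfl⟩
  let e : K ≃ₐ[ℚ] f'.fieldRange := AlgEquiv.ofInjectiveField f'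
  let g : tupleField y →ₐ[ℚ] K := (e.symm : f'.fieldRange →ₐ[ℚ] K).comp (inclusion hle)
  have hfg : ∀ z : tupleField y, f (g z) = (z : Ω) := by
    intro z
    have h1 : e (g z) = inclusion hle z := by
      show e (e.symm (inclusion hle z)) = inclusion hle z
      exact e.apply_symm_apply _
    have h2 : ((e (g z) : f'.fieldRange) : Ω) = ((inclusion hle z : f'.fieldRange) : Ω) :=
      congrArg (fun w : f'.fieldRange => (w : Ω)) h1
    exact h2
  have hgx : ∀ i, g (tupleLift y i) = x i := fun i => f.injective (by rw [hfg]; rfl)
  have := logHeight_div_finrank_map (g : tupleField y →+* K) (tupleLift y)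
  simp only [RingHom.coe_coe, hgx] at this
  rw [absLogHeight, ← this]

end Def

section API

variable {Ω : Type*} [Field Ω] [CharZero Ω] [Algebra.IsAlgebraic ℚ Ω]
variable {ι : Type*} [Finite ι]

omit [Algebra.IsAlgebraic ℚ Ω] in
/-- an intermediate field of finite degree over `ℚ` is a number field. -/
theorem numberField_of_finiteDimensional (K : IntermediateField ℚ Ω) [FiniteDimensional ℚ K] :
    NumberField K where
  to_charZero := inferInstance
  to_finiteDimensional := inferInstance

/-- The absolute height computed in any finite subextension containing the coordinates. -/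
theorem absLogHeight_eq_of_mem (K : IntermediateField ℚ Ω) [FiniteDimensional ℚ K]
    (x : ι → Ω) (hx : ∀ i, x i ∈ K) :
    letI := numberField_of_finiteDimensional K
    absLogHeight x = logHeight (fun i => (⟨x i, hx i⟩ : K)) / finrank ℚ K := by
  have := numberField_of_finiteDimensional K
  exact absLogHeight_map (algebraMap K Ω) (fun i => (⟨x i, hx i⟩ : K))

/-- Finitely many algebraic numbers lie in a common number field. -/
theorem exists_finiteDimensional_of_finite (S : Set Ω) (hS : S.Finite) :
    ∃ K : IntermediateField ℚ Ω, FiniteDimensional ℚ K ∧ S ⊆ K :=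
  ⟨adjoin ℚ S, by
    have : Finite S := hS
    exact finiteDimensional_adjoin (fun y _ => Algebra.IsIntegral.isIntegral y),
    subset_adjoin ℚ S⟩

/-- The absolute height is invariant under field homomorphisms (in particular under Galois
conjugation). -/
theorem absLogHeight_comp_ringHom {Ω' : Type*} [Field Ω'] [CharZero Ω'] [Algebra.IsAlgebraic ℚ Ω']
    (σ : Ω →+* Ω') (x : ι → Ω) : absLogHeight (fun i => σ (x i)) = absLogHeight x := by
  have h := absLogHeight_map (σ.comp (algebraMap (tupleField x) Ω)) (tupleLift x)
  exact h

/-- Galois invariance of the absolute height. -/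
theorem absLogHeight_comp_algEquiv (σ : Ω ≃ₐ[ℚ] Ω) (x : ι → Ω) :
    absLogHeight (fun i => σ (x i)) = absLogHeight x :=
  absLogHeight_comp_ringHom (σ : Ω →+* Ω) x

/-- Projective invariance: scaling by a nonzero constant does not change the absolute height. -/
theorem absLogHeight_smul (x : ι → Ω) {c : Ω} (hc : c ≠ 0) :
    absLogHeight (c • x) = absLogHeight x := by
  obtain ⟨K, hK, hS⟩ := exists_finiteDimensional_of_finite (insert c (Set.range x))
    ((Set.finite_range x).insert c)
  have := numberField_of_finiteDimensional K
  have hcK : c ∈ K := hS (Set.mem_insert _ _)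
  have hxK : ∀ i, x i ∈ K := fun i => hS (Set.mem_insert_of_mem _ ⟨i, rfl⟩)
  have hcxK : ∀ i, (c • x) i ∈ K := fun i => K.mul_mem hcK (hxK i)
  rw [absLogHeight_eq_of_mem K x hxK, absLogHeight_eq_of_mem K (c • x) hcxK]
  congr 1
  have hc' : (⟨c, hcK⟩ : K) ≠ 0 := fun h => hc (congrArg Subtype.val h)
  rw [← logHeight_smul_eq_logHeight (fun i => (⟨x i, hxK i⟩ : K)) hc']
  rfl

@[simp] theorem absLogHeight_zero : absLogHeight (0 : ι → Ω) = 0 := by
  have h := absLogHeight_map (algebraMap ℚ Ω) (0 : ι → ℚ)
  simp only [Pi.zero_apply, map_zero, logHeight_zero, zero_div] at h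
  exact h

/-- Passing to a subtuple (or reindexing) does not increase the absolute height. -/
theorem absLogHeight_comp_le {ι' : Type*} [Finite ι'] (f : ι → ι') (x : ι' → Ω) :
    absLogHeight (x ∘ f) ≤ absLogHeight x := by
  have hmem : ∀ i, (x ∘ f) i ∈ tupleField x := fun i => (tupleLift x (f i)).2
  rw [absLogHeight_eq_of_mem (tupleField x) (x ∘ f) hmem, absLogHeight]
  apply div_le_div_of_nonneg_right _ (Nat.cast_nonneg _)
  exact logHeight_comp_le f (tupleLift x)

theorem absLogHeight_comp_equiv {ι' : Type*} [Finite ι'] (e : ι ≃ ι') (x : ι' → Ω) :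
    absLogHeight (x ∘ e) = absLogHeight x := by
  refine le_antisymm (absLogHeight_comp_le e x) ?_
  have := absLogHeight_comp_le e.symm (x ∘ e)
  simpa [Function.comp_assoc] using this

end API

end Fermat.Agent.MW.AbsHeightDef10
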