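/-
helper73, programme MW (S17): the two definitions of the absolute logarithmic height on tuples of
algebraic numbers (`AbsHeightDef10.absLogHeight`, canonical, used by KL39 and HM73; and
`AbsHeight12.absLogHeight`) agree; Segre and coordinatewise powers for the canonical one.
-/
import Fermat.Agent.MW.AbsHeightDef10
import Fermat.Agent.MW.AbsHeight12.Abs

set_option autoImplicit false

namespace Fermat.Agent.MW.AbsHeightBridge73

variable {Ω : Type*} [Field Ω] [CharZero Ω] [Algebra.IsAlgebraic ℚ Ω]
variable {ι ι' : Type*} [Finite ι] [Finite ι']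

theorem absLogHeight_eq (x : ι → Ω) :
    AbsHeightDef10.absLogHeight x = AbsHeight12.absLogHeight x := by
  have h := AbsHeight12.absLogHeight_comp
    (algebraMap (AbsHeightDef10.tupleField x) Ω) (AbsHeightDef10.tupleLift x)
  exact h.symm

/-- **Segre** for the canonical absolute height. -/
theorem absLogHeight_fun_mul_eq {x : ι → Ω} (hx : x ≠ 0) {y : ι' → Ω} (hy : y ≠ 0) :
    AbsHeightDef10.absLogHeight (fun a : ι × ι' => x a.1 * y a.2) =
      AbsHeightDef10.absLogHeight x + AbsHeightDef10.absLogHeight y := by
  rw [absLogHeight_eq, absLogHeight_eq, absLogHeight_eq]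
  exact AbsHeight12.absLogHeight_fun_mul_eq hx hy

/-- Coordinatewise powers for the canonical absolute height. -/
theorem absLogHeight_pow (x : ι → Ω) (n : ℕ) :
    AbsHeightDef10.absLogHeight (x ^ n) = n * AbsHeightDef10.absLogHeight x := by
  rw [absLogHeight_eq, absLogHeight_eq]
  exact AbsHeight12.absLogHeight_pow x n

end Fermat.Agent.MW.AbsHeightBridge73
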