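/-
helper73, programme MW (S17), brick DIV: **`JZero N = J_0(N)(Qbar)` is divisible.**

`Pic0 K F` is `n`-divisible for the function field `F / K` of a curve over an algebraically closed
field `K` in which `n` is invertible: `[n]` is étale on the Jacobian `J` of a model curve
(`Inst7.JGroup.mulBy_etale`), hence surjective on `K`-points (`Cnt14.exists_nsmul_eq`), and
`β : Pic0 K F ≃ J(K)` is an isomorphism of groups (`PicBridge84.Iso`).
(Same statement as helper5's draft `MW/Div5.lean`, proved through helper7's `JGroup` API.)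
-/
import Fermat.Agent.MW.Inst7.JGroup
import Fermat.Agent.AV.PicBridge84.Jacobian
import Fermat.Agent.AV.F1Model15.Main
import Fermat.Agent.MW.CurveInst7

set_option autoImplicit false
set_option linter.unusedSectionVars false
set_option linter.style.haveILetI false

universe u

open CategoryTheory AlgebraicGeometry AlgebraicGeometry.RelPicard ModularCurve AlgebraicCurve
  NeronModelInfra GoodReductionJacobian

namespace Fermat.Agent.MW.Div73

open Fermat.Agent.MW.Inst7 Fermat.Agent.AV.F1Model15 Fermat.Agent.AV.PicBridge84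

variable {K F : Type u} [Field K] [Field F] [Algebra K F]

/-- **DIV, model form.** -/
theorem exists_nsmul_eq_of_model (M : Model K F) [IsAlgClosed K] [IsCurveOver K F]
    (n : ℕ) (hn : (n : K) ≠ 0) (x : Pic0 K F) : ∃ y : Pic0 K F, n • y = x := by
  haveI := M.isIntegral
  haveI := M.isProper
  haveI := M.smooth
  obtain ⟨D', h, -, hsm, hpr, hgc, -, -⟩ := Jacobian.exists_jacobian M.cc
  haveI := hsm
  haveI := hpr
  haveI := hgc
  have hA := JGroup.bundle M h
  haveI : Etale ((JGroup.lawJ M h).schemeNsmul n) := JGroup.mulBy_etale M h n hn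
  obtain ⟨Q, hQ⟩ := Fermat.Agent.AV.Cnt14.exists_nsmul_eq (JGroup.lawJ M h) hA n (Iso.β M h x)
  obtain ⟨y, rfl⟩ := JGroup.β_surj M h Q
  exact ⟨y, JGroup.β_inj M h (by rw [JGroup.β_nsmul', hQ])⟩

/-- **DIV.** -/
theorem exists_nsmul_eq [IsAlgClosed K] [CharZero K] [IsCurveOver K F]
    [Algebra.EssFiniteType K F] (n : ℕ) (hn : n ≠ 0) (x : Pic0 K F) :
    ∃ y : Pic0 K F, n • y = x := by
  obtain ⟨M⟩ := modelExists.{u} K F
  exact exists_nsmul_eq_of_model M n (Nat.cast_ne_zero.2 hn) x

/-- **DIV for `J_0(N)(Qbar)`**: multiplication by `n ≠ 0` is surjective on `JZero N`. -/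
theorem jzero_divisible (N : ℕ) [NeZero N] (n : ℕ) (hn : n ≠ 0) (x : JZero N) :
    ∃ y : JZero N, n • y = x := by
  haveI := CurveInst7.isCurveOver_bar N
  haveI := CurveInst7.essFiniteType_bar N
  exact exists_nsmul_eq n hn x

/-- The shape consumed by `MW.s17_of_heightData_of_div` and `MW/Weak65/Final.lean`. -/
theorem jzero_two_divisible (N : ℕ) [NeZero N] : ∀ x : JZero N, ∃ y : JZero N, 2 • y = x :=
  fun x => jzero_divisible N 2 two_ne_zero x

end Fermat.Agent.MW.Div73
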