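/-
Fermat/Agent/MW/Div5.lean  (helper5)

Programme MW (S17), brick DIV (id 459): **`Pic0 K F` is `n`-divisible** for the function field
`F / K` of a curve over an algebraically closed field `K` in which `n` is invertible.

Proof = pure assembly of landed AV bricks:

* helper84's F2 (`PicBridge84`): for a model curve `M : F1Model15.Model K F`,
  `pic0Map : Pic0 K F →+ Additive (PicQ c)` is injective with range the classes of degree `0`,
  and `toPic h : J(K) → PicQ c` is an injective homomorphism onto the classes of Euler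
  characteristic `χ(O)`, for the Jacobian `D'` of the S25 stack (`Jacobian.exists_jacobian`);
* helper88's ETN: `[n]` is étale on `J` when `(n : K) ≠ 0`;
* helper14's CNT: `[n]` étale on an abelian scheme ⟹ `x ↦ n • x` surjective on `K`-points.

Main statements:

* `exists_nsmul_eq_of_model (M : Model K F) (n) (hn : (n : K) ≠ 0) (x : Pic0 K F) : ∃ y, n • y = x`;
* `exists_nsmul_eq (hM : ModelExists) ...` the same from helper15's `ModelExists`, for
  `[CharZero K] [IsCurveOver K F] [Algebra.EssFiniteType K F]` and `n ≠ 0`.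
-/
import Mathlib
import Fermat.Agent.AV.PicBridge84.Jacobian
import Fermat.Agent.AV.PicBridge84.Model
import Fermat.Agent.AV.Cnt14.Degree
import Fermat.Agent.AV.Basics88.NsmulEtale

set_option autoImplicit false
set_option linter.unusedSectionVars false
set_option linter.style.haveILetI false

noncomputable section

universe u

open CategoryTheory CategoryTheory.Limits AlgebraicGeometry AlgebraicGeometry.RelPicard
  NeronModelInfra GoodReductionJacobian TensorProduct AlgebraicCurve

namespace Fermat.Agent.MW.Div5

open scoped Fermat.Agent.Jac.BaseChange75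
open Fermat.Agent.Jac Fermat.Agent.Jac.AbelJacobi73 Fermat.Agent.Jac.BridgeK84
  Fermat.Agent.Jac.FinalWiring41 Fermat.Agent.AV.F1Model15
  Fermat.Agent.AV.PicBridge84.Places Fermat.Agent.AV.PicBridge84.SchemeSide
  Fermat.Agent.AV.PicBridge84.ModelGlue Fermat.Agent.AV.PicBridge84.Torsion
  Fermat.Agent.AV.PicBridge84.Chart Fermat.Agent.AV.PicBridge84.DivMap
  Fermat.Agent.AV.PicBridge84.Kernel

/-! ### The algebraic half: divisibility in `PicQ c` lifts to `Pic0 K F` -/

section Algebraic

variable {K F : Type u} [Field K] [Field F] [Algebra K F]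
variable {R0 R1 R01 : Type u} [CommRing R0] [CommRing R1] [CommRing R01]
  [Algebra K R0] [Algebra K R1] [Algebra K R01] [Algebra R0 R01] [Algebra R1 R01]
  [IsScalarTower K R0 R01] [IsScalarTower K R1 R01]
  [IsDedekindDomain R0] [IsDedekindDomain R1] [IsDomain R01]
  [Algebra R0 F] [Algebra R1 F] [Algebra R01 F]
  [IsScalarTower R0 R01 F] [IsScalarTower R1 R01 F] [IsScalarTower K R0 F] [IsScalarTower K R1 F]
  [IsFractionRing R0 F] [IsFractionRing R1 F]

variable {c : TwoChart K R0 R1 R01}

/-- If the class of `x : Pic0 K F` in `PicQ c` is an `n`-th power (`0 < n`), then `x` is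
`n`-divisible in `Pic0 K F`. -/
theorem exists_nsmul_eq_of_pow_eq (H : CurveHyp c)
    (hcov : ∀ v : Place K F, Contains v R0 ∨ Contains v R1) (hdeg : ∀ v : Place K F, v.deg = 1)
    {n : ℕ} (hn : 0 < n) (x : Pic0 K F) {η' : PicQ c}
    (hη' : η' ^ n = Additive.toMul (pic0Map H hcov x)) : ∃ y : Pic0 K F, n • y = x := by
  -- `η'` has degree zero
  obtain ⟨v0⟩ := exists_place (K := K) (F := F) H
  obtain ⟨d, hd⟩ := H.exists_hasDeg (isRatPointPair_X H hcov v0) η'
  have h1 := hd.pow c n
  rw [hη'] at h1
  have h2 : (n : ℤ) * d = 0 := hasDeg_unique h1 (hasDeg_pic0Map H hcov hdeg x)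
  have h3 : d = 0 := by
    rcases mul_eq_zero.1 h2 with h | h
    · exact absurd h (by exact_mod_cast hn.ne')
    · exact h
  rw [h3] at hd
  obtain ⟨y, hy⟩ := exists_pic0Map_eq H hcov hdeg hd
  refine ⟨y, pic0Map_injective H hcov ?_⟩
  rw [map_nsmul, hy]
  apply Additive.toMul.injective
  rw [toMul_nsmul, toMul_ofMul, hη']

end Algebraic

/-! ### The Jacobian of the model is an abelian scheme with surjective `[n]` -/

section Scheme

variable {k : Type u} [Field k] [IsAlgClosed k] {C : Scheme.{u}}
  {c : C ⟶ Spec (CommRingCat.of k)} {ε : SchemeHomOver (𝟙 (Spec (CommRingCat.of k))) c}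
  [IsIntegral C] {cc : CurveCharts c ε} {D : AffineDictionary cc}
  {D' : RelativePic0Designation k c}

/-- The Jacobian of the S25 stack satisfies the abelian scheme property bundle. -/
theorem bundle_of_represents (h : RepresentsRelSubPic c ε (cut41 D) D')
    (hsm : Smooth D'.toBase) (hpr : IsProper D'.toBase)
    (hgc : GeometricallyConnected D'.toBase) : AbelianSchemePropertyBundle k D'.toBase where
  smooth := hsm
  proper := hpr
  connectedFibres := fun s => Scheme.Hom.isConnected_preimage_singleton D'.toBase s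
  hasGroupLaw := ⟨law h⟩

/-- **Divisibility of the Picard classes of Euler characteristic `χ(O)`**: every class
`toPic h P` is an `n`-th power of such a class, for `(n : k) ≠ 0`. -/
theorem exists_pow_eq_toPic (h : RepresentsRelSubPic c ε (cut41 D) D')
    (hsm : Smooth D'.toBase) (hpr : IsProper D'.toBase)
    (hgc : GeometricallyConnected D'.toBase) (n : ℕ) (hn : (n : k) ≠ 0)
    (η : PicQ (cc.chartA k)) (hη : chiQ (cc.chartA k) η = chiQ (cc.chartA k) 1) :
    ∃ η' : PicQ (cc.chartA k), η' ^ n = η := by
  have hA := bundle_of_represents h hsm hpr hgc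
  haveI : Etale ((law h).schemeNsmul n) :=
    Fermat.Agent.AV.Basics88.NsmulEtale.etale_schemeNsmul_of_bundle (law h)
      (isCommutative_law h) hA n hn
  obtain ⟨P, hP⟩ := exists_toPic_eq h η hη
  obtain ⟨Q, hQ⟩ := Fermat.Agent.AV.Cnt14.exists_nsmul_eq (law h) hA n P
  exact ⟨toPic h Q, by rw [← toPic_nsmul, hQ, hP]⟩

end Scheme

/-! ### Divisibility of `Pic0 K F` -/

section Model

variable {K F : Type u} [Field K] [Field F] [Algebra K F]

attribute [local instance] algF0 algF1 algF01

/-- **DIV, model form.**  For a model curve `M` of the function field `F / K` over an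
algebraically closed field `K` and `n` invertible in `K`, the group `Pic0 K F` is `n`-divisible. -/
theorem exists_nsmul_eq_of_model (M : Model K F) [IsAlgClosed K] [IsCurveOver K F]
    (n : ℕ) (hn : (n : K) ≠ 0) (x : Pic0 K F) : ∃ y : Pic0 K F, n • y = x := by
  haveI := M.isIntegral
  haveI := M.isProper
  haveI := M.smooth
  have hn0 : 0 < n := by
    rcases Nat.eq_zero_or_pos n with h | h
    · exact absurd (by rw [h, Nat.cast_zero]) hn
    · exact h
  obtain ⟨D', h, -, hsm, hpr, hgc, -, -⟩ :=
    Fermat.Agent.AV.PicBridge84.Jacobian.exists_jacobian M.cc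
  haveI := isDedekindDomain_KB0 M.cc K Function.bijective_id
  haveI := isDedekindDomain_KB1 M.cc K Function.bijective_id
  haveI := isDomain_KB01 M.cc K Function.bijective_id
  haveI := isFractionRing0 M
  haveI := isFractionRing1 M
  haveI := tower_K0 M
  haveI := tower_K1 M
  haveI := tower_0_01 M
  haveI := tower_1_01 M
  have H : CurveHyp (M.cc.chartA K) := curveHypK M.cc K Function.bijective_id
  have hdeg : ∀ v : Place K F, v.deg = 1 := fun v => IsCurveOver.deg_eq_one_of_isAlgClosed v
  have hχ : chiQ (M.cc.chartA K) (Additive.toMul (pic0Map H (covering_model M) x)) =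
      chiQ (M.cc.chartA K) 1 := by
    have h0 := (hasDeg_pic0Map H (covering_model M) hdeg x).chiQ_eq (M.cc.chartA K)
    rw [h0, add_zero]
  obtain ⟨η', hη'⟩ := exists_pow_eq_toPic h hsm hpr hgc n hn _ hχ
  exact exists_nsmul_eq_of_pow_eq H (covering_model M) hdeg hn0 x hη'

/-- **DIV** from helper15's `ModelExists` (brick F1 of programme AV). -/
theorem exists_nsmul_eq (hM : ModelExists.{u}) [IsAlgClosed K] [CharZero K] [IsCurveOver K F]
    [Algebra.EssFiniteType K F] (n : ℕ) (hn : n ≠ 0) (x : Pic0 K F) :
    ∃ y : Pic0 K F, n • y = x := by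
  obtain ⟨M⟩ := hM K F
  exact exists_nsmul_eq_of_model M n (Nat.cast_ne_zero.2 hn) x

end Model

end Fermat.Agent.MW.Div5

end
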