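/-
Fermat/Agent/MW/DivJZero5.lean  (helper5; compile pass + switch to `CurveInst7` by helper32)

Programme MW (S17), brick DIV (id 459), final form: **`JZero N = J0(N)(Qbar)` is divisible**,
given helper15's `ModelExists` (brick F1 of programme AV, universe `0`).

* `jzero_divisible (hM : ModelExists.{0}) N n (hn : n ≠ 0) : ∀ x : JZero N, ∃ y, n • y = x`;
* `jzero_two_divisible (hM) N : ∀ x : JZero N, ∃ y, 2 • y = x`, the exact shape consumed by
  `MW.s17_of_heightData_of_div` and by `MW/WeakMW65.lean`.
-/
import Mathlib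
import Fermat.Agent.MW.Div5
import Fermat.Agent.MW.CurveInst7

set_option autoImplicit false

open AlgebraicCurve ModularCurve

namespace Fermat.Agent.MW.DivJZero5

open Fermat.Agent.AV.F1Model15

/-- **DIV for `J0(N)(Qbar)`**: multiplication by `n ≠ 0` is surjective on `JZero N`. -/
theorem jzero_divisible (hM : ModelExists.{0}) (N : ℕ) [NeZero N] (n : ℕ) (hn : n ≠ 0)
    (x : JZero N) : ∃ y : JZero N, n • y = x := by
  haveI := Fermat.Agent.MW.CurveInst7.isCurveOver_bar N
  haveI := Fermat.Agent.MW.CurveInst7.essFiniteType_bar N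
  exact Fermat.Agent.MW.Div5.exists_nsmul_eq hM n hn x

/-- The shape consumed by `MW.s17_of_heightData_of_div`. -/
theorem jzero_two_divisible (hM : ModelExists.{0}) (N : ℕ) [NeZero N] :
    ∀ x : JZero N, ∃ y : JZero N, 2 • y = x :=
  fun x => jzero_divisible hM N 2 two_ne_zero x

end Fermat.Agent.MW.DivJZero5
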