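/-
Fermat/Agent/MW/DivFinal5.lean  (helper5)

Programme MW (S17), brick DIV (id 459), UNCONDITIONAL form: `JZero N = J0(N)(Qbar)` is divisible.
`DivJZero5.jzero_divisible` fed with helper15's landed `F1Model15.modelExists`.
-/
import Mathlib
import Fermat.Agent.MW.DivJZero5
import Fermat.Agent.AV.F1Model15.Main

set_option autoImplicit false

open AlgebraicCurve ModularCurve

namespace Fermat.Agent.MW.DivFinal5

/-- **DIV, unconditional**: multiplication by `n ≠ 0` is surjective on `JZero N`. -/
theorem jzero_divisible (N : ℕ) [NeZero N] (n : ℕ) (hn : n ≠ 0) (x : JZero N) :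
    ∃ y : JZero N, n • y = x :=
  Fermat.Agent.MW.DivJZero5.jzero_divisible Fermat.Agent.AV.F1Model15.modelExists N n hn x

/-- **DIV, unconditional**, in the shape consumed by `MW.s17_of_heightData_of_div` and
`WeakMW65`. -/
theorem jzero_two_divisible (N : ℕ) [NeZero N] : ∀ x : JZero N, ∃ y : JZero N, 2 • y = x :=
  fun x => jzero_divisible N 2 two_ne_zero x

/-- Divisibility of `Pic0 K F` for every function field of one variable over an algebraically
closed field of characteristic zero (one universe). -/
theorem pic0_divisible {K F : Type} [Field K] [Field F] [Algebra K F] [IsAlgClosed K] [CharZero K]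
    [IsCurveOver K F] [Algebra.EssFiniteType K F] (n : ℕ) (hn : n ≠ 0) (x : Pic0 K F) :
    ∃ y : Pic0 K F, n • y = x :=
  Fermat.Agent.MW.Div5.exists_nsmul_eq Fermat.Agent.AV.F1Model15.modelExists n hn x

end Fermat.Agent.MW.DivFinal5
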