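/-
helper10 — programme MW (S17), brick ABSH-2, part (1): the absolute logarithmic height of a single
algebraic number, `absLogHeightOne a = h(a : 1)`, and its basic inequalities, transferred from
Mathlib's per-number-field statements.
-/
import Fermat.Agent.MW.AbsHeightDef10

set_option autoImplicit false

open NumberField Height Module IntermediateField

namespace Fermat.Agent.MW.AbsHeightOne10

open Fermat.Agent.MW.AbsHeightDef10

variable {Ω : Type*} [Field Ω] [CharZero Ω] [Algebra.IsAlgebraic ℚ Ω]

/-- The absolute logarithmic height of an algebraic number. -/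
noncomputable def absLogHeightOne (a : Ω) : ℝ := absLogHeight ![a, 1]

theorem absLogHeightOne_nonneg (a : Ω) : 0 ≤ absLogHeightOne a := absLogHeight_nonneg _

/-- The absolute height of `a`, computed in any finite subextension containing `a`. -/
theorem absLogHeightOne_eq_of_mem (K : IntermediateField ℚ Ω) [FiniteDimensional ℚ K]
    (a : Ω) (ha : a ∈ K) :
    letI := numberField_of_finiteDimensional K
    absLogHeightOne a = logHeight₁ (⟨a, ha⟩ : K) / finrank ℚ K := by
  have := numberField_of_finiteDimensional K
  have hmem : ∀ i, (![a, 1] : Fin 2 → Ω) i ∈ K := fun i => by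
    fin_cases i
    · exact ha
    · exact K.one_mem
  rw [absLogHeightOne, absLogHeight_eq_of_mem K _ hmem, logHeight₁_eq_logHeight]
  congr 2
  funext i
  fin_cases i <;> rfl

/-- The absolute height of the image of an element of a number field. -/
theorem absLogHeightOne_map {K : Type*} [Field K] [NumberField K] (f : K →+* Ω) (a : K) :
    absLogHeightOne (f a) = logHeight₁ a / finrank ℚ K := by
  rw [absLogHeightOne, logHeight₁_eq_logHeight, ← absLogHeight_map f ![a, 1]]
  congr 1
  funext i
  fin_cases i <;> simp

theorem absLogHeightOne_ratCast (q : ℚ) : absLogHeightOne (q : Ω) = logHeight₁ q := by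
  have := absLogHeightOne_map (algebraMap ℚ Ω) q
  simpa using this

theorem absLogHeightOne_comp_ringHom {Ω' : Type*} [Field Ω'] [CharZero Ω']
    [Algebra.IsAlgebraic ℚ Ω'] (σ : Ω →+* Ω') (a : Ω) :
    absLogHeightOne (σ a) = absLogHeightOne a := by
  rw [absLogHeightOne, absLogHeightOne, ← absLogHeight_comp_ringHom σ ![a, 1]]
  congr 1
  funext i
  fin_cases i <;> simp

@[simp] theorem absLogHeightOne_zero : absLogHeightOne (0 : Ω) = 0 := by
  have := absLogHeightOne_ratCast (Ω := Ω) 0
  simpa using this

@[simp] theorem absLogHeightOne_one : absLogHeightOne (1 : Ω) = 0 := by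
  have := absLogHeightOne_ratCast (Ω := Ω) 1
  simpa using this

/-- a pair of algebraic numbers lies in a common number field. -/
theorem exists_field_pair (a b : Ω) :
    ∃ K : IntermediateField ℚ Ω, FiniteDimensional ℚ K ∧ a ∈ K ∧ b ∈ K := by
  obtain ⟨K, hK, hS⟩ := exists_finiteDimensional_of_finite ({a, b} : Set Ω) (by simp)
  exact ⟨K, hK, hS (by simp), hS (by simp)⟩

theorem absLogHeightOne_mul_le (a b : Ω) :
    absLogHeightOne (a * b) ≤ absLogHeightOne a + absLogHeightOne b := by
  obtain ⟨K, hK, ha, hb⟩ := exists_field_pair a b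
  have := numberField_of_finiteDimensional K
  rw [absLogHeightOne_eq_of_mem K a ha, absLogHeightOne_eq_of_mem K b hb,
    absLogHeightOne_eq_of_mem K (a * b) (K.mul_mem ha hb), ← add_div]
  apply div_le_div_of_nonneg_right _ (Nat.cast_nonneg _)
  exact logHeight₁_mul_le (⟨a, ha⟩ : K) ⟨b, hb⟩

theorem absLogHeightOne_add_le (a b : Ω) :
    absLogHeightOne (a + b) ≤ absLogHeightOne a + absLogHeightOne b + Real.log 2 := by
  obtain ⟨K, hK, ha, hb⟩ := exists_field_pair a b
  have := numberField_of_finiteDimensional K
  rw [absLogHeightOne_eq_of_mem K a ha, absLogHeightOne_eq_of_mem K b hb,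
    absLogHeightOne_eq_of_mem K (a + b) (K.add_mem ha hb)]
  have h := logHeight₁_add_le (⟨a, ha⟩ : K) ⟨b, hb⟩
  have hd : (0 : ℝ) < finrank ℚ K := by exact_mod_cast finrank_pos
  rw [totalWeight_eq_finrank] at h
  have hab : (⟨a, ha⟩ + ⟨b, hb⟩ : K) = ⟨a + b, K.add_mem ha hb⟩ := rfl
  rw [hab] at h
  rw [div_le_iff₀ hd]
  have e : (logHeight₁ (⟨a, ha⟩ : K) / finrank ℚ K + logHeight₁ (⟨b, hb⟩ : K) / finrank ℚ K +
      Real.log 2) * finrank ℚ K =
      logHeight₁ (⟨a, ha⟩ : K) + logHeight₁ (⟨b, hb⟩ : K) + Real.log 2 * finrank ℚ K := by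
    field_simp
  rw [e]
  linarith

@[simp] theorem absLogHeightOne_neg (a : Ω) : absLogHeightOne (-a) = absLogHeightOne a := by
  obtain ⟨K, hK, ha, -⟩ := exists_field_pair a a
  have := numberField_of_finiteDimensional K
  rw [absLogHeightOne_eq_of_mem K a ha, absLogHeightOne_eq_of_mem K (-a) (K.neg_mem ha)]
  congr 1
  exact logHeight₁_neg (⟨a, ha⟩ : K)

@[simp] theorem absLogHeightOne_inv (a : Ω) : absLogHeightOne (a⁻¹) = absLogHeightOne a := by
  obtain ⟨K, hK, ha, -⟩ := exists_field_pair a a
  have := numberField_of_finiteDimensional K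
  rw [absLogHeightOne_eq_of_mem K a ha, absLogHeightOne_eq_of_mem K (a⁻¹) (K.inv_mem ha)]
  congr 1
  exact logHeight₁_inv (⟨a, ha⟩ : K)

theorem absLogHeightOne_pow (a : Ω) (n : ℕ) : absLogHeightOne (a ^ n) = n * absLogHeightOne a := by
  obtain ⟨K, hK, ha, -⟩ := exists_field_pair a a
  have := numberField_of_finiteDimensional K
  rw [absLogHeightOne_eq_of_mem K a ha, absLogHeightOne_eq_of_mem K (a ^ n) (pow_mem ha n),
    ← mul_div_assoc]
  congr 1
  exact logHeight₁_pow (⟨a, ha⟩ : K) n

theorem absLogHeightOne_sub_le (a b : Ω) :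
    absLogHeightOne (a - b) ≤ absLogHeightOne a + absLogHeightOne b + Real.log 2 := by
  rw [sub_eq_add_neg, ← absLogHeightOne_neg b]
  exact absLogHeightOne_add_le a (-b)

/-- Height of a product over a multiset. -/
theorem absLogHeightOne_multiset_prod_le (s : Multiset Ω) :
    absLogHeightOne s.prod ≤ (s.map absLogHeightOne).sum := by
  induction s using Multiset.induction with
  | empty => simp
  | cons a s ih =>
    rw [Multiset.prod_cons, Multiset.map_cons, Multiset.sum_cons]
    exact (absLogHeightOne_mul_le a s.prod).trans (by linarith)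

/-- Crude bound for the height of a sum over a multiset. -/
theorem absLogHeightOne_multiset_sum_le (s : Multiset Ω) :
    absLogHeightOne s.sum ≤ (s.map absLogHeightOne).sum + Multiset.card s * Real.log 2 := by
  induction s using Multiset.induction with
  | empty => simp
  | cons a s ih =>
    rw [Multiset.sum_cons, Multiset.map_cons, Multiset.sum_cons, Multiset.card_cons]
    push_cast
    have := absLogHeightOne_add_le a s.sum
    linarith

/-- The height of a coordinate of an affine point is bounded by the height of the point. -/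
theorem absLogHeightOne_le_absLogHeight_cons {ι : Type*} [Finite ι] (x : ι → Ω) (i : ι) :
    absLogHeightOne (x i) ≤ absLogHeight (fun o : Option ι => o.elim 1 x) := by
  have h := absLogHeight_comp_le (fun j : Fin 2 => if j = 0 then some i else none)
    (fun o : Option ι => o.elim 1 x)
  refine le_trans (le_of_eq ?_) h
  rw [absLogHeightOne]
  congr 1
  funext j
  fin_cases j <;> simp

end Fermat.Agent.MW.AbsHeightOne10
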