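/-
helper10 — programme MW (S17), brick ABSH-2, part (N): conjugate algebraic numbers have the same
absolute height, and Northcott's theorem for algebraic numbers of bounded degree and bounded
absolute height.
-/
import Fermat.Agent.MW.AbsHeightOne10
import Mathlib.FieldTheory.IsAlgClosed.AlgebraicClosure
import Mathlib.RingTheory.Polynomial.Vieta

set_option autoImplicit false

open NumberField Height Module IntermediateField Polynomial

namespace Fermat.Agent.MW.AbsHeightNorthcott10

open Fermat.Agent.MW.AbsHeightDef10 Fermat.Agent.MW.AbsHeightOne10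

variable {Ω : Type*} [Field Ω] [CharZero Ω] [Algebra.IsAlgebraic ℚ Ω]

/-- Conjugate algebraic numbers (possibly living in different fields) have the same absolute
height. -/
theorem absLogHeightOne_eq_of_aeval_minpoly_eq_zero {Ω' : Type*} [Field Ω'] [CharZero Ω']
    [Algebra.IsAlgebraic ℚ Ω'] (a : Ω) (a' : Ω') (h : aeval a' (minpoly ℚ a) = 0) :
    absLogHeightOne a' = absLogHeightOne a := by
  have ha : IsIntegral ℚ a := Algebra.IsIntegral.isIntegral a
  have : FiniteDimensional ℚ ℚ⟮a⟯ := adjoin.finiteDimensional ha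
  have : NumberField ℚ⟮a⟯ := numberField_of_finiteDimensional _
  have hmem : a' ∈ (minpoly ℚ a).aroots Ω' := by
    rw [mem_aroots]
    exact ⟨minpoly.ne_zero ha, h⟩
  let φ : ℚ⟮a⟯ →ₐ[ℚ] Ω' := (algHomAdjoinIntegralEquiv ℚ ha).symm ⟨a', hmem⟩
  have hφ : φ (AdjoinSimple.gen ℚ a) = a' := algHomAdjoinIntegralEquiv_symm_apply_gen ℚ ha _
  have h1 := absLogHeightOne_map (φ : ℚ⟮a⟯ →+* Ω') (AdjoinSimple.gen ℚ a)
  have h2 := absLogHeightOne_map (algebraMap ℚ⟮a⟯ Ω) (AdjoinSimple.gen ℚ a)
  rw [RingHom.coe_coe, hφ] at h1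
  rw [AdjoinSimple.algebraMap_gen] at h2
  rw [h1, h2]

/-- sum of a bounded function over a multiset. -/
theorem multiset_sum_map_le {α : Type*} (s : Multiset α) (f : α → ℝ) (b : ℝ)
    (h : ∀ x ∈ s, f x ≤ b) : (s.map f).sum ≤ Multiset.card s * b := by
  induction s using Multiset.induction with
  | empty => simp
  | cons a s ih =>
    rw [Multiset.map_cons, Multiset.sum_cons, Multiset.card_cons]
    push_cast
    have h1 := h a (Multiset.mem_cons_self a s)
    have h2 := ih fun x hx => h x (Multiset.mem_cons_of_mem hx)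
    linarith

/-- The height of an elementary symmetric function of numbers of height at most `B`. -/
theorem absLogHeightOne_esymm_le (R : Multiset Ω) (B : ℝ) (hB : 0 ≤ B)
    (hR : ∀ r ∈ R, absLogHeightOne r ≤ B) (m : ℕ) :
    absLogHeightOne (R.esymm m) ≤
      2 ^ Multiset.card R * (Multiset.card R * B + Real.log 2) := by
  rw [Multiset.esymm]
  refine (absLogHeightOne_multiset_sum_le _).trans ?_
  rw [Multiset.map_map, Multiset.card_map]
  have hcard : (Multiset.card (R.powersetCard m) : ℝ) ≤ 2 ^ Multiset.card R := by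
    rw [Multiset.card_powersetCard]
    exact_mod_cast Nat.choose_le_two_pow _ _
  have hterm : ∀ t ∈ R.powersetCard m,
      (absLogHeightOne ∘ Multiset.prod) t ≤ Multiset.card R * B := by
    intro t ht
    rw [Multiset.mem_powersetCard] at ht
    refine (absLogHeightOne_multiset_prod_le t).trans ?_
    refine (multiset_sum_map_le t _ B fun x hx => hR x (Multiset.mem_of_le ht.1 hx)).trans ?_
    have : (Multiset.card t : ℝ) ≤ Multiset.card R := by
      exact_mod_cast Multiset.card_le_card ht.1
    exact mul_le_mul_of_nonneg_right this hB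
  have h1 := multiset_sum_map_le (R.powersetCard m) (absLogHeightOne ∘ Multiset.prod) _ hterm
  have hlog : 0 ≤ Real.log 2 := Real.log_nonneg (by norm_num)
  have hRB : 0 ≤ (Multiset.card R : ℝ) * B := mul_nonneg (Nat.cast_nonneg _) hB
  calc _ ≤ (Multiset.card (R.powersetCard m) : ℝ) * (Multiset.card R * B) +
          (Multiset.card (R.powersetCard m) : ℝ) * Real.log 2 := by linarith
    _ = (Multiset.card (R.powersetCard m) : ℝ) * (Multiset.card R * B + Real.log 2) := by ring
    _ ≤ _ := mul_le_mul_of_nonneg_right hcard (by linarith)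

/-- Bound for the heights of the coefficients of the minimal polynomial. -/
theorem logHeight₁_coeff_minpoly_le (a : Ω) (B : ℝ) (hB : absLogHeightOne a ≤ B) (k : ℕ) :
    logHeight₁ ((minpoly ℚ a).coeff k) ≤
      2 ^ (minpoly ℚ a).natDegree * ((minpoly ℚ a).natDegree * B + Real.log 2) := by
  have hB0 : 0 ≤ B := (absLogHeightOne_nonneg a).trans hB
  have hlog : 0 ≤ Real.log 2 := Real.log_nonneg (by norm_num)
  set f := minpoly ℚ a with hf
  set n := f.natDegree with hn
  have hC : 0 ≤ (2 : ℝ) ^ n * (n * B + Real.log 2) := by positivity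
  by_cases hk : k ≤ n
  · -- work in an algebraic closure
    let Ω' := AlgebraicClosure Ω
    have : Algebra.IsAlgebraic ℚ Ω' := Algebra.IsAlgebraic.trans ℚ Ω Ω'
    have ha : IsIntegral ℚ a := Algebra.IsIntegral.isIntegral a
    set g : Ω'[X] := f.map (algebraMap ℚ Ω') with hg
    have hmonic : g.Monic := (minpoly.monic ha).map _
    have hdeg : g.natDegree = n := (minpoly.monic ha).natDegree_map _
    have hcard : Multiset.card g.roots = g.natDegree := IsAlgClosed.card_roots_eq_natDegree
    have hroots : ∀ r ∈ g.roots, absLogHeightOne r ≤ B := by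
      intro r hr
      have hr' : aeval r f = 0 := by
        have := (mem_roots hmonic.ne_zero).mp hr
        rwa [IsRoot.def, hg, eval_map_algebraMap] at this
      rw [absLogHeightOne_eq_of_aeval_minpoly_eq_zero a r hr']
      exact hB
    have hcoeff := Polynomial.coeff_eq_esymm_roots_of_card hcard (k := k) (by rw [hdeg]; exact hk)
    rw [hmonic.leadingCoeff, one_mul, hg, coeff_map] at hcoeff
    rw [← absLogHeightOne_ratCast (Ω := Ω'), ← eq_ratCast (algebraMap ℚ Ω'), hcoeff]
    refine (absLogHeightOne_mul_le _ _).trans ?_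
    rw [absLogHeightOne_pow, absLogHeightOne_neg, absLogHeightOne_one, mul_zero, zero_add]
    have := absLogHeightOne_esymm_le g.roots B hB0 hroots (g.natDegree - k)
    rw [hcard, hdeg] at this
    rw [← hg, hdeg]
    exact this
  · rw [coeff_eq_zero_of_natDegree_lt (not_le.mp hk), logHeight₁_zero]
    exact hC

/-- **Northcott's theorem for bounded degree**: there are only finitely many algebraic numbers of
degree at most `d` and absolute logarithmic height at most `B`. -/
theorem finite_setOf_natDegree_minpoly_le_absLogHeightOne_le (d : ℕ) (B : ℝ) :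
    {a : Ω | (minpoly ℚ a).natDegree ≤ d ∧ absLogHeightOne a ≤ B}.Finite := by
  classical
  by_cases hB0 : 0 ≤ B
  swap
  · convert Set.finite_empty
    ext a
    simp only [Set.mem_ofPred_eq, Set.mem_empty_iff_false, iff_false, not_and, not_le]
    intro _
    exact lt_of_lt_of_le (not_le.mp hB0) (absLogHeightOne_nonneg a)
  have hlog : 0 ≤ Real.log 2 := Real.log_nonneg (by norm_num)
  set C : ℝ := 2 ^ d * (d * B + Real.log 2) with hC
  have hU : {q : ℚ | logHeight₁ q ≤ C}.Finite := NumberField.finite_setOfPred_logHeight₁_le ℚ C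
  refine (Polynomial.bUnion_roots_finite (algebraMap ℚ Ω) d hU).subset ?_
  rintro a ⟨hd, hh⟩
  have ha : IsIntegral ℚ a := Algebra.IsIntegral.isIntegral a
  simp only [Set.mem_iUnion, Finset.mem_coe, Multiset.mem_toFinset, exists_prop]
  refine ⟨minpoly ℚ a, ⟨hd, fun i => ?_⟩, ?_⟩
  · refine (logHeight₁_coeff_minpoly_le a B hh i).trans ?_
    have h1 : (2 : ℝ) ^ (minpoly ℚ a).natDegree ≤ 2 ^ d :=
      pow_le_pow_right₀ (by norm_num) hd
    have h2 : ((minpoly ℚ a).natDegree : ℝ) * B ≤ d * B :=
      mul_le_mul_of_nonneg_right (by exact_mod_cast hd) hB0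
    have h3 : 0 ≤ ((minpoly ℚ a).natDegree : ℝ) * B + Real.log 2 := by positivity
    calc _ ≤ (2 : ℝ) ^ d * (((minpoly ℚ a).natDegree : ℝ) * B + Real.log 2) :=
          mul_le_mul_of_nonneg_right h1 h3
      _ ≤ _ := mul_le_mul_of_nonneg_left (by linarith) (by positivity)
  · rw [mem_roots ((minpoly.monic ha).map _).ne_zero, IsRoot.def, eval_map_algebraMap]
    exact minpoly.aeval ℚ a

/-- Northcott for affine points whose coordinates have bounded degree. -/
theorem finite_setOf_forall_natDegree_le_absLogHeight_le {ι : Type*} [Finite ι] (d : ℕ) (B : ℝ) :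
    {x : ι → Ω | (∀ i, (minpoly ℚ (x i)).natDegree ≤ d) ∧
      absLogHeight (fun o : Option ι => o.elim 1 x) ≤ B}.Finite := by
  have h1 := finite_setOf_natDegree_minpoly_le_absLogHeightOne_le (Ω := Ω) d B
  refine (Set.Finite.pi' (fun _ : ι => h1)).subset ?_
  rintro x ⟨hd, hh⟩ i
  exact ⟨hd i, (absLogHeightOne_le_absLogHeight_cons x i).trans hh⟩

end Fermat.Agent.MW.AbsHeightNorthcott10
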