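/-
helper10 — programme MW (S17): height bound for AFFINE polynomial maps.
For polynomials `P j` of total degree `≤ D` in the affine coordinates `y`:
  `H(1 : P_1(y) : … : P_m(y)) ≤ R ^ totalWeight * H(c) * H(1 : y) ^ D`
(`c` a tuple containing `1` and all coefficients, `R ≥ 1` a bound for the number of monomials of
each `P j`), and the absolute version over `Qbar`:
  `h(1 : P(y)) ≤ log R + h(c) + D * h(1 : y)`.
Used by NORTH-C(b): heights of coefficients of integrality equations.
-/
import Fermat.Agent.MW.KLAbs10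

set_option autoImplicit false

open Height MvPolynomial

namespace Fermat.Agent.MW.AffinePoly10

section Local

variable {K : Type*} [Field K] {ι : Type*}

/-- the degree of a monomial in the support is at most the total degree. -/
theorem prod_pow_le (v : AbsoluteValue K ℝ) (y : ι → K) (Y : ℝ) (hY : 1 ≤ Y)
    (hy : ∀ i, v (y i) ≤ Y) (s : ι →₀ ℕ) (D : ℕ) (hs : (s.sum fun _ e => e) ≤ D) :
    ∏ i ∈ s.support, v (y i ^ s i) ≤ Y ^ D := by
  have hY0 : 0 ≤ Y := zero_le_one.trans hY
  calc ∏ i ∈ s.support, v (y i ^ s i) ≤ ∏ i ∈ s.support, Y ^ s i := by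
        refine Finset.prod_le_prod (fun i _ => v.nonneg _) fun i _ => ?_
        rw [map_pow]
        exact pow_le_pow_left₀ (v.nonneg _) (hy i) _
    _ = Y ^ (s.sum fun _ e => e) := by
        rw [Finset.prod_pow_eq_pow_sum]
        rfl
    _ ≤ Y ^ D := pow_le_pow_right₀ hY hs

/-- Local bound, arbitrary absolute value. -/
theorem abv_eval_le (v : AbsoluteValue K ℝ) (P : MvPolynomial ι K) (y : ι → K) (Y : ℝ)
    (hY : 1 ≤ Y) (hy : ∀ i, v (y i) ≤ Y) (C : ℝ) (hC : 0 ≤ C)
    (hP : ∀ s ∈ P.support, v (P.coeff s) ≤ C) (D : ℕ) (hD : P.totalDegree ≤ D) :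
    v (P.eval y) ≤ P.support.card * (C * Y ^ D) := by
  rw [eval_eq]
  refine (v.sum_le _ _).trans ?_
  have hterm : ∀ s ∈ P.support, v (coeff s P * ∏ i ∈ s.support, y i ^ s i) ≤ C * Y ^ D := by
    intro s hs
    rw [map_mul, map_prod]
    exact mul_le_mul (hP s hs)
      (prod_pow_le v y Y hY hy s D ((le_totalDegree hs).trans hD))
      (Finset.prod_nonneg fun i _ => v.nonneg _) hC
  refine (Finset.sum_le_sum hterm).trans ?_
  simp

/-- Local bound, nonarchimedean absolute value. -/
theorem abv_eval_le_nonarch {v : AbsoluteValue K ℝ} (hv : IsNonarchimedean v)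
    (P : MvPolynomial ι K) (y : ι → K) (Y : ℝ)
    (hY : 1 ≤ Y) (hy : ∀ i, v (y i) ≤ Y) (C : ℝ) (hC : 0 ≤ C)
    (hP : ∀ s ∈ P.support, v (P.coeff s) ≤ C) (D : ℕ) (hD : P.totalDegree ≤ D) :
    v (P.eval y) ≤ C * Y ^ D := by
  rw [eval_eq]
  have hY0 : 0 ≤ Y := zero_le_one.trans hY
  rcases P.support.eq_empty_or_nonempty with h0 | hne
  · rw [h0, Finset.sum_empty, v.map_zero]
    positivity
  obtain ⟨s, hs₁, hs₂⟩ :=
    hv.finset_image_add_of_nonempty (fun d ↦ coeff d P * ∏ i ∈ d.support, y i ^ d i) hne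
  refine hs₂.trans ?_
  rw [map_mul, map_prod]
  exact mul_le_mul (hP s hs₁)
    (prod_pow_le v y Y hY hy s D ((le_totalDegree hs₁).trans hD))
    (Finset.prod_nonneg fun i _ => v.nonneg _) hC

end Local

section Global

open AdmissibleAbsValues Function

variable {K : Type*} [Field K] [AdmissibleAbsValues K]
variable {ι ι' κ : Type*} [Finite ι] [Finite ι'] [Finite κ]

/-- An affine point viewed as a projective point `(1 : y)`. -/
def aff {F : Type*} [One F] {α : Type*} (y : α → F) : Option α → F := fun o => o.elim 1 y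

@[simp] theorem aff_none {F : Type*} [One F] {α : Type*} (y : α → F) : aff y none = 1 := rfl
@[simp] theorem aff_some {F : Type*} [One F] {α : Type*} (y : α → F) (i : α) :
    aff y (some i) = y i := rfl

omit [AdmissibleAbsValues K] [Finite ι] in
theorem aff_ne_zero (y : ι → K) : aff y ≠ 0 := fun h => one_ne_zero (congrFun h none)

omit [AdmissibleAbsValues K] in
/-- existence of a maximising index, with the supremum. -/
theorem exists_eq_iSup {α : Type*} [Finite α] [Nonempty α] (v : AbsoluteValue K ℝ) (x : α → K) :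
    ∃ a, (∀ b, v (x b) ≤ v (x a)) ∧ ⨆ b, v (x b) = v (x a) := by
  obtain ⟨a, ha⟩ := Finite.exists_max (fun b => v (x b))
  exact ⟨a, ha, le_antisymm (ciSup_le ha) (Finite.le_ciSup (fun b => v (x b)) a)⟩

/-- **Height bound for affine polynomial maps** (multiplicative form). -/
theorem mulHeight_aff_eval_le (P : ι' → MvPolynomial ι K) (D : ℕ)
    (hD : ∀ j, (P j).totalDegree ≤ D) (c : κ → K) (hc1 : ∃ a, c a = 1)
    (hc : ∀ j, ∀ s ∈ (P j).support, ∃ a, c a = (P j).coeff s)
    (R : ℕ) (hR1 : 1 ≤ R) (hR : ∀ j, (P j).support.card ≤ R) (y : ι → K) :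
    mulHeight (aff fun j => (P j).eval y) ≤
      (R : ℝ) ^ totalWeight K * (mulHeight c * mulHeight (aff y) ^ D) := by
  obtain ⟨a1, ha1⟩ := hc1
  have hcne : c ≠ 0 := ne_iff.mpr ⟨a1, by simp [ha1]⟩
  have hyD : (aff y) ^ D ≠ 0 := fun h => by
    have := congrFun h none
    simp at this
  have : Nonempty κ := ⟨a1⟩
  have hR1' : (1 : ℝ) ≤ R := by exact_mod_cast hR1
  rw [← mulHeight_pow, ← mulHeight_fun_mul_eq hcne hyD]
  have hZ : (fun a : κ × Option ι ↦ c a.1 * ((aff y) ^ D) a.2) ≠ 0 :=
    ne_iff.mpr ⟨⟨a1, none⟩, by simp [ha1]⟩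
  -- local comparison at an arbitrary absolute value
  have key : ∀ v : AbsoluteValue K ℝ, ∃ Cv Yv : ℝ, 1 ≤ Cv ∧ 1 ≤ Yv ∧
      (∀ a, v (c a) ≤ Cv) ∧ (∀ i, v (y i) ≤ Yv) ∧
      Cv * Yv ^ D ≤ ⨆ a : κ × Option ι, v (c a.1 * ((aff y) ^ D) a.2) := by
    intro v
    obtain ⟨a0, ha0, -⟩ := exists_eq_iSup v c
    obtain ⟨o0, ho0, -⟩ := exists_eq_iSup v (aff y)
    refine ⟨v (c a0), v (aff y o0), ?_, ?_, ha0, fun i => ho0 (some i), ?_⟩
    · have := ha0 a1
      rwa [ha1, map_one] at this
    · have := ho0 none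
      rwa [aff_none, map_one] at this
    · refine Finite.le_ciSup_of_le (⟨a0, o0⟩ : κ × Option ι) ?_
      simp
  refine KL39.mulHeight_le_of_forall_iSup_le (aff_ne_zero _) hZ R (zero_le_one.trans hR1')
    (fun v _ => ?_) (fun v hv => ?_)
  · obtain ⟨Cv, Yv, hC1, hY1, hCv, hYv, hsup⟩ := key v
    have hpos : 0 ≤ Cv * Yv ^ D := by positivity
    refine (Real.iSup_le (fun o => ?_) (mul_nonneg (by positivity) hpos)).trans
      (mul_le_mul_of_nonneg_left hsup (by positivity))
    cases o with
    | none =>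
      rw [aff_none, map_one]
      exact one_le_mul_of_one_le_of_one_le hR1'
        (one_le_mul_of_one_le_of_one_le hC1 (one_le_pow₀ hY1))
    | some j =>
      rw [aff_some]
      refine (abv_eval_le v (P j) y Yv hY1 hYv Cv (zero_le_one.trans hC1) (fun s hs => ?_) D
        (hD j)).trans (mul_le_mul_of_nonneg_right (by exact_mod_cast hR j) hpos)
      obtain ⟨a, ha⟩ := hc j s hs
      rw [← ha]
      exact hCv a
  · obtain ⟨Cv, Yv, hC1, hY1, hCv, hYv, hsup⟩ := key v
    have hpos : 0 ≤ Cv * Yv ^ D := by positivity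
    refine (Real.iSup_le (fun o => ?_) hpos).trans hsup
    cases o with
    | none =>
      rw [aff_none, map_one]
      exact one_le_mul_of_one_le_of_one_le hC1 (one_le_pow₀ hY1)
    | some j =>
      rw [aff_some]
      refine abv_eval_le_nonarch (isNonarchimedean v hv) (P j) y Yv hY1 hYv Cv
        (zero_le_one.trans hC1) (fun s hs => ?_) D (hD j)
      obtain ⟨a, ha⟩ := hc j s hs
      rw [← ha]
      exact hCv a

/-- **Height bound for affine polynomial maps** (logarithmic form). -/
theorem logHeight_aff_eval_le (P : ι' → MvPolynomial ι K) (D : ℕ)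
    (hD : ∀ j, (P j).totalDegree ≤ D) (c : κ → K) (hc1 : ∃ a, c a = 1)
    (hc : ∀ j, ∀ s ∈ (P j).support, ∃ a, c a = (P j).coeff s)
    (R : ℕ) (hR1 : 1 ≤ R) (hR : ∀ j, (P j).support.card ≤ R) (y : ι → K) :
    logHeight (aff fun j => (P j).eval y) ≤
      totalWeight K * Real.log R + logHeight c + D * logHeight (aff y) := by
  have hRpos : (0 : ℝ) < R := by exact_mod_cast hR1
  have h := mulHeight_aff_eval_le P D hD c hc1 hc R hR1 hR y
  have h' := Real.log_le_log (mulHeight_pos _) h
  rw [Real.log_mul (pow_pos hRpos _).ne' (mul_pos (mulHeight_pos _) (pow_pos (mulHeight_pos _) _)).ne',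
    Real.log_mul (mulHeight_pos _).ne' (pow_pos (mulHeight_pos _) _).ne', Real.log_pow,
    Real.log_pow] at h'
  simp only [logHeight_eq_log_mulHeight]
  linarith

end Global

section Absolute

open Fermat.Agent.MW.AbsHeightDef10 Fermat.Agent.MW.KLAbs10 NumberField Module

variable {E : Type*} [Field E] [CharZero E] [Algebra.IsAlgebraic ℚ E]
variable {ι ι' κ : Type*} [Finite ι] [Finite ι'] [Finite κ]

/-- **Height bound for affine polynomial maps, absolute form.** -/
theorem absLogHeight_aff_eval_le (P : ι' → MvPolynomial ι E) (D : ℕ)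
    (hD : ∀ j, (P j).totalDegree ≤ D) (c : κ → E) (hc1 : ∃ a, c a = 1)
    (hc : ∀ j, ∀ s ∈ (P j).support, ∃ a, c a = (P j).coeff s)
    (R : ℕ) (hR1 : 1 ≤ R) (hR : ∀ j, (P j).support.card ≤ R) (y : ι → E) :
    absLogHeight (aff fun j => (P j).eval y) ≤
      Real.log R + absLogHeight c + D * absLogHeight (aff y) := by
  classical
  obtain ⟨K, hK, hS⟩ := exists_finiteDimensional_of_finite (Set.range y ∪ Set.range c)
    ((Set.finite_range y).union (Set.finite_range c))
  have := numberField_of_finiteDimensional K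
  have hyK : ∀ i, y i ∈ K := fun i => hS (Or.inl ⟨i, rfl⟩)
  have hcK : ∀ a, c a ∈ K := fun a => hS (Or.inr ⟨a, rfl⟩)
  set yK : ι → K := fun i => ⟨y i, hyK i⟩ with hyK'
  set cK : κ → K := fun a => ⟨c a, hcK a⟩ with hcK'
  have hPK : ∀ j, ∃ q : MvPolynomial ι K, MvPolynomial.map (algebraMap K E) q = P j := by
    intro j
    refine exists_map_eq K _ fun s hs => ?_
    obtain ⟨a, ha⟩ := hc j s hs
    rw [← ha]
    exact hcK a
  choose q hq using hPK
  have hinj : Function.Injective (algebraMap K E) := (algebraMap K E).injective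
  have hsupp : ∀ j, (q j).support = (P j).support := fun j => by
    rw [← hq j, MvPolynomial.support_map_of_injective _ hinj]
  have hcoeff : ∀ j s, algebraMap K E ((q j).coeff s) = (P j).coeff s :=
    fun j s => by rw [← hq j, MvPolynomial.coeff_map]
  have hDK : ∀ j, (q j).totalDegree ≤ D := fun j => by
    have : (q j).totalDegree = (P j).totalDegree := by
      rw [MvPolynomial.totalDegree, MvPolynomial.totalDegree, hsupp]
    rw [this]
    exact hD j
  have hcK1 : ∃ a, cK a = 1 := by
    obtain ⟨a, ha⟩ := hc1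
    exact ⟨a, Subtype.ext ha⟩
  have hcK2 : ∀ j, ∀ s ∈ (q j).support, ∃ a, cK a = (q j).coeff s := by
    intro j s hs
    rw [hsupp] at hs
    obtain ⟨a, ha⟩ := hc j s hs
    refine ⟨a, hinj ?_⟩
    rw [hcoeff]
    exact ha
  have hRK : ∀ j, (q j).support.card ≤ R := fun j => by
    rw [hsupp]
    exact hR j
  have heval : ∀ j, algebraMap K E ((q j).eval yK) = (P j).eval y := by
    intro j
    rw [← hq j, MvPolynomial.eval_map]
    change algebraMap K E (MvPolynomial.eval₂ (RingHom.id K) _ _) = _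
    rw [MvPolynomial.eval₂_comp_left, RingHom.comp_id]
    rfl
  have hmain := logHeight_aff_eval_le q D hDK cK hcK1 hcK2 R hR1 hRK yK
  rw [totalWeight_eq_finrank] at hmain
  have hd : (0 : ℝ) < finrank ℚ K := by exact_mod_cast finrank_pos
  have e1 : absLogHeight (aff fun j => (P j).eval y) =
      logHeight (aff fun j => (q j).eval yK) / finrank ℚ K := by
    rw [← absLogHeight_map (algebraMap K E)]
    congr 1
    funext o
    cases o with
    | none => simp
    | some j => simp [heval]
  have e2 : absLogHeight (aff y) = logHeight (aff yK) / finrank ℚ K := by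
    rw [← absLogHeight_map (algebraMap K E)]
    congr 1
    funext o
    cases o with
    | none => simp
    | some i => rfl
  rw [e1, e2, absLogHeight_eq_of_mem K c hcK, div_le_iff₀ hd, add_mul, add_mul,
    div_mul_cancel₀ _ hd.ne', mul_assoc, div_mul_cancel₀ _ hd.ne']
  linarith

/-- Existential form: the constant depends only on the polynomials. -/
theorem exists_const_absLogHeight_aff_eval_le (P : ι' → MvPolynomial ι E) :
    ∃ (D : ℕ) (C : ℝ), ∀ y : ι → E,
      absLogHeight (aff fun j => (P j).eval y) ≤ D * absLogHeight (aff y) + C := by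
  classical
  have : Fintype ι' := Fintype.ofFinite ι'
  -- the coefficient tuple: `1` and all coefficients of all `P j`
  let κ := Option (Σ j : ι', (P j).support)
  let c : κ → E := fun o => o.elim 1 fun x => (P x.1).coeff x.2
  refine ⟨Finset.univ.sup fun j => (P j).totalDegree,
    Real.log ((Finset.univ.sup fun j => (P j).support.card) + 1 : ℕ) + absLogHeight c, fun y => ?_⟩
  have h := absLogHeight_aff_eval_le P (Finset.univ.sup fun j => (P j).totalDegree)
    (fun j => Finset.le_sup (f := fun j => (P j).totalDegree) (Finset.mem_univ j)) c ⟨none, rfl⟩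
    (fun j s hs => ⟨some ⟨j, ⟨s, hs⟩⟩, rfl⟩)
    ((Finset.univ.sup fun j => (P j).support.card) + 1) (by omega)
    (fun j => (Finset.le_sup (f := fun j => (P j).support.card) (Finset.mem_univ j)).trans
      (Nat.le_succ _)) y
  linarith

end Absolute

end Fermat.Agent.MW.AffinePoly10
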