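/-
Programme MW (S17) / AV, brick CURVE-INST (helper7), companion of `CurveInst7.lean`: the instances
`IsCurveOver L (L · F₀(M))`, `Algebra.EssFiniteType L (L · F₀(M))` over ANY algebraically closed field
`L ⊇ ℚ` (e.g. `L = ℂ`), from `ES/KUM/FieldL25.isGen_jL`.
-/
import Mathlib
import Fermat.Agent.MW.CurveInst7
import Fermat.Agent.ES.KUM.FieldL25

set_option autoImplicit false
set_option linter.unusedSectionVars false

noncomputable section

open AlgebraicCurve ModularCurve IntermediateField

namespace Fermat.Agent.MW.CurveInst7

variable (L : Type) [Field L] [Algebra ℚ L] (M : ℕ) [NeZero M]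

/-- `L · F₀(M)` is essentially of finite type over `L`. -/
theorem essFiniteType_L :
    Algebra.EssFiniteType L ↥(laurentBaseChange L (modularFunctionFieldFull M)) :=
  essFiniteType_of_isGen (Fermat.Agent.ES.KUM.FieldL25.isGen_jL L M)

/-- `L · F₀(M)` is a curve function field over the algebraically closed field `L ⊇ ℚ`. -/
theorem isCurveOver_L [IsAlgClosed L] :
    IsCurveOver L ↥(laurentBaseChange L (modularFunctionFieldFull M)) := by
  have : CharZero L := algebraRat.charZero L
  exact isCurveOver_of_isGen (Fermat.Agent.ES.KUM.FieldL25.isGen_jL L M)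

end Fermat.Agent.MW.CurveInst7
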