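/-
helper73, programme MW (S17, Mordell-Weil for J0(N)), brick FIN-0: the single contract between
the height side and `S17.lean` (masterplan: report 721).

`HeightData N` bundles a function `h` on ALL of `JZero N = J0(N)(Qbar)` (the height is absolute, so
it is defined on every `Qbar`-point; the translation inequality is needed for non-rational `a` in
the Northcott brick) with
  * `nonneg`   : `0 ≤ h x`,
  * `dbl`      : `4 * h x - c ≤ h (2 • x)`            (cube up to torsion + key lemma),
  * `trans`    : `h (x + a) ≤ 2 * h x + c a`          (square + key lemma + `nonneg`),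
  * `north`    : Northcott on the Galois-fixed points.
`s17_of_heightData` : `HeightData N` + weak Mordell-Weil for `2` gives the frozen S17 conclusion,
via `MW73.s17_of_descent` (Mathlib `AddCommGroup.fg_of_descent` with `n = 2`, `a = 2 < b = 4`).
-/
import Fermat.Agent.MW73.S17Wiring

set_option autoImplicit false
open ModularCurve AlgebraicCurve

namespace Fermat.Agent.MW

open Fermat.Agent.MW73

/-- The height package on `J0(N)(Qbar)` consumed by the final S17 wiring. -/
structure HeightData (N : ℕ) [NeZero N] where
  /-- the (absolute logarithmic) height on all `Qbar`-points -/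
  h : JZero N → ℝ
  nonneg : ∀ x, 0 ≤ h x
  /-- lower bound for doubling -/
  dbl : ∃ c : ℝ, ∀ x : JZero N, 4 * h x - c ≤ h (2 • x)
  /-- translation inequality, for every `Qbar`-point `a` -/
  trans : ∀ a : JZero N, ∃ c : ℝ, ∀ x : JZero N, h (x + a) ≤ 2 * h x + c
  /-- Northcott on the rational (Galois-fixed) points -/
  north : ∀ B : ℝ, {x : JRat N | h (x : JZero N) ≤ B}.Finite

namespace HeightData

variable {N : ℕ} [NeZero N] (D : HeightData N)

/-- The height restricted to the rational points. -/
noncomputable def hRat : JRat N → ℝ := fun x => D.h (x : JZero N)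

theorem northcott_hRat : Northcott D.hRat := ⟨fun B => D.north B⟩

/-- A choice of translation constant. -/
noncomputable def transConst (a : JZero N) : ℝ := (D.trans a).choose

theorem trans_le (a x : JZero N) : D.h (x + a) ≤ 2 * D.h x + D.transConst a :=
  (D.trans a).choose_spec x

end HeightData

/-- **S17 from the height package and weak Mordell-Weil for `2`.** -/
theorem s17_of_heightData (N : ℕ) [NeZero N] (D : HeightData N)
    (hweak : (nsmulAddMonoidHom (α := JRat N) 2).range.FiniteIndex) :
    AddGroup.FG (JRat N) := by
  obtain ⟨c₀, hc₀⟩ := D.dbl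
  have : Northcott D.hRat := D.northcott_hRat
  refine s17_of_descent N 2 D.hRat 2 4 c₀ (fun g => D.transConst (-(g : JZero N)))
    (by norm_num) (by norm_num) hweak ?_ ?_
  · intro g x
    have h1 := D.trans_le (-(g : JZero N)) ((g + x : JRat N) : JZero N)
    have h2 : (((g + x : JRat N) : JZero N) + -(g : JZero N)) = (x : JZero N) := by
      rw [AddSubgroup.coe_add]; abel
    rw [h2] at h1
    exact h1
  · intro x
    have h1 := hc₀ (x : JZero N)
    have h2 : ((2 • x : JRat N) : JZero N) = 2 • (x : JZero N) := by
      simp
    show 4 * D.h (x : JZero N) - c₀ ≤ D.h ((2 • x : JRat N) : JZero N)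
    rw [h2]; exact h1

/-- **S17 from the height package, divisibility and the weak Mordell-Weil brick (W)** in the shape
delivered by `MW/WeakMW65.lean`: (W) is consumed as an implication from divisibility. -/
theorem s17_of_heightData_of_div (N : ℕ) [NeZero N] (D : HeightData N)
    (hdiv : ∀ x : JZero N, ∃ y : JZero N, 2 • y = x)
    (hW : (∀ x : JZero N, ∃ y : JZero N, 2 • y = x) →
      (nsmulAddMonoidHom (α := JRat N) 2).range.FiniteIndex) :
    AddGroup.FG (JRat N) :=
  s17_of_heightData N D (hW hdiv)

end Fermat.Agent.MW
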