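/-
helper73, programme MW (S17), brick FIN-1: THE CONTRACT BETWEEN MW AND (AV + BRIDGE).

`GeomPackage N` lists exactly what the geometric side must deliver about the Jacobian `V = J_0(N)`
over `Ω = Qbar`:
  * `V` integral, universally closed and locally of finite type over `Spec Ω`;
  * `β : JZero N → Pt f` : the (surjective) bridge from the function-field Jacobian to
    `Ω`-points of `V`;
  * translations `transl a : V ⟶ V` (isomorphisms) and doubling `dbl : V ⟶ V` (dominant, over `Ω`) compatible
    with `β` on points;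
  * a finite family `s` of rational functions generating an invertible subsheaf `M` of `K(V)`;
  * SQUARE  : `(t_a^* M ⊗ t_{-a}^* M)^d = φ_a M^{2d}` (as subsheaves of `K(V)`, `d ≥ 1`, `φ_a ≠ 0`);
  * CUBE    : `([2]^* M)^d = ψ M^{4d}`               (`d ≥ 1`, `ψ ≠ 0`);
  * NORTH   : Northcott for `h = h_s ∘ β` on the rational points.
`GeomCore N` = everything except NORTH (this is what NORTH-C itself consumes: `GeomCore.height`,
`GeomCore.exists_trans`); `GeomPackage N` = `GeomCore N` + NORTH.
`GeomPackage.heightData` turns it into `MW.HeightData N`, hence (with weak Mordell-Weil) into S17: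
`s17_of_geomPackage`.
-/
import Fermat.Agent.MW.HM73.QuadTors
import Fermat.Agent.MW.Final73

set_option autoImplicit false
set_option linter.unusedSectionVars false
set_option linter.style.haveILetI false

open CategoryTheory AlgebraicGeometry ModularCurve AlgebraicCurve

namespace Fermat.Agent.MW

open Fermat.Agent.MW73 Fermat.Agent.MW.HM73

/-- `Ω = Qbar`. -/
abbrev QBar : Type := AlgebraicClosure ℚ

/-- `Qbar` is algebraic over `ℚ` for the default (`DivisionRing.toRatAlgebra`) algebra structure,
the one used by the Prelude's Galois group and by the absolute height. -/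
instance isAlgebraic_rat_qBar : Algebra.IsAlgebraic ℚ QBar := by
  have h : (DivisionRing.toRatAlgebra : Algebra ℚ (AlgebraicClosure ℚ)) =
      AlgebraicClosure.instAlgebra ℚ := Subsingleton.elim _ _
  rw [h]; infer_instance

/-- The geometric core package for `J_0(N)`: everything in the file header except NORTH. -/
structure GeomCore (N : ℕ) [NeZero N] where
  V : Scheme.{0}
  [integral : IsIntegral V]
  f : V ⟶ Spec (CommRingCat.of QBar)
  [univClosed : UniversallyClosed f]
  [locFinType : LocallyOfFiniteType f]
  /-- the bridge -/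
  β : JZero N → Pt f
  β_surj : Function.Surjective β
  /-- translations -/
  transl : JZero N → (V ⟶ V)
  [transl_iso : ∀ a, IsIso (transl a)]
  transl_over : ∀ a, transl a ≫ f = f
  transl_dom : ∀ a, transl a (genericPoint V) = genericPoint V
  transl_pt : ∀ a x, ptMap f (transl a) (transl_over a) (β x) = β (x + a)
  /-- doubling -/
  dbl : V ⟶ V
  dbl_over : dbl ≫ f = f
  dbl_dom : dbl (genericPoint V) = genericPoint V
  dbl_pt : ∀ x, ptMap f dbl dbl_over (β x) = β (2 • x)
  /-- the generating family -/
  ι : Type
  [finite : Finite ι]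
  s : ι → V.functionField
  gen : SectionsOf s s
  /-- theorem of the square, up to torsion -/
  square : ∀ a : JZero N, ∃ (d : ℕ) (φ : V.functionField), 0 < d ∧ φ ≠ 0 ∧
    SectionsOf (fun p : ι × ι => (ffMap (transl a) (transl_dom a) (s p.1) *
        ffMap (transl (-a)) (transl_dom (-a)) (s p.2)) ^ d)
      (fun p : ι × ι => φ * (s p.1 * s p.2) ^ d) ∧
    SectionsOf (fun p : ι × ι => φ * (s p.1 * s p.2) ^ d)
      (fun p : ι × ι => (ffMap (transl a) (transl_dom a) (s p.1) *
        ffMap (transl (-a)) (transl_dom (-a)) (s p.2)) ^ d)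
  /-- theorem of the cube, up to torsion -/
  cube : ∃ (d : ℕ) (ψ : V.functionField), 0 < d ∧ ψ ≠ 0 ∧
    SectionsOf (fun i : ι => ffMap dbl dbl_dom (s i) ^ d) (fun i : ι => ψ * s i ^ (4 * d)) ∧
    SectionsOf (fun i : ι => ψ * s i ^ (4 * d)) (fun i : ι => ffMap dbl dbl_dom (s i) ^ d)

namespace GeomCore

variable {N : ℕ} [NeZero N] (G : GeomCore N)

attribute [instance] GeomCore.integral GeomCore.univClosed GeomCore.finite GeomCore.locFinType
  GeomCore.transl_iso

/-- The height on `J_0(N)(Qbar)`. -/
noncomputable def height (x : JZero N) : ℝ := hgt G.f G.s (G.β x)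

theorem height_nonneg (x : JZero N) : 0 ≤ G.height x := hgt_nonneg _ _ _

theorem exists_trans (a : JZero N) : ∃ c : ℝ, ∀ x : JZero N,
    G.height (x + a) ≤ 2 * G.height x + c := by
  obtain ⟨d, φ, hd, hφ, h1, h2⟩ := G.square a
  obtain ⟨C, hC⟩ := exists_const_abs_hgt_add_sub_le_pow G.f G.s G.gen (G.transl a) (G.transl (-a))
    (G.transl_over a) (G.transl_over (-a)) (G.transl_dom a) (G.transl_dom (-a)) d φ hφ h1 h2
  have hd' : (0 : ℝ) < d := by exact_mod_cast hd
  refine ⟨C / d, fun x => ?_⟩
  have h := hC (G.β x)
  rw [G.transl_pt a x, G.transl_pt (-a) x] at h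
  have h0 : 0 ≤ hgt G.f G.s (G.β (x + -a)) := hgt_nonneg _ _ _
  have h' := (abs_le.mp h).2
  unfold height
  have key : d * hgt G.f G.s (G.β (x + a)) ≤ d * (2 * hgt G.f G.s (G.β x) + C / d) := by
    have e : d * (2 * hgt G.f G.s (G.β x) + C / d) = d * (2 * hgt G.f G.s (G.β x)) + C := by
      field_simp
    rw [e]
    nlinarith [mul_nonneg hd'.le h0]
  exact le_of_mul_le_mul_left key hd'

theorem exists_dbl : ∃ c : ℝ, ∀ x : JZero N, 4 * G.height x - c ≤ G.height (2 • x) := by
  obtain ⟨d, ψ, hd, hψ, h1, h2⟩ := G.cube
  obtain ⟨C, hC⟩ := exists_const_abs_hgt_pow_sub_le G.f G.s G.gen G.dbl G.dbl_over G.dbl_dom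
    d (4 * d) ψ hψ h1 h2
  have hd' : (0 : ℝ) < d := by exact_mod_cast hd
  refine ⟨C / d, fun x => ?_⟩
  have h := hC (G.β x)
  rw [G.dbl_pt x] at h
  have h' := (abs_le.mp h).1
  unfold height
  have e : ((4 * d : ℕ) : ℝ) = 4 * d := by push_cast; ring
  rw [e] at h'
  have key : d * (4 * hgt G.f G.s (G.β x) - C / d) ≤ d * hgt G.f G.s (G.β (2 • x)) := by
    have : d * (4 * hgt G.f G.s (G.β x) - C / d) = 4 * d * hgt G.f G.s (G.β x) - C := by
      field_simp
    rw [this]
    linarith
  exact le_of_mul_le_mul_left key hd'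

end GeomCore

/-- The full geometric package: the core plus Northcott for `h = h_s ∘ β` on rational points. -/
structure GeomPackage (N : ℕ) [NeZero N] extends GeomCore N where
  /-- Northcott on the rational points -/
  north : ∀ B : ℝ, {x : JRat N | toGeomCore.height (x : JZero N) ≤ B}.Finite

namespace GeomPackage

variable {N : ℕ} [NeZero N] (G : GeomPackage N)

/-- **The height package from the geometric package.** -/
noncomputable def heightData : HeightData N where
  h := G.toGeomCore.height
  nonneg := G.toGeomCore.height_nonneg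
  dbl := G.toGeomCore.exists_dbl
  trans := G.toGeomCore.exists_trans
  north := G.north

end GeomPackage

/-- **S17 from the geometric package and weak Mordell-Weil for `2`.** -/
theorem s17_of_geomPackage (N : ℕ) [NeZero N] (G : GeomPackage N)
    (hweak : (nsmulAddMonoidHom (α := JRat N) 2).range.FiniteIndex) :
    AddGroup.FG (JRat N) :=
  s17_of_heightData N G.heightData hweak

end Fermat.Agent.MW
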