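/-
helper73, programme MW (S17), brick FIN-3: construction of the concrete package `JData N M`
from the Jacobian of the S25 stack (`DimJ76.dimJ`: smooth of relative dimension `g`;
`PicBridge84.Jacobian.representsCut41_of_algEquivZero`), helper49's family
(`Inst49.JFamilyJ.exists_family_J`) and the two Picard-form inputs (theorem of the square at all
`Qbar`-points; `[2]^*` up to `δ`-torsion), which are taken as a hypothesis `SquareCubeInput M`
here and discharged in `MW/Inst96/`.
-/
import Fermat.Agent.MW.JData73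
import Fermat.Agent.MW.Inst49.JFamilyJ
import Fermat.Agent.AV.PicBridge84.Jacobian
import Fermat.Agent.AV.DimJ76.Assembly
import Fermat.Agent.Jac.Genus41

set_option autoImplicit false
set_option linter.unusedSectionVars false
set_option linter.style.haveILetI false

open CategoryTheory AlgebraicGeometry AlgebraicGeometry.RelPicard ModularCurve AlgebraicCurve
  NeronModelInfra GoodReductionJacobian

namespace Fermat.Agent.MW

open Fermat.Agent.MW.HM73 Fermat.Agent.MW.Inst73 Fermat.Agent.MW.Inst7
  Fermat.Agent.AV Fermat.Agent.AV.F1Model15 Fermat.Agent.AV.PicDiv86 Fermat.Agent.AV.PicBridge84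
  Fermat.Agent.AV.Cube82 Fermat.Agent.AV.Fact49.PicCalcInst
  Fermat.Agent.Jac Fermat.Agent.Jac.FinalWiring41

/-- The two Picard-form inputs for the Jacobian `D'` of the model `M` (discharged in
`MW/Inst96/SquareCubeJ.lean`): the functorial theorem of the square at every `Qbar`-point, and
`([2]^* ℓ)^δ = ℓ^(4δ)` for symmetric `ℓ`, `δ > 0`. -/
def SquareCubeInput {N : ℕ} [NeZero N] (M : Model QBar ↥(modularFunctionFieldBar N)) : Prop :=
  ∀ (D' : RelativePic0Designation QBar M.c)
    (h : haveI := M.isIntegral; RepresentsRelSubPic M.c M.ε (cut41 (dict41 M.cc)) D')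
    [Smooth D'.toBase] [IsProper D'.toBase] [GeometricallyConnected D'.toBase]
    [SmoothOfRelativeDimension (Genus41.genus M.cc) D'.toBase],
    (∀ (ℓ : Pic38.Pic D'.P)
        (a : SchemeHomOver (𝟙 (Spec (CommRingCat.of QBar))) D'.toBase),
        InS picCalc38 (JGroup.lawJ M h) (JGroup.lawJ_isCommutative M h) ℓ (𝟙 _) a) ∧
      ∃ δ : ℕ, 0 < δ ∧ ∀ ℓ : Pic38.Pic D'.P, Pic38.Pic.map (JGroup.neg M h) ℓ = ℓ →
        Pic38.Pic.map (JGroup.dbl M h) ℓ ^ δ = ℓ ^ (δ * 2 ^ 2)

/-- **The concrete package exists.** -/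
theorem nonempty_jdata (N : ℕ) [NeZero N] (M : Model QBar ↥(modularFunctionFieldBar N))
    (hSC : SquareCubeInput M) : Nonempty (JData N M) := by
  haveI := M.isIntegral
  haveI := M.isProper
  haveI := M.smooth
  obtain ⟨D', ⟨R⟩, hsm, hpr, hgc, hdim⟩ := Fermat.Agent.AV.DimJ76.dimJ QBar M.c M.ε M.cc
  let h : RepresentsRelSubPic M.c M.ε (cut41 (dict41 M.cc)) D' :=
    Jacobian.representsCut41_of_algEquivZero M.cc R
  haveI := hsm
  haveI := hpr
  haveI := hgc
  haveI := hdim
  haveI := JGroup.isIntegral M h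
  obtain ⟨hS, δ, hδ, hcube⟩ := hSC D' h
  obtain ⟨U, D₀, n, s, hU, hne, -, hD₀, hsupp, hs0, hgen, -, hsq, hcb⟩ :=
    Inst49.JFamilyJ.exists_family_J M h (two_ne_zero : (2 : QBar) ≠ 0) hS δ hδ hcube
  exact ⟨{ D' := D', h := h, U := U, D₀ := D₀, isAffineOpen_U := hU, nonempty_U := hne,
           effective := hD₀, support_eq := hsupp, n := n, s := s, s_zero := hs0,
           generates := hgen, square := hsq, cube := hcb }⟩

/-- **S17 from the concrete pieces**: the Picard-form inputs for the Jacobian of a model curve `M`,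
Northcott for the height of every concrete package over `M`, and weak Mordell-Weil for `2`. -/
theorem s17_of_jdata (N : ℕ) [NeZero N] (M : Model QBar ↥(modularFunctionFieldBar N))
    (hSC : SquareCubeInput M)
    (hnorth : ∀ (J : JData N M) (B : ℝ),
      {x : Fermat.Agent.MW73.JRat N | J.toGeomCore.height (x : JZero N) ≤ B}.Finite)
    (hweak : (nsmulAddMonoidHom (α := Fermat.Agent.MW73.JRat N) 2).range.FiniteIndex) :
    AddGroup.FG (Fermat.Agent.MW73.JRat N) := by
  obtain ⟨J⟩ := nonempty_jdata N M hSC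
  exact s17_of_geomPackage N ⟨J.toGeomCore, hnorth J⟩ hweak

end Fermat.Agent.MW
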