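/-
helper10 — programme MW (S17): height bound for a root of a MONIC relation whose coefficients are
polynomials in the affine coordinates of a point.  This is the form consumed by NORTH-C(b):
  `z ^ n + ∑ i < n, G_i(y) * z ^ i = 0`  ⟹  `h(z) ≤ D * h(1 : y) + C`,
with `D, C` depending only on the polynomials `G_i`.
-/
import Fermat.Agent.MW.AffinePoly10
import Fermat.Agent.MW.AbsHeightOne10

set_option autoImplicit false

open Height MvPolynomial

namespace Fermat.Agent.MW.IntegralBound10

open Fermat.Agent.MW.AffinePoly10

section Global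

open AdmissibleAbsValues Function

variable {K : Type*} [Field K] [AdmissibleAbsValues K]

/-- Root bound for a monic relation, in the `aff` normalisation. -/
theorem mulHeight_aff_le_of_monic_relation (z : K) (n : ℕ) (hn : 1 ≤ n) (a : Fin n → K)
    (hrel : z ^ n + ∑ i : Fin n, a i * z ^ (i : ℕ) = 0) :
    mulHeight (aff fun _ : Unit => z) ≤ (n : ℝ) ^ totalWeight K * mulHeight (aff a) := by
  have hn' : (1 : ℝ) ≤ n := by exact_mod_cast hn
  have hsup1 : ∀ v : AbsoluteValue K ℝ, 1 ≤ ⨆ o, v (aff a o) := fun v =>
    Finite.le_ciSup_of_le none (by simp)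
  have hle : ∀ v : AbsoluteValue K ℝ, ∀ i, v (a i) ≤ ⨆ o, v (aff a o) := fun v i =>
    Finite.le_ciSup_of_le (some i) (by simp)
  refine KL39.mulHeight_le_of_forall_iSup_le (aff_ne_zero _) (aff_ne_zero _) n
    (zero_le_one.trans hn') (fun v _ => ?_) (fun v hv => ?_)
  · have hB : 1 ≤ (n : ℝ) * ⨆ o, v (aff a o) := one_le_mul_of_one_le_of_one_le hn' (hsup1 v)
    refine Real.iSup_le (fun o => ?_) (zero_le_one.trans hB)
    cases o with
    | none => simpa using hB
    | some u =>
      rw [aff_some]
      refine KL39.abv_le_of_monic_relation v z n a hrel _ hB ?_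
      calc ∑ i : Fin n, v (a i) ≤ ∑ _i : Fin n, ⨆ o, v (aff a o) :=
            Finset.sum_le_sum fun i _ => hle v i
        _ = n * ⨆ o, v (aff a o) := by simp
  · refine Real.iSup_le (fun o => ?_) (zero_le_one.trans (hsup1 v))
    cases o with
    | none => simpa using hsup1 v
    | some u =>
      rw [aff_some]
      exact KL39.abv_le_of_monic_relation_nonarch (isNonarchimedean v hv) z n a hrel _ (hsup1 v)
        (hle v)

theorem logHeight_aff_le_of_monic_relation (z : K) (n : ℕ) (hn : 1 ≤ n) (a : Fin n → K)
    (hrel : z ^ n + ∑ i : Fin n, a i * z ^ (i : ℕ) = 0) :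
    logHeight (aff fun _ : Unit => z) ≤ totalWeight K * Real.log n + logHeight (aff a) := by
  have hnpos : (0 : ℝ) < n := by exact_mod_cast hn
  have h := mulHeight_aff_le_of_monic_relation z n hn a hrel
  have h' := Real.log_le_log (mulHeight_pos _) h
  rw [Real.log_mul (pow_pos hnpos _).ne' (mulHeight_pos _).ne', Real.log_pow] at h'
  simpa [logHeight_eq_log_mulHeight] using h'

end Global

section Absolute

open Fermat.Agent.MW.AbsHeightDef10 Fermat.Agent.MW.AbsHeightOne10 NumberField Module

variable {E : Type*} [Field E] [CharZero E] [Algebra.IsAlgebraic ℚ E]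

/-- `h(z)` in the `aff` normalisation. -/
theorem absLogHeightOne_eq_aff (z : E) :
    absLogHeightOne z = absLogHeight (aff fun _ : Unit => z) := by
  let e : Fin 2 ≃ Option Unit :=
    { toFun := fun i => if i = 0 then some () else none
      invFun := fun o => o.elim 1 fun _ => 0
      left_inv := fun i => by fin_cases i <;> simp
      right_inv := fun o => by cases o <;> simp }
  rw [absLogHeightOne, ← absLogHeight_comp_equiv e (aff fun _ : Unit => z)]
  congr 1
  funext i
  fin_cases i <;> simp [e]

/-- Root bound for a monic relation, absolute form. -/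
theorem absLogHeightOne_le_of_monic_relation (z : E) (n : ℕ) (hn : 1 ≤ n) (a : Fin n → E)
    (hrel : z ^ n + ∑ i : Fin n, a i * z ^ (i : ℕ) = 0) :
    absLogHeightOne z ≤ Real.log n + absLogHeight (aff a) := by
  obtain ⟨K, hK, hS⟩ := exists_finiteDimensional_of_finite (insert z (Set.range a))
    ((Set.finite_range a).insert z)
  have := numberField_of_finiteDimensional K
  have hzK : z ∈ K := hS (Set.mem_insert _ _)
  have haK : ∀ i, a i ∈ K := fun i => hS (Set.mem_insert_of_mem _ ⟨i, rfl⟩)
  set zK : K := ⟨z, hzK⟩
  set aK : Fin n → K := fun i => ⟨a i, haK i⟩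
  have hrelK : zK ^ n + ∑ i : Fin n, aK i * zK ^ (i : ℕ) = 0 := by
    apply (algebraMap K E).injective
    rw [map_zero, map_add, map_pow, map_sum]
    simp_rw [map_mul, map_pow]
    exact hrel
  have hmain := logHeight_aff_le_of_monic_relation zK n hn aK hrelK
  rw [totalWeight_eq_finrank] at hmain
  have hd : (0 : ℝ) < finrank ℚ K := by exact_mod_cast finrank_pos
  have e1 : absLogHeight (aff fun _ : Unit => z) =
      logHeight (aff fun _ : Unit => zK) / finrank ℚ K := by
    rw [← absLogHeight_map (algebraMap K E)]
    congr 1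
    funext o
    cases o with
    | none => simp
    | some i => rfl
  have e2 : absLogHeight (aff a) = logHeight (aff aK) / finrank ℚ K := by
    rw [← absLogHeight_map (algebraMap K E)]
    congr 1
    funext o
    cases o with
    | none => simp
    | some i => rfl
  rw [absLogHeightOne_eq_aff, e1, e2, div_le_iff₀ hd, add_mul, div_mul_cancel₀ _ hd.ne']
  linarith

/-- **Height bound for integral elements with polynomial coefficients.**
For fixed polynomials `G i` there are constants `D, C` such that every `z` satisfying the monic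
relation `z ^ n + ∑ i < n, G_i(y) * z ^ i = 0` over a point `y` has
`h(z) ≤ D * h(1 : y) + C`. -/
theorem exists_const_absLogHeightOne_le_of_monic_polyRelation {ι : Type*} [Finite ι] (n : ℕ)
    (hn : 1 ≤ n) (G : Fin n → MvPolynomial ι E) :
    ∃ (D : ℕ) (C : ℝ), ∀ (y : ι → E) (z : E),
      z ^ n + ∑ i : Fin n, (G i).eval y * z ^ (i : ℕ) = 0 →
        absLogHeightOne z ≤ D * absLogHeight (aff y) + C := by
  obtain ⟨D, C, hDC⟩ := exists_const_absLogHeight_aff_eval_le G
  refine ⟨D, C + Real.log n, fun y z hrel => ?_⟩
  have h1 := absLogHeightOne_le_of_monic_relation z n hn (fun i => (G i).eval y) hrel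
  have h2 := hDC y
  linarith

end Absolute

end Fermat.Agent.MW.IntegralBound10
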