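/-
helper73, programme MW (S17), brick FIN-2: THE CONCRETE GEOMETRIC PACKAGE.

`JData N M` = the Jacobian `D'` (with its representation `h` of THE cut) of a model curve `M` of
the function field of `X_0(N)` over `Qbar`, together with the FAMILY data: a symmetric effective
Cartier divisor `D₀` with affine complement `U`, a finite family `s` (with `s 0 = 1`) generating
`O(D₀ · D₀)`, and the theorems of the square / cube for it (family form).

`JData.toGeomCore : GeomCore N` is the corresponding abstract package, with
`V = D'.P`, `f = D'.toBase`, `β = PicBridge84.Iso.β M h`, `transl = Inst7.JGroup.transl M h`,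
`dbl = Inst7.JGroup.dbl M h` (all by `rfl`), so that the Northcott brick (NC-B) can be stated for
`J.toGeomCore.height` and still see the concrete Jacobian.
-/
import Fermat.Agent.MW.GeomPackage73
import Fermat.Agent.MW.Inst7.JGroup
import Fermat.Agent.MW.Inst73.CaDivFamily
import Fermat.Agent.MW.CurveInst7

set_option autoImplicit false
set_option linter.unusedSectionVars false
set_option linter.style.haveILetI false

open CategoryTheory AlgebraicGeometry AlgebraicGeometry.RelPicard ModularCurve AlgebraicCurve
  NeronModelInfra GoodReductionJacobian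

namespace Fermat.Agent.MW

open Fermat.Agent.MW.HM73 Fermat.Agent.MW.Inst73 Fermat.Agent.MW.Inst7
  Fermat.Agent.AV.F1Model15 Fermat.Agent.AV.PicDiv86 Fermat.Agent.AV.PicBridge84
  Fermat.Agent.Jac Fermat.Agent.Jac.FinalWiring41

/-- The function field of `X_0(N)` over `Qbar` is a curve in the sense of the Prelude. -/
instance isCurveOver_bar73 (N : ℕ) [NeZero N] :
    IsCurveOver QBar ↥(modularFunctionFieldBar N) := CurveInst7.isCurveOver_bar N

/-- The function field of `X_0(N)` over `Qbar` is essentially of finite type. -/
instance essFiniteType_bar73 (N : ℕ) [NeZero N] :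
    Algebra.EssFiniteType QBar ↥(modularFunctionFieldBar N) := CurveInst7.essFiniteType_bar N

/-- The concrete geometric data for `J_0(N)`, relative to a model curve `M`. -/
structure JData (N : ℕ) [NeZero N] (M : Model QBar ↥(modularFunctionFieldBar N)) where
  /-- the Jacobian -/
  D' : RelativePic0Designation QBar M.c
  /-- it represents THE cut -/
  h : haveI := M.isIntegral; RepresentsRelSubPic M.c M.ε (cut41 (dict41 M.cc)) D'
  [smooth : Smooth D'.toBase]
  [proper : IsProper D'.toBase]
  [geomConn : GeometricallyConnected D'.toBase]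
  [integral : IsIntegral D'.P]
  /-- the symmetric effective divisor with affine complement -/
  U : D'.P.Opens
  D₀ : CaDiv D'.P
  isAffineOpen_U : IsAffineOpen U
  [nonempty_U : Nonempty U]
  effective : D₀.IsEffective
  support_eq : D₀.support = (U : Set D'.P)ᶜ
  /-- the generating family of `O(D₀ · D₀)` -/
  n : ℕ
  s : Fin (n + 1) → D'.P.functionField
  s_zero : s 0 = 1
  generates : Generates s (D₀ * D₀)
  /-- theorem of the square, up to torsion -/
  square : ∀ a : JZero N, ∃ (d : ℕ) (φ : D'.P.functionField), 0 < d ∧ φ ≠ 0 ∧
    SectionsOf (fun p : Fin (n + 1) × Fin (n + 1) =>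
        (ffMap (JGroup.transl M h a) (JGroup.transl_dom M h a) (s p.1) *
          ffMap (JGroup.transl M h (-a)) (JGroup.transl_dom M h (-a)) (s p.2)) ^ d)
      (fun p : Fin (n + 1) × Fin (n + 1) => φ * (s p.1 * s p.2) ^ d) ∧
    SectionsOf (fun p : Fin (n + 1) × Fin (n + 1) => φ * (s p.1 * s p.2) ^ d)
      (fun p : Fin (n + 1) × Fin (n + 1) =>
        (ffMap (JGroup.transl M h a) (JGroup.transl_dom M h a) (s p.1) *
          ffMap (JGroup.transl M h (-a)) (JGroup.transl_dom M h (-a)) (s p.2)) ^ d)
  /-- theorem of the cube, up to torsion -/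
  cube : ∃ (d : ℕ) (ψ : D'.P.functionField), 0 < d ∧ ψ ≠ 0 ∧
    SectionsOf (fun i : Fin (n + 1) =>
        ffMap (JGroup.dbl M h) (JGroup.dbl_dom M h two_ne_zero) (s i) ^ d)
      (fun i : Fin (n + 1) => ψ * s i ^ (4 * d)) ∧
    SectionsOf (fun i : Fin (n + 1) => ψ * s i ^ (4 * d))
      (fun i : Fin (n + 1) =>
        ffMap (JGroup.dbl M h) (JGroup.dbl_dom M h two_ne_zero) (s i) ^ d)

namespace JData

attribute [instance] JData.smooth JData.proper JData.geomConn JData.integral JData.nonempty_U

variable {N : ℕ} [NeZero N] {M : Model QBar ↥(modularFunctionFieldBar N)} (J : JData N M)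

/-- **The abstract geometric core of the concrete data.** -/
noncomputable def toGeomCore : GeomCore N where
  V := J.D'.P
  integral := J.integral
  f := J.D'.toBase
  univClosed := JGroup.univClosed M J.h
  locFinType := JGroup.locFinType M J.h
  β := Iso.β M J.h
  β_surj := JGroup.β_surj M J.h
  transl := JGroup.transl M J.h
  transl_iso := JGroup.isIso_transl M J.h
  transl_over := JGroup.transl_over M J.h
  transl_dom := JGroup.transl_dom M J.h
  transl_pt := JGroup.transl_pt M J.h
  dbl := JGroup.dbl M J.h
  dbl_over := JGroup.dbl_over M J.h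
  dbl_dom := JGroup.dbl_dom M J.h two_ne_zero
  dbl_pt := JGroup.dbl_pt M J.h
  ι := Fin (J.n + 1)
  s := J.s
  gen := J.generates.sectionsOf_self
  square := J.square
  cube := J.cube

@[simp] theorem toGeomCore_V : J.toGeomCore.V = J.D'.P := rfl
@[simp] theorem toGeomCore_f : J.toGeomCore.f = J.D'.toBase := rfl
@[simp] theorem toGeomCore_β : J.toGeomCore.β = Iso.β M J.h := rfl
@[simp] theorem toGeomCore_s : J.toGeomCore.s = J.s := rfl
@[simp] theorem toGeomCore_transl : J.toGeomCore.transl = JGroup.transl M J.h := rfl

theorem β_injective : Function.Injective J.toGeomCore.β := JGroup.β_inj M J.h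

/-- The height of the concrete package. -/
theorem height_eq (x : JZero N) :
    J.toGeomCore.height x = hgt J.D'.toBase J.s (Iso.β M J.h x) := rfl

end JData

end Fermat.Agent.MW
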