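/-
helper10 — programme MW (S17): ABSOLUTE form over `Qbar` (any char-0 field algebraic over `ℚ`) of
helper39's key lemma `KL39.logHeight_sumElim_le_of_dehomCert`.  This is the first instance of the
transfer principle: a bound over number fields whose constant has the shape
`totalWeight K * a + logHeight (coefficient tuple)` gives the same bound for `absLogHeight`, with
`totalWeight K` replaced by `1`.
-/
import Fermat.Agent.MW.KL39.Height
import Fermat.Agent.MW.AbsHeightDef10

set_option autoImplicit false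

open Height Module NumberField

namespace Fermat.Agent.MW.KLAbs10

open Fermat.Agent.MW.AbsHeightDef10

variable {E : Type*} [Field E] [CharZero E] [Algebra.IsAlgebraic ℚ E]
variable {ι ι' κ : Type*} [Finite ι] [Finite ι'] [Finite κ]

omit [Algebra.IsAlgebraic ℚ E] [Finite ι] in
/-- lifting a multivariate polynomial whose coefficients lie in a subfield. -/
theorem exists_map_eq (K : IntermediateField ℚ E) (p : MvPolynomial ι E)
    (hp : ∀ s ∈ p.support, p.coeff s ∈ K) :
    ∃ q : MvPolynomial ι K, MvPolynomial.map (algebraMap K E) q = p := by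
  have : p ∈ Set.range (MvPolynomial.map (algebraMap K E)) := by
    rw [MvPolynomial.mem_range_map_iff_coeffs_subset]
    intro x hx
    rw [Finset.mem_coe, MvPolynomial.mem_coeffs_iff] at hx
    obtain ⟨s, hs, rfl⟩ := hx
    exact ⟨⟨p.coeff s, hp s hs⟩, rfl⟩
  exact this

/-- **KEY LEMMA, absolute form** (dehomogenised certificates). -/
theorem absLogHeight_sumElim_le_of_dehomCert (σ : ι → E) (τ : ι' → E) (hσ : σ ≠ 0)
    (k : ι → ι' → ℕ) (p : ∀ j l, Fin (k j l) → MvPolynomial ι E)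
    (hrel : ∀ j l, σ j ≠ 0 → (τ l / σ j) ^ k j l +
      ∑ i : Fin (k j l), (p j l i).eval (fun a => σ a / σ j) * (τ l / σ j) ^ (i : ℕ) = 0)
    (c : κ → E) (hc1 : ∃ a, c a = 1)
    (hc : ∀ j l i, ∀ s ∈ (p j l i).support, ∃ a, c a = (p j l i).coeff s)
    (R : ℕ) (hR1 : 1 ≤ R) (hR : ∀ j l, ∑ i : Fin (k j l), (p j l i).support.card ≤ R) :
    absLogHeight (Sum.elim σ τ) ≤ Real.log R + absLogHeight c + absLogHeight σ := by
  classical
  obtain ⟨K, hK, hS⟩ := exists_finiteDimensional_of_finite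
    (Set.range σ ∪ Set.range τ ∪ Set.range c)
    (((Set.finite_range σ).union (Set.finite_range τ)).union (Set.finite_range c))
  have := numberField_of_finiteDimensional K
  have hσK : ∀ i, σ i ∈ K := fun i => hS (Or.inl (Or.inl ⟨i, rfl⟩))
  have hτK : ∀ l, τ l ∈ K := fun l => hS (Or.inl (Or.inr ⟨l, rfl⟩))
  have hcK : ∀ a, c a ∈ K := fun a => hS (Or.inr ⟨a, rfl⟩)
  set σK : ι → K := fun i => ⟨σ i, hσK i⟩ with hσK'
  set τK : ι' → K := fun l => ⟨τ l, hτK l⟩ with hτK'
  set cK : κ → K := fun a => ⟨c a, hcK a⟩ with hcK'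
  have hpK : ∀ j l i, ∃ q : MvPolynomial ι K, MvPolynomial.map (algebraMap K E) q = p j l i := by
    intro j l i
    refine exists_map_eq K _ fun s hs => ?_
    obtain ⟨a, ha⟩ := hc j l i s hs
    rw [← ha]
    exact hcK a
  choose q hq using hpK
  have hinj : Function.Injective (algebraMap K E) := (algebraMap K E).injective
  have hsupp : ∀ j l i, (q j l i).support = (p j l i).support := fun j l i => by
    rw [← hq j l i, MvPolynomial.support_map_of_injective _ hinj]
  have hcoeff : ∀ j l i s, algebraMap K E ((q j l i).coeff s) = (p j l i).coeff s :=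
    fun j l i s => by rw [← hq j l i, MvPolynomial.coeff_map]
  have hσK0 : σK ≠ 0 := by
    intro h
    apply hσ
    funext i
    have := congrFun h i
    exact congrArg Subtype.val this
  have hrelK : ∀ j l, σK j ≠ 0 → (τK l / σK j) ^ k j l +
      ∑ i : Fin (k j l), (q j l i).eval (fun a => σK a / σK j) * (τK l / σK j) ^ (i : ℕ) = 0 := by
    intro j l hj
    have hj' : σ j ≠ 0 := fun h => hj (Subtype.ext h)
    apply hinj
    rw [map_zero, map_add, map_pow, map_div₀, map_sum]
    have e1 : ∀ i : Fin (k j l),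
        algebraMap K E ((q j l i).eval (fun a => σK a / σK j) * (τK l / σK j) ^ (i : ℕ)) =
          (p j l i).eval (fun a => σ a / σ j) * (τ l / σ j) ^ (i : ℕ) := by
      intro i
      have e0 : algebraMap K E ((q j l i).eval (fun a => σK a / σK j)) =
          (p j l i).eval (fun a => σ a / σ j) := by
        rw [← hq j l i, MvPolynomial.eval_map]
        change algebraMap K E (MvPolynomial.eval₂ (RingHom.id K) _ _) = _
        rw [MvPolynomial.eval₂_comp_left, RingHom.comp_id]
        rfl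
      rw [map_mul, map_pow, map_div₀, e0]
      rfl
    simp_rw [e1]
    exact hrel j l hj'
  have hcK1 : ∃ a, cK a = 1 := by
    obtain ⟨a, ha⟩ := hc1
    exact ⟨a, Subtype.ext ha⟩
  have hcK2 : ∀ j l i, ∀ s ∈ (q j l i).support, ∃ a, cK a = (q j l i).coeff s := by
    intro j l i s hs
    rw [hsupp] at hs
    obtain ⟨a, ha⟩ := hc j l i s hs
    refine ⟨a, hinj ?_⟩
    rw [hcoeff]
    exact ha
  have hRK : ∀ j l, ∑ i : Fin (k j l), (q j l i).support.card ≤ R := fun j l => by
    simp_rw [hsupp]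
    exact hR j l
  have hmain := KL39.logHeight_sumElim_le_of_dehomCert σK τK hσK0 k q hrelK cK hcK1 hcK2 R hR1 hRK
  rw [totalWeight_eq_finrank] at hmain
  have hd : (0 : ℝ) < finrank ℚ K := by exact_mod_cast finrank_pos
  have hmem : ∀ x, (Sum.elim σ τ) x ∈ K := fun x => by
    cases x with
    | inl i => exact hσK i
    | inr l => exact hτK l
  have e2 : absLogHeight (Sum.elim σ τ) = logHeight (Sum.elim σK τK) / finrank ℚ K := by
    rw [absLogHeight_eq_of_mem K _ hmem]
    congr 2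
    funext x
    cases x <;> rfl
  rw [e2, absLogHeight_eq_of_mem K c hcK, absLogHeight_eq_of_mem K σ hσK, div_le_iff₀ hd,
    add_mul, add_mul, div_mul_cancel₀ _ hd.ne', div_mul_cancel₀ _ hd.ne']
  linarith

/-- KEY LEMMA, absolute form: bound for the height of `τ` alone. -/
theorem absLogHeight_le_of_dehomCert (σ : ι → E) (τ : ι' → E) (hσ : σ ≠ 0)
    (k : ι → ι' → ℕ) (p : ∀ j l, Fin (k j l) → MvPolynomial ι E)
    (hrel : ∀ j l, σ j ≠ 0 → (τ l / σ j) ^ k j l +
      ∑ i : Fin (k j l), (p j l i).eval (fun a => σ a / σ j) * (τ l / σ j) ^ (i : ℕ) = 0)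
    (c : κ → E) (hc1 : ∃ a, c a = 1)
    (hc : ∀ j l i, ∀ s ∈ (p j l i).support, ∃ a, c a = (p j l i).coeff s)
    (R : ℕ) (hR1 : 1 ≤ R) (hR : ∀ j l, ∑ i : Fin (k j l), (p j l i).support.card ≤ R) :
    absLogHeight τ ≤ Real.log R + absLogHeight c + absLogHeight σ := by
  have h := absLogHeight_comp_le (Sum.inr : ι' → ι ⊕ ι') (Sum.elim σ τ)
  rw [Sum.elim_comp_inr] at h
  exact h.trans (absLogHeight_sumElim_le_of_dehomCert σ τ hσ k p hrel c hc1 hc R hR1 hR)

/-- KEY LEMMA, absolute form, HOMOGENEOUS certificates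
`σ j ^ e * τ l ^ k + ∑ i < k, (A i).eval σ * τ l ^ i = 0`, `A i` homogeneous of degree
`e + k - i`. -/
theorem absLogHeight_sumElim_le_of_homCert (σ : ι → E) (τ : ι' → E) (hσ : σ ≠ 0)
    (e k : ι → ι' → ℕ) (A : ∀ j l, Fin (k j l) → MvPolynomial ι E)
    (hA : ∀ j l (i : Fin (k j l)), (A j l i).IsHomogeneous (e j l + k j l - i))
    (hrel : ∀ j l, σ j ≠ 0 → σ j ^ e j l * τ l ^ k j l +
      ∑ i : Fin (k j l), (A j l i).eval σ * τ l ^ (i : ℕ) = 0)
    (c : κ → E) (hc1 : ∃ a, c a = 1)
    (hc : ∀ j l i, ∀ s ∈ (A j l i).support, ∃ a, c a = (A j l i).coeff s)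
    (R : ℕ) (hR1 : 1 ≤ R) (hR : ∀ j l, ∑ i : Fin (k j l), (A j l i).support.card ≤ R) :
    absLogHeight (Sum.elim σ τ) ≤ Real.log R + absLogHeight c + absLogHeight σ :=
  absLogHeight_sumElim_le_of_dehomCert σ τ hσ k A
    (fun j l hj => KL39.dehom_of_hom σ j hj (τ l) (e j l) (k j l) (A j l) (hA j l) (hrel j l hj))
    c hc1 hc R hR1 hR

/-- Two-sided form: if `σ` is a subfamily of a family satisfying certificates over `σ`, the two
heights differ by a bounded amount. -/
theorem abs_absLogHeight_sumElim_sub_le_of_dehomCert (σ : ι → E) (τ : ι' → E) (hσ : σ ≠ 0)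
    (k : ι → ι' → ℕ) (p : ∀ j l, Fin (k j l) → MvPolynomial ι E)
    (hrel : ∀ j l, σ j ≠ 0 → (τ l / σ j) ^ k j l +
      ∑ i : Fin (k j l), (p j l i).eval (fun a => σ a / σ j) * (τ l / σ j) ^ (i : ℕ) = 0)
    (c : κ → E) (hc1 : ∃ a, c a = 1)
    (hc : ∀ j l i, ∀ s ∈ (p j l i).support, ∃ a, c a = (p j l i).coeff s)
    (R : ℕ) (hR1 : 1 ≤ R) (hR : ∀ j l, ∑ i : Fin (k j l), (p j l i).support.card ≤ R) :
    |absLogHeight (Sum.elim σ τ) - absLogHeight σ| ≤ Real.log R + absLogHeight c := by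
  have h1 := absLogHeight_sumElim_le_of_dehomCert σ τ hσ k p hrel c hc1 hc R hR1 hR
  have h2 := absLogHeight_comp_le (Sum.inl : ι → ι ⊕ ι') (Sum.elim σ τ)
  rw [Sum.elim_comp_inl] at h2
  have h3 : 0 ≤ Real.log R := Real.log_nonneg (by exact_mod_cast hR1)
  have h4 := absLogHeight_nonneg c
  rw [abs_le]
  constructor <;> linarith

end Fermat.Agent.MW.KLAbs10
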