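/-
helper10 — programme MW (S17): abstract skeleton of the Northcott step NORTH-C.

* `natDegree_minpoly_le_card_of_stable`: an element of a finite Galois-stable subset `S` of a
  normal extension of `ℚ` has degree at most `#S`.
* `finite_setOf_le_of_divisorData`: the finiteness skeleton.  Points `x : Γ` are determined by
  a multiset `D x` of at most `g` "places"; a function `t` on places with finite fibres takes, on
  the places of `D x`, values of bounded degree and of absolute height `≤ C * h x + C'`.  Then `h`
  has the Northcott property on `Γ`.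
-/
import Fermat.Agent.MW.AbsHeightNorthcott10
import Mathlib.Data.Set.Finite.List

set_option autoImplicit false

open Polynomial

namespace Fermat.Agent.MW.NorthAbs10

open Fermat.Agent.MW.AbsHeightDef10 Fermat.Agent.MW.AbsHeightOne10
  Fermat.Agent.MW.AbsHeightNorthcott10

section Degree

variable {E : Type*} [Field E] [CharZero E] [Normal ℚ E]

/-- An element of a finite Galois-stable set has degree at most the cardinality of the set. -/
theorem natDegree_minpoly_le_card_of_stable (S : Finset E) (a : E)
    (hS : ∀ σ : E ≃ₐ[ℚ] E, σ a ∈ S) : (minpoly ℚ a).natDegree ≤ S.card := by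
  classical
  have hint : IsIntegral ℚ a := Algebra.IsIntegral.isIntegral a
  have hsep : (minpoly ℚ a).Separable := (minpoly.irreducible hint).separable
  have hsplit : Splits ((minpoly ℚ a).map (algebraMap ℚ E)) := Normal.splits inferInstance a
  rw [← card_rootSet_eq_natDegree hsep hsplit, ← Set.toFinset_card]
  apply Finset.card_le_card
  intro b hb
  rw [Set.mem_toFinset, mem_rootSet] at hb
  obtain ⟨σ, hσ⟩ := minpoly.exists_algEquiv_of_root' hint.isAlgebraic hb.2
  rw [← hσ]
  exact hS σ

/-- Multiset version: an element of a Galois-stable multiset has degree at most its size. -/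
theorem natDegree_minpoly_le_card_of_stable_multiset (M : Multiset E) (a : E)
    (hM : ∀ σ : E ≃ₐ[ℚ] E, σ a ∈ M) : (minpoly ℚ a).natDegree ≤ Multiset.card M := by
  classical
  refine (natDegree_minpoly_le_card_of_stable M.toFinset a
    fun σ => Multiset.mem_toFinset.mpr (hM σ)).trans (Multiset.toFinset_card_le M)

end Degree

section Skeleton

variable {E : Type*} [Field E] [CharZero E] [Algebra.IsAlgebraic ℚ E]

/-- multisets of bounded size over a finite set form a finite set. -/
theorem finite_setOf_multiset_card_le {P : Type*} (T : Set P) (hT : T.Finite) (g : ℕ) :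
    {M : Multiset P | Multiset.card M ≤ g ∧ ∀ p ∈ M, p ∈ T}.Finite := by
  classical
  -- such multisets are images of lists of length ≤ g over the finite type `T`
  have hfin : Finite T := hT
  have hlists : {l : List T | l.length ≤ g}.Finite := List.finite_length_le T g
  refine (hlists.image fun l : List T => ((l.map Subtype.val : List P) : Multiset P)).subset ?_
  rintro M ⟨hcard, hmem⟩
  induction M using Quotient.inductionOn with
  | _ l =>
    refine ⟨l.attach.map fun p => ⟨p.1, hmem p.1 (by simpa using p.2)⟩, ?_, ?_⟩
    · simpa using hcard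
    · simp [List.map_map, Function.comp_def]

/-- **Northcott skeleton.** -/
theorem finite_setOf_le_of_divisorData {Γ P : Type*} (h : Γ → ℝ) (D : Γ → Multiset P)
    (hD : Function.Injective D) (g : ℕ) (hcard : ∀ x, Multiset.card (D x) ≤ g)
    (t : P → E) (ht : ∀ a : E, {p | t p = a}.Finite) (d : ℕ)
    (hdeg : ∀ x, ∀ p ∈ D x, (minpoly ℚ (t p)).natDegree ≤ d)
    (C C' : ℝ) (hC : 0 ≤ C) (hbound : ∀ x, ∀ p ∈ D x, absLogHeightOne (t p) ≤ C * h x + C')
    (B : ℝ) : {x | h x ≤ B}.Finite := by
  classical
  -- the finite set of admissible values of `t`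
  have hV := finite_setOf_natDegree_minpoly_le_absLogHeightOne_le (Ω := E) d (C * B + C')
  -- the finite set of admissible places
  set T : Set P := {p | t p ∈ {a : E | (minpoly ℚ a).natDegree ≤ d ∧
    absLogHeightOne a ≤ C * B + C'}} with hTdef
  have hT : T.Finite := by
    have : T = ⋃ a ∈ {a : E | (minpoly ℚ a).natDegree ≤ d ∧
        absLogHeightOne a ≤ C * B + C'}, {p | t p = a} := by
      ext p
      simp [hTdef]
    rw [this]
    exact hV.biUnion fun a _ => ht a
  have hM := finite_setOf_multiset_card_le T hT g
  refine (hM.preimage (hD.injOn)).subset ?_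
  intro x hx
  refine ⟨hcard x, fun p hp => ⟨hdeg x p hp, (hbound x p hp).trans ?_⟩⟩
  have : C * h x ≤ C * B := mul_le_mul_of_nonneg_left hx hC
  linarith

end Skeleton

end Fermat.Agent.MW.NorthAbs10
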