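/-
Programme MW (S17), brick NORTH-asm (helper2): **the Northcott property of the height on the
Galois-fixed classes from the NC-B bound**, at the function-field level.

Abstract setting (`NorthA85/Reduced.lean`): a function field `F / K` with a base place `oo`, the
Riemann inequality `hR` (genus bound `g`), hence for every class `x : Pic⁰` the reduced
representative `D_x = redDiv oo H g hR x` (unique effective divisor of minimal degree `r ≤ g` with
`x = [D_x - r·oo]`, `oo ∉ D_x`).  A group of semilinear automorphisms `ρ : Gal(E/ℚ) → Aut(F/K)`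
fixing `oo` and a function `t : Place K F → E` ("value of the coordinate function `t` at `P`") which
is Galois-equivariant off `oo` and has finite fibres off `oo`.

`finite_setOf_le_of_bound` : if `h(t(P)) ≤ C · h(x) + C'` for all Galois-fixed `x` and all
`P ∈ supp D_x`, then `{x Galois-fixed | h x ≤ B}` is finite for every `B`.

Proof: for fixed `x` the support of `D_x` is Galois-stable (`smul_mem_support_redDiv`) of size `≤ g`,
so every `t(P)`, `P ∈ supp D_x`, has degree `≤ g` over `ℚ` (`NorthAbs10`), and height `≤ C B + C'`;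
by the bounded-degree Northcott theorem (`AbsHeightNorthcott10`) and the finiteness of the fibres of
`t` the places `P` range over a finite set; conclude by `finite_setOf_support_redDiv_subset`.
-/
import Mathlib
import Fermat.Agent.MW.NorthA85.Reduced
import Fermat.Agent.MW.NorthAbs10
import Fermat.Agent.MW73.S17Wiring

set_option autoImplicit false
set_option linter.unusedSectionVars false

open AlgebraicCurve

namespace Fermat.Agent.MW.NorthAsm2

open Fermat.Agent.RR.LSpace Fermat.Agent.MW.NorthA85
open Fermat.Agent.MW.AbsHeightOne10 Fermat.Agent.MW.AbsHeightNorthcott10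
  Fermat.Agent.MW.NorthAbs10

section Abstract

variable {K F : Type*} [Field K] [Field F] [Algebra K F] {oo : Place K F}
  (H : LHyp K F) (g : ℕ)
  (hR : ∀ D : Divisor K F, Divisor.degree D + 1 - g ≤ Module.finrank K (riemannRochSpace D))
  {E : Type*} [Field E] [CharZero E] [Normal ℚ E]
  (ρ : (E ≃ₐ[ℚ] E) →* SemilinearAut K F)

include H in
/-- The values of `t` on the support of the reduced divisor of a Galois-fixed class have degree at
most `g` over `ℚ`. -/
theorem natDegree_minpoly_le_of_fixed (hoo : ∀ σ, ρ σ • oo = oo)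
    (t : Place K F → E)
    (hequiv : ∀ (σ : E ≃ₐ[ℚ] E) (P : Place K F), P ≠ oo → t (ρ σ • P) = σ (t P))
    {x : Pic0 K F} (hx : ∀ σ, ρ σ • x = x) {P : Place K F}
    (hP : P ∈ (redDiv oo H g hR x).support) :
    (minpoly ℚ (t P)).natDegree ≤ g := by
  classical
  have hPoo : ∀ Q ∈ (redDiv oo H g hR x).support, Q ≠ oo := by
    intro Q hQ hQoo
    rw [Finsupp.mem_support_iff, hQoo, redDiv_apply_oo H g hR x] at hQ
    exact hQ rfl
  refine (natDegree_minpoly_le_card_of_stable ((redDiv oo H g hR x).support.image t) (t P)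
    fun σ => ?_).trans (Finset.card_image_le.trans (card_support_redDiv_le H g hR x))
  rw [← hequiv σ P (hPoo P hP)]
  exact Finset.mem_image_of_mem t (smul_mem_support_redDiv H g hR (ρ σ) (hoo σ) (hx σ) hP)

include H in
/-- **Northcott from the NC-B bound**, abstract form. -/
theorem finite_setOf_le_of_bound (hoo : ∀ σ, ρ σ • oo = oo)
    (t : Place K F → E) (ht : ∀ a : E, {P : Place K F | P ≠ oo ∧ t P = a}.Finite)
    (hequiv : ∀ (σ : E ≃ₐ[ℚ] E) (P : Place K F), P ≠ oo → t (ρ σ • P) = σ (t P))
    (h : Pic0 K F → ℝ) (C C' : ℝ) (hC : 0 ≤ C)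
    (hbound : ∀ x : Pic0 K F, (∀ σ, ρ σ • x = x) → ∀ P ∈ (redDiv oo H g hR x).support,
      absLogHeightOne (t P) ≤ C * h x + C')
    (B : ℝ) : {x : Pic0 K F | (∀ σ, ρ σ • x = x) ∧ h x ≤ B}.Finite := by
  classical
  -- the finite set of admissible values of `t`
  have hV := finite_setOf_natDegree_minpoly_le_absLogHeightOne_le (Ω := E) g (C * B + C')
  -- the finite set of admissible places
  set T : Set (Place K F) := {P | P ≠ oo ∧ ((minpoly ℚ (t P)).natDegree ≤ g ∧
    absLogHeightOne (t P) ≤ C * B + C')} with hTdef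
  have hT : T.Finite := by
    have : T = ⋃ a ∈ {a : E | (minpoly ℚ a).natDegree ≤ g ∧
        absLogHeightOne a ≤ C * B + C'}, {P | P ≠ oo ∧ t P = a} := by
      ext P
      simp only [hTdef, Set.mem_ofPred_eq, Set.mem_iUnion, exists_prop]
      constructor
      · rintro ⟨h1, h2⟩
        exact ⟨t P, h2, h1, rfl⟩
      · rintro ⟨a, h2, h1, rfl⟩
        exact ⟨h1, h2⟩
    rw [this]
    exact hV.biUnion fun a _ => ht a
  refine (finite_setOf_support_redDiv_subset (oo := oo) H g hR hT.toFinset).subset ?_
  rintro x ⟨hx, hxB⟩ P hP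
  rw [Set.Finite.mem_toFinset]
  refine ⟨?_, natDegree_minpoly_le_of_fixed H g hR ρ hoo t hequiv hx hP,
    (hbound x hx P hP).trans ?_⟩
  · intro hPoo
    have hP' := hP
    rw [Finsupp.mem_support_iff, hPoo, redDiv_apply_oo H g hR x] at hP'
    exact hP' rfl
  · have : C * h x ≤ C * B := mul_le_mul_of_nonneg_left hxB hC
    linarith

end Abstract

/-! ### The instance `J₀(N)` -/

section Concrete

open ModularCurve Fermat.Agent.MW73

local notation "Qb" => AlgebraicClosure ℚ
local notation "GQ" => (AlgebraicClosure ℚ ≃ₐ[ℚ] AlgebraicClosure ℚ)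

/-- `ℚ̄` is algebraic over `ℚ` for the default (`DivisionRing.toRatAlgebra`) algebra structure,
the one used by the Prelude's Galois group and by the absolute height. -/
theorem isAlgebraic_rat_Qb : Algebra.IsAlgebraic ℚ Qb := by
  have h : (DivisionRing.toRatAlgebra : Algebra ℚ (AlgebraicClosure ℚ)) =
      AlgebraicClosure.instAlgebra ℚ := Subsingleton.elim _ _
  rw [h]; infer_instance

/-- `ℚ̄ / ℚ` is normal (same algebra structure). -/
theorem normal_rat_Qb : Normal ℚ Qb := by
  have h : (DivisionRing.toRatAlgebra : Algebra ℚ (AlgebraicClosure ℚ)) =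
      AlgebraicClosure.instAlgebra ℚ := Subsingleton.elim _ _
  rw [h]; infer_instance

attribute [local instance] isAlgebraic_rat_Qb normal_rat_Qb

variable (N : ℕ) [NeZero N]

/-- **NORTH-asm**: the field `north` of `MW/Final73.HeightData` from the NC-B bound.  Inputs:
the Riemann inequality for `F = ℚ̄ · F₀(N)` (NC-A, `NorthA85/Inst`), a base place `oo` fixed by the
arithmetic Galois action and a coordinate function `t` on places with Galois-equivariant values
and finite fibres off `oo` (NC-A, `NCA61`). -/
theorem north_of_bound (H : LHyp Qb (modularFunctionFieldBar N)) (g : ℕ)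
    (hR : ∀ D : Divisor Qb (modularFunctionFieldBar N),
      Divisor.degree D + 1 - g ≤ Module.finrank Qb (riemannRochSpace D))
    (oo : Place Qb (modularFunctionFieldBar N))
    (hoo : ∀ σ : GQ, arithmeticGalois (modularFunctionFieldFull N) σ • oo = oo)
    (t : Place Qb (modularFunctionFieldBar N) → Qb)
    (ht : ∀ a : Qb, {P : Place Qb (modularFunctionFieldBar N) | P ≠ oo ∧ t P = a}.Finite)
    (hequiv : ∀ (σ : GQ) (P : Place Qb (modularFunctionFieldBar N)), P ≠ oo →
      t (arithmeticGalois (modularFunctionFieldFull N) σ • P) = σ (t P))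
    (h : JZero N → ℝ) (C C' : ℝ) (hC : 0 ≤ C)
    (hbound : ∀ x : JRat N, ∀ P ∈ (redDiv oo H g hR (x : JZero N)).support,
      absLogHeightOne (t P) ≤ C * h (x : JZero N) + C')
    (B : ℝ) : {x : JRat N | h (x : JZero N) ≤ B}.Finite := by
  have hfix : ∀ x : JZero N,
      (∀ σ : GQ, arithmeticGalois (modularFunctionFieldFull N) σ • x = x) →
        x ∈ FixedPoints.addSubgroup GQ (JZero N) := fun x hx σ => hx σ
  have hfin := finite_setOf_le_of_bound H g hR
    (arithmeticGalois (L := Qb) (modularFunctionFieldFull N)) hoo t ht hequiv h C C' hC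
    (fun x hx P hP => hbound ⟨x, hfix x hx⟩ P hP) B
  refine (hfin.preimage (Subtype.val_injective.injOn)).subset ?_
  intro x hx
  exact ⟨fun σ => x.2 σ, hx⟩

end Concrete

end Fermat.Agent.MW.NorthAsm2
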