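/-
Programme MW (S17), brick NORTH-asm, part 2 (helper2): `NorthAsm2.north_of_bound` in terms of
helper85's generic instantiation `NorthA85/Inst.lean` (`redDivGen`, `redPoints` for a function
field with a transcendental generator `IsGen K x`).
-/
import Mathlib
import Fermat.Agent.MW.NorthAsm2
import Fermat.Agent.MW.NorthA85.Inst

set_option autoImplicit false
set_option linter.unusedSectionVars false

open AlgebraicCurve ModularCurve

namespace Fermat.Agent.MW.NorthAsm2

open Fermat.Agent.RR.LSpace Fermat.Agent.RR.LHypGen Fermat.Agent.X0.FF Fermat.Agent.MW.NorthA85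
open Fermat.Agent.MW.AbsHeightOne10 Fermat.Agent.MW73

local notation "Qb" => AlgebraicClosure ℚ
local notation "GQ" => (AlgebraicClosure ℚ ≃ₐ[ℚ] AlgebraicClosure ℚ)

attribute [local instance] isAlgebraic_rat_Qb normal_rat_Qb

variable (N : ℕ) [NeZero N]

/-- **NORTH-asm**, in terms of the reduced points `redPoints hx x` (helper85): the field `north`
of `MW/Final73.HeightData` from the NC-B bound, the Galois-fixed base place `oo` and the coordinate
function `t` of NC-A (second half). -/
theorem north_of_bound_gen {j : modularFunctionFieldBar N} (hx : IsGen Qb j)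
    (oo : Place Qb (modularFunctionFieldBar N))
    (hoo : ∀ σ : GQ, arithmeticGalois (modularFunctionFieldFull N) σ • oo = oo)
    (t : Place Qb (modularFunctionFieldBar N) → Qb)
    (ht : ∀ a : Qb, {P : Place Qb (modularFunctionFieldBar N) | P ≠ oo ∧ t P = a}.Finite)
    (hequiv : ∀ (σ : GQ) (P : Place Qb (modularFunctionFieldBar N)), P ≠ oo →
      t (arithmeticGalois (modularFunctionFieldFull N) σ • P) = σ (t P))
    (h : JZero N → ℝ) (C C' : ℝ) (hC : 0 ≤ C)
    (hbound : ∀ x : JRat N, ∀ P ∈ redPoints (oo := oo) hx (x : JZero N),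
      absLogHeightOne (t P) ≤ C * h (x : JZero N) + C')
    (B : ℝ) : {x : JRat N | h (x : JZero N) ≤ B}.Finite :=
  north_of_bound N (lHyp_of_isGen hx) (riemannBound hx) (riemannBound_spec hx) oo hoo t ht hequiv
    h C C' hC (fun x P hP => hbound x P ((mem_redPoints hx _ P).mpr hP)) B

end Fermat.Agent.MW.NorthAsm2
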