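/-
Programme MW (S17), brick NORTH-asm, part 3 (helper2): **the NC-B bound from its strata.**

Function-field bookkeeping on top of helper85's `NorthA85/Points.lean`: the classes `y` with
`redDeg y = r` are exactly the classes `[Σ_{P ∈ l} P - r·oo]` of multisets `l` of `r` places, none
equal to `oo`, which are not classes of fewer points (the stratum `W_r \ W_(r-1)`), and then
`l = redPoints y`.  Hence a bound `h(t(P)) ≤ C_r h([l]) + C'_r` on each stratum `r ≤ g` (what the
scheme side delivers, stratum by stratum) gives the uniform bound `hbound` consumed by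
`NorthAsm2.north_of_bound_gen`.
-/
import Mathlib
import Fermat.Agent.MW.NorthAsm2b
import Fermat.Agent.MW.NorthA85.Points

set_option autoImplicit false
set_option linter.unusedSectionVars false

open AlgebraicCurve

namespace Fermat.Agent.MW.NorthAsm2

open Fermat.Agent.RR.LSpace Fermat.Agent.RR.LHypGen Fermat.Agent.X0.FF Fermat.Agent.MW.NorthA85
open Fermat.Agent.MW.AbsHeightOne10

section Strata

variable {K F : Type*} [Field K] [Field F] [Algebra K F] [IsAlgClosed K] [CharZero K] {x : F}
  {oo : Place K F} {E : Type*} [Field E] [CharZero E] [Algebra.IsAlgebraic ℚ E]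

/-- The hypothesis on the stratum `r`: a bound for the values of `t` at the points of every
multiset `l` of `r` places different from `oo` whose class is not a class of fewer points. -/
def StratumBound (hx : IsGen K x) (oo : Place K F) (t : Place K F → E) (h : Pic0 K F → ℝ)
    (r : ℕ) (C C' : ℝ) : Prop :=
  ∀ l : Multiset (Place K F), Multiset.card l = r → (∀ P ∈ l, P ≠ oo) →
    (¬ ∃ l' : Multiset (Place K F), Multiset.card l' < r ∧
      pointsClassGen oo hx l' = pointsClassGen oo hx l) →
    ∀ P ∈ l, absLogHeightOne (t P) ≤ C * h (pointsClassGen oo hx l) + C'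

/-- The reduced points of `y` satisfy the hypotheses of the stratum `redDeg y`. -/
theorem redPoints_mem_stratum (hx : IsGen K x) (y : Pic0 K F) :
    Multiset.card (redPoints (oo := oo) hx y) = redDegGen oo hx y ∧
      (∀ P ∈ redPoints (oo := oo) hx y, P ≠ oo) ∧
      ¬ ∃ l' : Multiset (Place K F), Multiset.card l' < redDegGen oo hx y ∧
        pointsClassGen oo hx l' = pointsClassGen oo hx (redPoints (oo := oo) hx y) := by
  refine ⟨card_redPoints hx y, fun P hP hPoo => ?_, ?_⟩
  · exact oo_notMem_redPoints (oo := oo) hx y (hPoo ▸ hP)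
  · rintro ⟨l', hlt, hl'⟩
    rw [pointsClassGen_redPoints] at hl'
    have := redDegGen_le_card (oo := oo) hx hl'
    omega

/-- **The NC-B bound from its strata.** -/
theorem hbound_of_strata (hx : IsGen K x) (t : Place K F → E) (h : Pic0 K F → ℝ)
    (hnonneg : ∀ y, 0 ≤ h y)
    (hstrata : ∀ r ≤ riemannBound hx, ∃ C C' : ℝ, StratumBound hx oo t h r C C') :
    ∃ C C' : ℝ, 0 ≤ C ∧ ∀ y : Pic0 K F, ∀ P ∈ redPoints (oo := oo) hx y,
      absLogHeightOne (t P) ≤ C * h y + C' := by
  classical
  choose! Cr Cr' hCr using hstrata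
  set g := riemannBound hx with hg
  refine ⟨∑ r ∈ Finset.range (g + 1), |Cr r|, ∑ r ∈ Finset.range (g + 1), |Cr' r|,
    Finset.sum_nonneg fun _ _ => abs_nonneg _, fun y P hP => ?_⟩
  obtain ⟨hcard, hoo, hmin⟩ := redPoints_mem_stratum (oo := oo) hx y
  have hr : redDegGen oo hx y ≤ g := redDegGen_le hx y
  have hb := hCr (redDegGen oo hx y) hr (redPoints (oo := oo) hx y) hcard hoo hmin P hP
  rw [pointsClassGen_redPoints] at hb
  have hmem : redDegGen oo hx y ∈ Finset.range (g + 1) := Finset.mem_range.mpr (by omega)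
  have h1 : |Cr (redDegGen oo hx y)| ≤ ∑ r ∈ Finset.range (g + 1), |Cr r| :=
    Finset.single_le_sum (f := fun r => |Cr r|) (fun _ _ => abs_nonneg _) hmem
  have h2 : |Cr' (redDegGen oo hx y)| ≤ ∑ r ∈ Finset.range (g + 1), |Cr' r| :=
    Finset.single_le_sum (f := fun r => |Cr' r|) (fun _ _ => abs_nonneg _) hmem
  have h3 : Cr (redDegGen oo hx y) * h y ≤ (∑ r ∈ Finset.range (g + 1), |Cr r|) * h y :=
    mul_le_mul_of_nonneg_right ((le_abs_self _).trans h1) (hnonneg y)
  have h4 : Cr' (redDegGen oo hx y) ≤ ∑ r ∈ Finset.range (g + 1), |Cr' r| :=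
    (le_abs_self _).trans h2
  linarith

end Strata

/-! ### The instance `J₀(N)` -/

section Concrete

open ModularCurve Fermat.Agent.MW73

local notation "Qb" => AlgebraicClosure ℚ
local notation "GQ" => (AlgebraicClosure ℚ ≃ₐ[ℚ] AlgebraicClosure ℚ)

attribute [local instance] isAlgebraic_rat_Qb normal_rat_Qb

variable (N : ℕ) [NeZero N]

/-- **NORTH from the strata bounds**: the field `north` of `MW/Final73.HeightData` from the
stratum-wise NC-B bounds and the NC-A data `(oo, t)`. -/
theorem north_of_strata {j : modularFunctionFieldBar N} (hx : IsGen Qb j)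
    (oo : Place Qb (modularFunctionFieldBar N))
    (hoo : ∀ σ : GQ, arithmeticGalois (modularFunctionFieldFull N) σ • oo = oo)
    (t : Place Qb (modularFunctionFieldBar N) → Qb)
    (ht : ∀ a : Qb, {P : Place Qb (modularFunctionFieldBar N) | P ≠ oo ∧ t P = a}.Finite)
    (hequiv : ∀ (σ : GQ) (P : Place Qb (modularFunctionFieldBar N)), P ≠ oo →
      t (arithmeticGalois (modularFunctionFieldFull N) σ • P) = σ (t P))
    (h : JZero N → ℝ) (hnonneg : ∀ y, 0 ≤ h y)
    (hstrata : ∀ r ≤ riemannBound hx, ∃ C C' : ℝ, StratumBound hx oo t h r C C')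
    (B : ℝ) : {x : JRat N | h (x : JZero N) ≤ B}.Finite := by
  obtain ⟨C, C', hC, hb⟩ := hbound_of_strata (oo := oo) hx t h hnonneg hstrata
  exact north_of_bound_gen N hx oo hoo t ht hequiv h C C' hC (fun x P hP => hb x P hP) B

end Concrete

end Fermat.Agent.MW.NorthAsm2
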