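/-
Programme MW (S17), brick NORTH-asm, part 4 (helper2): **the hypothesis-free plug.**

`NorthAsm2c.north_of_strata` with the NC-A data of helper61 (`MW/NCA61/Final.lean`): base place
`oo := inftyPlace N` (the `q`-expansion place, Galois-fixed), coordinate `c : Coordinate N`
(`c.t` Galois-fixed, generating, regular away from `oo`), and ANY total value function
`t : Place → Qbar` which computes the value of `c.t` away from `oo`.  The only remaining hypothesis
is the stratum-wise NC-B bound `StratumBound`; `geomPackage_of_strata` turns a `GeomCore N` plus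
these bounds into the `GeomPackage N` consumed by `MW.s17_of_geomPackage`.
-/
import Mathlib
import Fermat.Agent.MW.NorthAsm2c
import Fermat.Agent.MW.NCA61.Final
import Fermat.Agent.MW.GeomPackage73

set_option autoImplicit false
set_option linter.unusedSectionVars false

open AlgebraicCurve ModularCurve

namespace Fermat.Agent.MW.NorthAsm2

open Fermat.Agent.RR.LSpace Fermat.Agent.RR.LHypGen Fermat.Agent.X0.FF Fermat.Agent.MW.NorthA85
open Fermat.Agent.MW.AbsHeightOne10 Fermat.Agent.MW73
open Fermat.Agent.MW.NCA61.InfPlace Fermat.Agent.MW.NCA61.Values Fermat.Agent.MW.NCA61.Final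

local notation "Qb" => AlgebraicClosure ℚ
local notation "GQ" => (AlgebraicClosure ℚ ≃ₐ[ℚ] AlgebraicClosure ℚ)

attribute [local instance] isAlgebraic_rat_Qb normal_rat_Qb

variable {N : ℕ} [NeZero N]

/-- The total value function of a coordinate: `t(v)` for `v ≠ ∞`, junk value `0` at `∞`. -/
noncomputable def valTot (c : Coordinate N) (v : Place Qb (modularFunctionFieldBar N)) : Qb :=
  open Classical in if hv : v ≠ inftyPlace N then c.val v hv else 0

theorem valTot_of_ne (c : Coordinate N) {v : Place Qb (modularFunctionFieldBar N)}
    (hv : v ≠ inftyPlace N) : valTot c v = c.val v hv := by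
  unfold valTot
  rw [dif_pos hv]

/-- A total value function `t` computes the values of the coordinate `c` away from `∞`. -/
def IsValueFun (c : Coordinate N) (t : Place Qb (modularFunctionFieldBar N) → Qb) : Prop :=
  ∀ v : Place Qb (modularFunctionFieldBar N), v ≠ inftyPlace N →
    0 < v.ord (c.t - algebraMap Qb (modularFunctionFieldBar N) (t v))

theorem IsValueFun.eq_val {c : Coordinate N} {t : Place Qb (modularFunctionFieldBar N) → Qb}
    (ht : IsValueFun c t) (v : Place Qb (modularFunctionFieldBar N)) (hv : v ≠ inftyPlace N) :
    t v = c.val v hv :=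
  ((c.val_eq_iff v hv (t v)).mpr (ht v hv)).symm

theorem isValueFun_of_eq_val {c : Coordinate N} {t : Place Qb (modularFunctionFieldBar N) → Qb}
    (ht : ∀ (v : Place Qb (modularFunctionFieldBar N)) (hv : v ≠ inftyPlace N), t v = c.val v hv) :
    IsValueFun c t := fun v hv => (c.val_eq_iff v hv (t v)).mp (ht v hv).symm

theorem isValueFun_valTot (c : Coordinate N) : IsValueFun c (valTot c) :=
  isValueFun_of_eq_val fun _ hv => valTot_of_ne c hv

/-- **NORTH from the strata bounds, hypothesis-free on the NC-A side.** -/
theorem north_of_strata_coord (c : Coordinate N) {j : modularFunctionFieldBar N}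
    (hx : IsGen Qb j) (t : Place Qb (modularFunctionFieldBar N) → Qb) (ht : IsValueFun c t)
    (h : JZero N → ℝ) (hnonneg : ∀ y, 0 ≤ h y)
    (hstrata : ∀ r ≤ riemannBound hx, ∃ C C' : ℝ,
      StratumBound hx (inftyPlace N) t h r C C')
    (B : ℝ) : {x : JRat N | h (x : JZero N) ≤ B}.Finite := by
  refine north_of_strata N hx (inftyPlace N) (smul_inftyPlace N) t ?_ ?_ h hnonneg hstrata B
  · intro a
    refine (c.finite_fibre a).subset ?_
    rintro P ⟨hP, hPa⟩
    exact ⟨hP, by rw [← ht.eq_val P hP, hPa]⟩
  · intro σ P hP
    rw [ht.eq_val _ (smul_ne_infty σ hP), c.val_smul σ P hP, ht.eq_val P hP]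

/-- **The geometric package from the geometric core and the strata bounds.** -/
noncomputable def geomPackage_of_strata (G : GeomCore N) (c : Coordinate N)
    {j : modularFunctionFieldBar N} (hx : IsGen Qb j)
    (t : Place Qb (modularFunctionFieldBar N) → Qb) (ht : IsValueFun c t)
    (hstrata : ∀ r ≤ riemannBound hx, ∃ C C' : ℝ,
      StratumBound hx (inftyPlace N) t G.height r C C') : GeomPackage N :=
  { G with
    north := north_of_strata_coord c hx t ht G.height G.height_nonneg hstrata }

/-- **S17 from the geometric core, the strata bounds and weak Mordell-Weil for `2`.** -/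
theorem s17_of_strata (G : GeomCore N) (c : Coordinate N)
    {j : modularFunctionFieldBar N} (hx : IsGen Qb j)
    (t : Place Qb (modularFunctionFieldBar N) → Qb) (ht : IsValueFun c t)
    (hstrata : ∀ r ≤ riemannBound hx, ∃ C C' : ℝ,
      StratumBound hx (inftyPlace N) t G.height r C C')
    (hweak : (nsmulAddMonoidHom (α := JRat N) 2).range.FiniteIndex) :
    AddGroup.FG (JRat N) :=
  s17_of_geomPackage N (geomPackage_of_strata G c hx t ht hstrata) hweak

end Fermat.Agent.MW.NorthAsm2
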