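/-
Programme MW (S17), brick NORTH-asm, part 5 (helper2): `NorthAsm2d` specialised to helper61's total
value function `c.valT` (`MW/NCA61/Extras.lean`) and to the generator `c.isGen` — the exact shape
asked for by the NC-B integrator (helper10, `MW/NorthFinal10.lean`).
-/
import Mathlib
import Fermat.Agent.MW.NorthAsm2d
import Fermat.Agent.MW.NCA61.Extras

set_option autoImplicit false
set_option linter.unusedSectionVars false

open AlgebraicCurve ModularCurve

namespace Fermat.Agent.MW.NorthAsm2

open Fermat.Agent.RR.LSpace Fermat.Agent.RR.LHypGen Fermat.Agent.X0.FF Fermat.Agent.MW.NorthA85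
open Fermat.Agent.MW.AbsHeightOne10 Fermat.Agent.MW73
open Fermat.Agent.MW.NCA61.InfPlace Fermat.Agent.MW.NCA61.Values Fermat.Agent.MW.NCA61.Final

local notation "Qb" => AlgebraicClosure ℚ

variable {N : ℕ} [NeZero N]

theorem isValueFun_valT (c : Coordinate N) : IsValueFun c c.valT :=
  isValueFun_of_eq_val fun _ hv => c.valT_of_ne hv

/-- **NORTH from the strata bounds** for `t := c.valT`, `hx := c.isGen`. -/
theorem north_of_strata_valT (c : Coordinate N) (h : JZero N → ℝ) (hnonneg : ∀ y, 0 ≤ h y)
    (hstrata : ∀ r ≤ riemannBound c.isGen, ∃ C C' : ℝ,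
      StratumBound c.isGen (inftyPlace N) c.valT h r C C')
    (B : ℝ) : {x : JRat N | h (x : JZero N) ≤ B}.Finite :=
  north_of_strata_coord c c.isGen c.valT (isValueFun_valT c) h hnonneg hstrata B

/-- **The field `north` of `GeomPackage N`** from a geometric core and the strata bounds for its
height. -/
theorem north_of_geomCore (G : GeomCore N) (c : Coordinate N)
    (hstrata : ∀ r ≤ riemannBound c.isGen, ∃ C C' : ℝ,
      StratumBound c.isGen (inftyPlace N) c.valT G.height r C C') :
    ∀ B : ℝ, {x : JRat N | G.height (x : JZero N) ≤ B}.Finite :=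
  north_of_strata_valT c G.height G.height_nonneg hstrata

/-- The same with the strata `0` and `r + 1` separated (the shapes produced by
`NorthB32.stratumBound_zero` / `exists_stratumBound_succ` and `NorthB10.WiringCoord`). -/
theorem north_of_geomCore_succ (G : GeomCore N) (c : Coordinate N)
    (hsucc : ∀ r : ℕ, r + 1 ≤ riemannBound c.isGen → ∃ C C' : ℝ,
      StratumBound c.isGen (inftyPlace N) c.valT G.height (r + 1) C C') :
    ∀ B : ℝ, {x : JRat N | G.height (x : JZero N) ≤ B}.Finite := by
  refine north_of_geomCore G c fun r hr => ?_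
  cases r with
  | zero =>
    refine ⟨0, 0, fun l hl _ _ P hP => ?_⟩
    rw [Multiset.card_eq_zero.mp hl] at hP
    exact absurd hP (Multiset.notMem_zero P)
  | succ r => exact hsucc r hr

end Fermat.Agent.MW.NorthAsm2
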