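/-
helper10, programme MW (S17), brick NC-B, FINAL INTEGRATION:
**the Northcott property of the height of the concrete geometric package of `J_0(N)`.**

For a coordinate `c : NCA61.Final.Coordinate N` (a Galois-fixed generator of the function field of
`X_0(N)` over `Qbar` whose only pole is the cusp `∞`), the model curve `modelX0 c` (helper53) and
a concrete geometric package `J : JData N (modelX0 c)` (helper73: the Jacobian, a symmetric
effective divisor `D₀` with affine complement `U`, a family `s` generating `O(2 D₀)`):

  `north c J : ∀ B, {x : J_0(N)(ℚ) | h_J(x) ≤ B}` is finite.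

Assembly of
* `HtBounded.of_generates_sq` (helper10, `NorthB10/Inst.lean`): the height `h_s` dominates the
  values of the regular functions on the affine piece `U`;
* `NorthB25.exists_stratumBound_jdata` (helper25, on top of helper32's `exists_stratumBound_succ`,
  helper15's Abel-Jacobi strata and helper34's / helper53's value dictionaries): the stratum bounds;
* `NorthAsm2.north_of_geomCore` (helper2, on top of helper61's NC-A and helper85's reduced
  divisors): NORTH from the stratum bounds.
-/
import Mathlib
import Fermat.Agent.MW.NorthAsm2e
import Fermat.Agent.MW.NorthB25.StratumJ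
import Fermat.Agent.MW.Bridge53.ModelX0
import Fermat.Agent.MW.Bridge34.PointPair
import Fermat.Agent.MW.NorthB10.Inst

set_option autoImplicit false
set_option linter.unusedSectionVars false
set_option linter.style.haveILetI false

open CategoryTheory AlgebraicGeometry AlgebraicCurve ModularCurve NeronModelInfra
  GoodReductionJacobian

namespace Fermat.Agent.MW.NorthFinal10

open Fermat.Agent.X0 Fermat.Agent.X0.FF Fermat.Agent.MW.NCA61.InfPlace Fermat.Agent.MW.NCA61.Final
  Fermat.Agent.MW.Bridge53.ModelX0 Fermat.Agent.MW.Bridge34 Fermat.Agent.MW.NorthB10
  Fermat.Agent.MW.NorthAsm2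

variable {N : ℕ} [NeZero N] (c : Coordinate N)

/-- The coordinate of `modelX0 c` has a unique pole (the cusp `∞`). -/
theorem uniquePole_modelX0 : Bridge15.UniquePole (modelX0 c) :=
  Bridge15.uniquePole_of_ord (modelX0 c) (inftyPlace N) (pole_iff c)

/-- The place of the base point of `modelX0 c` is the cusp `∞`. -/
theorem placeBase_modelX0 : Bridge15.placeBase (modelX0 c) = inftyPlace N := by
  rw [placeBase_eq, place_base]

/-- `c.valT v` is the value of the coordinate at the place `v ≠ ∞`. -/
theorem isVal_valT (v : Place Kbar (FF N)) (hv : v ≠ inftyPlace N) :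
    IsVal v (modelX0 c).alg.t (c.valT v) :=
  isVal_iff_ord.mpr (Or.inr (isValueFun_valT c v hv))

/-- The affine piece `J.U` of the Jacobian is height-bounded for the family `J.s`. -/
theorem htBounded (J : JData N (modelX0 c)) : HtBounded J.D'.toBase J.s J.U :=
  HtBounded.of_generates_sq J.D'.toBase J.effective J.generates 0 J.s_zero J.U J.support_eq
    J.isAffineOpen_U

/-- **NORTH**: the Northcott property of the height of the concrete package of `J_0(N)`. -/
theorem north (N : ℕ) [NeZero N] (c : Coordinate N) (J : JData N (modelX0 c)) :
    ∀ B : ℝ, {x : MW73.JRat N | J.toGeomCore.height (x : JZero N) ≤ B}.Finite :=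
  north_of_geomCore J.toGeomCore c fun r _ =>
    NorthB25.exists_stratumBound_jdata J (htBounded c J) c.isGen (uniquePole_modelX0 c)
      (inftyPlace N) (placeBase_modelX0 c) c.valT (isVal_valT c) r

end Fermat.Agent.MW.NorthFinal10
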