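/-
Fermat/Agent/MW/RepIso5.lean  (helper5)

Programme MW (S17) / AV: **two schemes representing the same cut of the rigidified relative
Picard functor are isomorphic over the base**, hence share every isomorphism-invariant property of
the structure morphism; in particular the relative dimension.

* `hom h h' : D.P ⟶ D'.P` the classifying map of the Poincaré bundle of `h`, over the base;
* `hom_comp_hom : hom h h' ≫ hom h' h = 𝟙 _`;
* `iso h h' : D.P ≅ D'.P` with `iso_hom_toBase`, `iso_inv_toBase`;
* `smoothOfRelativeDimension_of_represents h h' n` : transport of `SmoothOfRelativeDimension n`;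
* `smoothOfRelativeDimension_genus` : EVERY scheme representing THE cut `cut41 (dict41 cc)` of the
  S25 stack is smooth of relative dimension `Genus41.genus cc` (from `DimJ76.dimJ`).
-/
import Mathlib
import Fermat.Prelude.Def_AlgebraicGeometry_RepresentsRelSubPic
import Fermat.Agent.AV.CCube32.Classify
import Fermat.Agent.AV.DimJ76.Assembly
import Fermat.Agent.AV.PicBridge84.Jacobian

set_option autoImplicit false
set_option linter.style.haveILetI false

noncomputable section

universe u

open CategoryTheory CategoryTheory.Limits AlgebraicGeometry AlgebraicGeometry.RelPicard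
  NeronModelInfra GoodReductionJacobian

namespace Fermat.Agent.MW.RepIso5

open Fermat.Agent.AV.CCube32

section General

variable {R : Type u} [CommRing R] {C : Scheme.{u}} {c : C ⟶ Spec (CommRingCat.of R)}
  {ε : SchemeHomOver (𝟙 (Spec (CommRingCat.of R))) c} {P : SubPicCondition c ε}
  {D D' : RelativePic0Designation R c}

/-- The comparison morphism between two representing objects: the classifying map of the
Poincaré bundle of the first one. -/
def homOver (h : RepresentsRelSubPic c ε P D) (h' : RepresentsRelSubPic c ε P D') :
    SchemeHomOver D.toBase D'.toBase :=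
  h'.classify D.toBase h.poincare h.poincare_mem

/-- The identity of a representing object, as a morphism over the base. -/
def idOver (D : RelativePic0Designation R c) : SchemeHomOver D.toBase D.toBase :=
  ⟨𝟙 D.P, Category.id_comp _⟩

theorem postComp_homOver (h : RepresentsRelSubPic c ε P D) (h' : RepresentsRelSubPic c ε P D') :
    postComp (homOver h' h) (homOver h h') = idOver D := by
  apply h.ext_of_iso
  -- pull back the Poincaré bundle of `h` along the composite, in two steps
  have e1 := pullbackAlongCompIso h.poincare (homOver h' h) (homOver h h')
  have e2 : Nonempty ((h.poincare.pullbackAlong (homOver h' h)).L ≅ h'.poincare.L) :=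
    h.classify_spec D'.toBase h'.poincare h'.poincare_mem
  have e3 : Nonempty ((h'.poincare.pullbackAlong (homOver h h')).L ≅ h.poincare.L) :=
    h'.classify_spec D.toBase h.poincare h.poincare_mem
  have e4 := pullbackAlongIdIso h.poincare
  exact ⟨e1.symm ≪≫
    (Scheme.Modules.pullback (baseChangeSnd c (homOver h h'))).mapIso e2.some ≪≫
    e3.some ≪≫ e4.symm⟩

theorem homOver_comp (h : RepresentsRelSubPic c ε P D) (h' : RepresentsRelSubPic c ε P D') :
    (homOver h h').1 ≫ (homOver h' h).1 = 𝟙 D.P :=
  congrArg Subtype.val (postComp_homOver h h')

/-- **Two representing objects of the same cut are isomorphic.** -/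
def iso (h : RepresentsRelSubPic c ε P D) (h' : RepresentsRelSubPic c ε P D') : D.P ≅ D'.P where
  hom := (homOver h h').1
  inv := (homOver h' h).1
  hom_inv_id := homOver_comp h h'
  inv_hom_id := homOver_comp h' h

@[simp]
theorem iso_hom_toBase (h : RepresentsRelSubPic c ε P D) (h' : RepresentsRelSubPic c ε P D') :
    (iso h h').hom ≫ D'.toBase = D.toBase :=
  (homOver h h').2

@[simp]
theorem iso_inv_toBase (h : RepresentsRelSubPic c ε P D) (h' : RepresentsRelSubPic c ε P D') :
    (iso h h').inv ≫ D.toBase = D'.toBase :=
  (homOver h' h).2

/-- Any isomorphism-invariant property of the structure morphism is shared by all representing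
objects. -/
theorem property_of_represents (W : MorphismProperty Scheme.{u}) [W.RespectsIso]
    (h : RepresentsRelSubPic c ε P D) (h' : RepresentsRelSubPic c ε P D') (hD : W D.toBase) :
    W D'.toBase := by
  rw [← iso_inv_toBase h h']
  exact (W.cancel_left_of_respectsIso (iso h h').inv D.toBase).2 hD

/-- The relative dimension is shared by all representing objects. -/
theorem smoothOfRelativeDimension_of_represents (h : RepresentsRelSubPic c ε P D)
    (h' : RepresentsRelSubPic c ε P D') (n : ℕ) [hD : SmoothOfRelativeDimension n D.toBase] :
    SmoothOfRelativeDimension n D'.toBase :=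
  property_of_represents (@SmoothOfRelativeDimension n) h h' hD

end General

section Jacobian

open Fermat.Agent.Jac Fermat.Agent.Jac.FinalWiring41

variable {k : Type u} [Field k] [IsAlgClosed k] {C : Scheme.{u}}
  {c : C ⟶ Spec (CommRingCat.of k)} {ε : SchemeHomOver (𝟙 (Spec (CommRingCat.of k))) c}
  [IsProper c] [SmoothOfRelativeDimension 1 c] [IsIntegral C]

/-- **Every scheme representing THE cut of the S25 stack is smooth of relative dimension the
genus.** -/
theorem smoothOfRelativeDimension_genus (cc : CurveCharts c ε) {D' : RelativePic0Designation k c}
    (h : RepresentsRelSubPic c ε (cut41 (dict41 cc)) D') :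
    SmoothOfRelativeDimension (Genus41.genus cc) D'.toBase := by
  obtain ⟨D, ⟨h0⟩, -, -, -, hdim⟩ := Fermat.Agent.AV.DimJ76.dimJ k c ε cc
  have h1 := Fermat.Agent.AV.PicBridge84.Jacobian.representsCut41_of_algEquivZero cc h0
  exact smoothOfRelativeDimension_of_represents h1 h (Genus41.genus cc)

end Jacobian

end Fermat.Agent.MW.RepIso5

end
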