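/-
helper10 — programme MW (S17), brick ABSH-2, part (R): the root bound.  If `a` is a root of a
nonzero polynomial `p` over a field with admissible absolute values then
`H(a) ≤ (deg p) ^ totalWeight * H(coefficients of p)` (projective height of the coefficient vector),
and the absolute version over `Qbar`: `h(a) ≤ h(coeffs) + log (deg p)`.
-/
import Fermat.Agent.MW.AbsHeightOne10

set_option autoImplicit false

open Height Polynomial

namespace Fermat.Agent.MW.RootBound10

section Local

variable {K : Type*} [Field K]

/-- the root relation, with the top term isolated. -/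
theorem leadingCoeff_mul_pow_eq (p : K[X]) (a : K) (ha : p.eval a = 0) :
    p.leadingCoeff * a ^ p.natDegree = -∑ i ∈ Finset.range p.natDegree, p.coeff i * a ^ i := by
  have h := Polynomial.eval_eq_sum_range (p := p) a
  rw [ha, Finset.sum_range_succ] at h
  rw [Polynomial.leadingCoeff]
  linear_combination -h

theorem natDegree_pos_of_root (p : K[X]) (hp : p ≠ 0) (a : K) (ha : p.eval a = 0) :
    0 < p.natDegree := by
  by_contra h
  have h0 : p.natDegree = 0 := by omega
  rw [Polynomial.eq_C_of_natDegree_eq_zero h0, eval_C] at ha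
  apply hp
  rw [Polynomial.eq_C_of_natDegree_eq_zero h0, ha, C_0]

/-- Local root bound for an arbitrary absolute value. -/
theorem local_arch (v : AbsoluteValue K ℝ) (p : K[X]) (hp : p ≠ 0) (a : K) (ha : p.eval a = 0) :
    max (v a) 1 * v p.leadingCoeff ≤
      p.natDegree * ⨆ i : Fin (p.natDegree + 1), v (p.coeff i) := by
  set n := p.natDegree with hn
  set M := ⨆ i : Fin (n + 1), v (p.coeff i) with hM
  have hn0 : 0 < n := natDegree_pos_of_root p hp a ha
  have hle : ∀ i : ℕ, i < n + 1 → v (p.coeff i) ≤ M := fun i hi =>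
    Finite.le_ciSup_of_le (⟨i, hi⟩ : Fin (n + 1)) le_rfl
  have hM0 : 0 ≤ M := le_trans (v.nonneg _) (hle 0 (by omega))
  have hn1 : (1 : ℝ) ≤ n := by exact_mod_cast hn0
  rcases le_or_gt (v a) 1 with h1 | h1
  · rw [max_eq_right h1, one_mul]
    calc v p.leadingCoeff ≤ M := hle n (by omega)
      _ = 1 * M := (one_mul _).symm
      _ ≤ n * M := mul_le_mul_of_nonneg_right hn1 hM0
  · rw [max_eq_left h1.le]
    have hva : 0 < v a := lt_trans one_pos h1
    have hrel := congrArg v (leadingCoeff_mul_pow_eq p a ha)
    rw [map_mul, map_pow, map_neg_eq_map] at hrel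
    have hsum : v (∑ i ∈ Finset.range n, p.coeff i * a ^ i) ≤ n * (M * v a ^ (n - 1)) := by
      refine (v.sum_le _ _).trans ?_
      have : ∀ i ∈ Finset.range n, v (p.coeff i * a ^ i) ≤ M * v a ^ (n - 1) := by
        intro i hi
        rw [Finset.mem_range] at hi
        rw [map_mul, map_pow]
        refine mul_le_mul (hle i (by omega)) ?_ (by positivity) hM0
        exact pow_le_pow_right₀ h1.le (by omega)
      refine (Finset.sum_le_sum this).trans ?_
      simp
    have hpow : v a ^ n = v a * v a ^ (n - 1) := by
      rw [← pow_succ']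
      congr 1
      omega
    rw [hpow] at hrel
    have hpos : 0 < v a ^ (n - 1) := by positivity
    have : v a * v p.leadingCoeff * v a ^ (n - 1) ≤ n * M * v a ^ (n - 1) := by
      calc _ = v p.leadingCoeff * (v a * v a ^ (n - 1)) := by ring
        _ ≤ n * (M * v a ^ (n - 1)) := hrel ▸ hsum
        _ = _ := by ring
    exact le_of_mul_le_mul_right this hpos

/-- Local root bound for a nonarchimedean absolute value. -/
theorem local_nonarch {v : AbsoluteValue K ℝ} (hv : IsNonarchimedean v) (p : K[X]) (hp : p ≠ 0)
    (a : K) (ha : p.eval a = 0) :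
    max (v a) 1 * v p.leadingCoeff ≤ ⨆ i : Fin (p.natDegree + 1), v (p.coeff i) := by
  set n := p.natDegree with hn
  set M := ⨆ i : Fin (n + 1), v (p.coeff i) with hM
  have hn0 : 0 < n := natDegree_pos_of_root p hp a ha
  have hle : ∀ i : ℕ, i < n + 1 → v (p.coeff i) ≤ M := fun i hi =>
    Finite.le_ciSup_of_le (⟨i, hi⟩ : Fin (n + 1)) le_rfl
  have hM0 : 0 ≤ M := le_trans (v.nonneg _) (hle 0 (by omega))
  rcases le_or_gt (v a) 1 with h1 | h1
  · rw [max_eq_right h1, one_mul]
    exact hle n (by omega)
  · rw [max_eq_left h1.le]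
    have hva : 0 < v a := lt_trans one_pos h1
    have hrel := congrArg v (leadingCoeff_mul_pow_eq p a ha)
    rw [map_mul, map_pow, map_neg_eq_map] at hrel
    have hne : (Finset.range n).Nonempty := Finset.nonempty_range_iff.mpr hn0.ne'
    obtain ⟨i, hi, hsum⟩ := hv.finset_image_add_of_nonempty (fun i => p.coeff i * a ^ i) hne
    rw [Finset.mem_range] at hi
    have hterm : v (p.coeff i * a ^ i) ≤ M * v a ^ (n - 1) := by
      rw [map_mul, map_pow]
      refine mul_le_mul (hle i (by omega)) ?_ (by positivity) hM0
      exact pow_le_pow_right₀ h1.le (by omega)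
    have hpow : v a ^ n = v a * v a ^ (n - 1) := by
      rw [← pow_succ']
      congr 1
      omega
    rw [hpow] at hrel
    have hpos : 0 < v a ^ (n - 1) := by positivity
    have : v a * v p.leadingCoeff * v a ^ (n - 1) ≤ M * v a ^ (n - 1) := by
      calc _ = v p.leadingCoeff * (v a * v a ^ (n - 1)) := by ring
        _ ≤ M * v a ^ (n - 1) := hrel ▸ (hsum.trans hterm)
    exact le_of_mul_le_mul_right this hpos

end Local

section Global

open AdmissibleAbsValues Function

variable {K : Type*} [Field K] [AdmissibleAbsValues K]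

/-- The coefficient vector of a polynomial. -/
def coeffVec (p : K[X]) (n : ℕ) : Fin (n + 1) → K := fun i => p.coeff i

omit [AdmissibleAbsValues K] in
theorem coeffVec_ne_zero (p : K[X]) (hp : p ≠ 0) : coeffVec p p.natDegree ≠ 0 := by
  intro h
  have := congrFun h (Fin.last _)
  simp only [coeffVec, Fin.val_last, Pi.zero_apply] at this
  exact hp (leadingCoeff_eq_zero.mp this)

/-- **Root bound** (multiplicative form) over a field with admissible absolute values. -/
theorem mulHeight₁_le_of_eval_eq_zero (p : K[X]) (hp : p ≠ 0) (a : K) (ha : p.eval a = 0) :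
    mulHeight₁ a ≤ (p.natDegree : ℝ) ^ totalWeight K * mulHeight (coeffVec p p.natDegree) := by
  have hc := coeffVec_ne_zero p hp
  have hlc : p.leadingCoeff ≠ 0 := leadingCoeff_ne_zero.mpr hp
  have hpf := product_formula hlc
  have h1 : (fun v : nonarchAbsVal (K := K) ↦ max (v.val a) 1).HasFiniteMulSupport := by
    fun_prop (disch := assumption)
  have h2 : (fun v : nonarchAbsVal (K := K) ↦ v.val p.leadingCoeff).HasFiniteMulSupport :=
    hasFiniteMulSupport hlc
  have h3 : (fun v : nonarchAbsVal (K := K) ↦ ⨆ i, v.val (coeffVec p p.natDegree i)).HasFiniteMulSupport := by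
    fun_prop (disch := assumption)
  have h12 : (fun v : nonarchAbsVal (K := K) ↦
      max (v.val a) 1 * v.val p.leadingCoeff).HasFiniteMulSupport := h1.mul h2
  rw [mulHeight_eq hc, mulHeight₁_eq]
  calc (archAbsVal.map fun v ↦ max (v a) 1).prod * ∏ᶠ v : nonarchAbsVal, max (v.val a) 1
      = ((archAbsVal.map fun v ↦ max (v a) 1).prod * ∏ᶠ v : nonarchAbsVal, max (v.val a) 1) *
          ((archAbsVal.map (· p.leadingCoeff)).prod *
            ∏ᶠ v : nonarchAbsVal, v.val p.leadingCoeff) := by rw [hpf, mul_one]
    _ = (archAbsVal.map fun v ↦ max (v a) 1 * v p.leadingCoeff).prod *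
          ∏ᶠ v : nonarchAbsVal, max (v.val a) 1 * v.val p.leadingCoeff := by
        rw [Multiset.prod_map_mul, finprod_mul_distrib h1 h2]
        ring
    _ ≤ (archAbsVal.map fun v ↦ (p.natDegree : ℝ) * ⨆ i, v (coeffVec p p.natDegree i)).prod *
          ∏ᶠ v : nonarchAbsVal, ⨆ i, v.val (coeffVec p p.natDegree i) := by
        gcongr
        · exact finprod_nonneg fun v ↦ by positivity
        · exact Multiset.prod_map_nonneg fun v _ ↦
            mul_nonneg (Nat.cast_nonneg _) (Real.iSup_nonneg_of_nonnegHomClass ..)
        · exact Multiset.prod_map_le_prod_map₀ _ _ (fun v _ ↦ by positivity)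
            fun v _ ↦ local_arch v p hp a ha
        · exact finprod_le_finprod h12 (fun v ↦ by positivity) h3
            fun v ↦ local_nonarch (isNonarchimedean _ v.prop) p hp a ha
    _ = (p.natDegree : ℝ) ^ totalWeight K *
          ((archAbsVal.map fun v ↦ ⨆ i, v (coeffVec p p.natDegree i)).prod *
            ∏ᶠ v : nonarchAbsVal, ⨆ i, v.val (coeffVec p p.natDegree i)) := by
        rw [Multiset.prod_map_mul, Multiset.map_const', Multiset.prod_replicate, totalWeight]
        ring

/-- **Root bound** (logarithmic form). -/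
theorem logHeight₁_le_of_eval_eq_zero (p : K[X]) (hp : p ≠ 0) (a : K) (ha : p.eval a = 0) :
    logHeight₁ a ≤ logHeight (coeffVec p p.natDegree) + totalWeight K * Real.log p.natDegree := by
  have hn0 : 0 < p.natDegree := natDegree_pos_of_root p hp a ha
  have h := mulHeight₁_le_of_eval_eq_zero p hp a ha
  rw [logHeight₁_eq_log_mulHeight₁, logHeight_eq_log_mulHeight]
  have hpos : (0 : ℝ) < (p.natDegree : ℝ) ^ totalWeight K := by positivity
  calc Real.log (mulHeight₁ a) ≤ Real.log ((p.natDegree : ℝ) ^ totalWeight K *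
        mulHeight (coeffVec p p.natDegree)) := Real.log_le_log (mulHeight₁_pos a) h
    _ = _ := by
      rw [Real.log_mul hpos.ne' (mulHeight_ne_zero _), Real.log_pow]
      ring

end Global

section Absolute

open Fermat.Agent.MW.AbsHeightDef10 Fermat.Agent.MW.AbsHeightOne10 NumberField Module

variable {E : Type*} [Field E] [CharZero E] [Algebra.IsAlgebraic ℚ E]

/-- **Root bound for the absolute height**: a root `a` of a nonzero polynomial `p` over `E`
satisfies `h(a) ≤ h(coefficient vector of p) + log (deg p)`. -/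
theorem absLogHeightOne_le_of_eval_eq_zero (p : E[X]) (hp : p ≠ 0) (a : E) (ha : p.eval a = 0) :
    absLogHeightOne a ≤ absLogHeight (coeffVec p p.natDegree) + Real.log p.natDegree := by
  obtain ⟨K, hK, hS⟩ := exists_finiteDimensional_of_finite
    (insert a (Set.range (coeffVec p p.natDegree))) ((Set.finite_range _).insert a)
  have := numberField_of_finiteDimensional K
  have haK : a ∈ K := hS (Set.mem_insert _ _)
  have hcK : ∀ i, p.coeff i ∈ K := by
    intro i
    by_cases hi : i < p.natDegree + 1
    · exact hS (Set.mem_insert_of_mem _ ⟨⟨i, hi⟩, rfl⟩)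
    · rw [coeff_eq_zero_of_natDegree_lt (by omega)]
      exact K.zero_mem
  have hlift : p ∈ Polynomial.lifts (algebraMap K E) := by
    rw [Polynomial.lifts_iff_coeff_lifts]
    intro i
    exact ⟨⟨p.coeff i, hcK i⟩, rfl⟩
  obtain ⟨q, hq⟩ := Polynomial.mem_lifts p |>.mp hlift
  have hq0 : q ≠ 0 := by
    rintro rfl
    exact hp (by rw [← hq, Polynomial.map_zero])
  have hdeg : q.natDegree = p.natDegree := by
    rw [← hq, natDegree_map]
  have hroot : q.eval (⟨a, haK⟩ : K) = 0 := by
    apply (algebraMap K E).injective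
    rw [map_zero, ← Polynomial.eval_map_apply, hq]
    exact ha
  have hcoeff : ∀ i, algebraMap K E (q.coeff i) = p.coeff i := fun i => by
    rw [← hq, coeff_map]
  have h := logHeight₁_le_of_eval_eq_zero q hq0 _ hroot
  rw [hdeg, totalWeight_eq_finrank] at h
  have hd : (0 : ℝ) < finrank ℚ K := by exact_mod_cast finrank_pos
  have e1 : absLogHeight (coeffVec p p.natDegree) =
      logHeight (coeffVec q p.natDegree) / finrank ℚ K := by
    rw [← absLogHeight_map (algebraMap K E) (coeffVec q p.natDegree)]
    congr 1
    funext i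
    exact (hcoeff i).symm
  rw [absLogHeightOne_eq_of_mem K a haK, e1, div_le_iff₀ hd, add_mul,
    div_mul_cancel₀ _ hd.ne']
  linarith

end Absolute

end Fermat.Agent.MW.RootBound10
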