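/-
helper73, programme MW (S17), brick FIN-4: **S17 from weak Mordell-Weil for `2` alone.**
Everything else (the height on `J_0(N)(Qbar)`, its quasi-quadraticity from the theorems of the
square and of the cube, and Northcott) is unconditional:
  * `NCA61.Final.nonempty_coordinate` : a Galois-fixed coordinate `t` with its only pole at `∞`;
  * `Bridge53.ModelX0.modelX0 c`      : the model curve of `X_0(N)` over `Qbar` with `x := t`;
  * `Inst96.squareCubeInput`          : square / cube (Picard form) on its Jacobian;
  * `NorthB25.north_jdata`            : Northcott for the height of the concrete package;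
  * `MW.s17_of_jdata`                 : the descent.
-/
import Fermat.Agent.MW.JDataInst73
import Fermat.Agent.MW.Bridge53.ModelX0
import Fermat.Agent.MW.Inst96.SquareCubeInput
import Fermat.Agent.MW.NorthB25.NorthJ

set_option autoImplicit false
open ModularCurve AlgebraicCurve

namespace Fermat.Agent.MW

/-- **S17 from weak Mordell-Weil for `2`.** -/
theorem s17_of_hweak (N : ℕ) [NeZero N]
    (hweak : (nsmulAddMonoidHom (α := Fermat.Agent.MW73.JRat N) 2).range.FiniteIndex) :
    AddGroup.FG (Fermat.Agent.MW73.JRat N) := by
  obtain ⟨c⟩ := Fermat.Agent.MW.NCA61.Final.nonempty_coordinate N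
  exact s17_of_jdata N (Fermat.Agent.MW.Bridge53.ModelX0.modelX0 c)
    (Fermat.Agent.MW.Inst96.squareCubeInput N _)
    (fun J B => Fermat.Agent.MW.NorthB25.north_jdata c J B)
    hweak

end Fermat.Agent.MW
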