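/-
Programme MW (S17, Mordell–Weil for `J₀(N)`), brick (W), abstract form (helper65).

**Abstract weak Mordell–Weil theorem.**  Let `Γ = Gal(ℚ̄/ℚ)` act on an abelian group `M`
(think `M = J(ℚ̄)`), let `p` be a prime and `S ∋ p` a finite set of primes.  Assume
* `M[p]` is finite;
* every `y : M` is fixed by `Gal(ℚ̄/L)` for some number field `L` (open stabilisers);
* for `q ∉ S` every inertia group at `q` fixes every `y` such that `p • y` is `Γ`-fixed
  (the `p`-division points of rational points are unramified outside `S`; this contains `M[p]`);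
* a primitive `p`-th root of unity `ζ` is fixed by every inertia group at `q ∉ S`;
* every `Γ`-fixed `x` is divisible by `p` in `M`.
Then `p · M^Γ` has finite index in `M^Γ`.

The proof is the classical Kummer-cocycle argument, with the global finiteness input
`PT.GLOB.H1Finite15.exists_field_forall_hom` (= finiteness of `Hom(G_{F₀,S}, 𝔽_p)`, i.e. Hermite–
Minkowski / Kummer theory + finiteness of `S`-units and class groups, landed for S55).  No cohomology
groups are used.
-/
import Mathlib
import Fermat.Agent.PT.GLOB.H1FiniteCoh15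

set_option autoImplicit false
set_option linter.style.haveILetI false
set_option linter.unusedSectionVars false

namespace Fermat.Agent.MW.WeakMWAbs65

local notation "Qb" => AlgebraicClosure ℚ
local notation "Γ" => (AlgebraicClosure ℚ ≃ₐ[ℚ] AlgebraicClosure ℚ)

local instance isAlgClosureQb65 : IsAlgClosure ℚ Qb := ⟨inferInstance, inferInstance⟩
local instance normalQb65 : Normal ℚ Qb := IsAlgClosure.normal ℚ Qb
local instance isGaloisQb65 : IsGalois ℚ Qb := IsAlgClosure.isGalois ℚ Qb

/-! ### Subgroups of `Γ` containing an open subgroup -/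

/-- A subgroup `H` of `Γ` containing `Gal(ℚ̄/L)` for a number field `L` is the fixing subgroup of
its fixed field, and that fixed field is a number field. -/
theorem fixedField_of_le (H : Subgroup Γ) (L : IntermediateField ℚ Qb) [FiniteDimensional ℚ L]
    (hL : L.fixingSubgroup ≤ H) :
    FiniteDimensional ℚ (IntermediateField.fixedField H) ∧
      (IntermediateField.fixedField H).fixingSubgroup = H := by
  have hopen : IsOpen (H : Set Γ) :=
    Subgroup.isOpen_mono hL (IntermediateField.fixingSubgroup_isOpen L)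
  have hclosed : IsClosed (H : Set Γ) := Subgroup.isClosed_of_isOpen H hopen
  have hle : IntermediateField.fixedField H ≤ L := by
    have h1 : IntermediateField.fixedField H ≤ IntermediateField.fixedField L.fixingSubgroup := by
      intro x hx
      rw [IntermediateField.mem_fixedField_iff] at hx ⊢
      exact fun σ hσ => hx σ (hL hσ)
    rwa [InfiniteGalois.fixedField_fixingSubgroup] at h1
  refine ⟨?_, ?_⟩
  · exact FiniteDimensional.of_injective (IntermediateField.inclusion hle).toLinearMap
      (IntermediateField.inclusion_injective hle)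
  · exact InfiniteGalois.fixingSubgroup_fixedField ⟨H, hclosed⟩

/-- The fixed field of a subgroup containing an open subgroup and all inertia groups outside `S`
is unramified outside `S`. -/
theorem isUnramifiedOutside_fixedField (S : Finset Nat.Primes) (H : Subgroup Γ)
    (L : IntermediateField ℚ Qb) [FiniteDimensional ℚ L] (hL : L.fixingSubgroup ≤ H)
    (hin : ∀ q : Nat.Primes, q ∉ S → ∀ A : ValuationSubring Qb, A.LiesOverPrime (q : ℕ) →
      A.inertiaSubgroupIn ℚ ≤ H) :
    (IntermediateField.fixedField H).IsUnramifiedOutside S := by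
  obtain ⟨hfin, hfix⟩ := fixedField_of_le H L hL
  refine ⟨hfin, fun q hq A hA => ?_⟩
  rw [hfix]
  exact hin q hq A hA

/-! ### The abstract weak Mordell–Weil theorem -/

section Main

variable {M : Type*} [AddCommGroup M] [DistribMulAction Γ M]
variable (p : ℕ) [hp : Fact p.Prime] (S : Finset Nat.Primes)

/-- The hypotheses of the abstract weak Mordell–Weil theorem (see the file header). -/
structure Hyp (M : Type*) [AddCommGroup M] [DistribMulAction Γ M] (p : ℕ)
    (S : Finset Nat.Primes) : Prop where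
  /-- `M[p]` is finite. -/
  finite_torsion : {t : M | p • t = 0}.Finite
  /-- open stabilisers. -/
  level : ∀ y : M, ∃ L : IntermediateField ℚ Qb, FiniteDimensional ℚ L ∧
    ∀ σ : Γ, σ ∈ L.fixingSubgroup → σ • y = y
  /-- `p`-division points of rational points are unramified outside `S`. -/
  unram : ∀ q : Nat.Primes, q ∉ S → ∀ A : ValuationSubring Qb, A.LiesOverPrime (q : ℕ) →
    ∀ τ ∈ A.inertiaSubgroupIn ℚ, ∀ y : M, (∀ σ : Γ, σ • (p • y) = p • y) → τ • y = y
  /-- `μ_p` is unramified outside `S`. -/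
  zeta : ∃ ζ : Qb, IsPrimitiveRoot ζ p ∧
    ∀ q : Nat.Primes, q ∉ S → ∀ A : ValuationSubring Qb, A.LiesOverPrime (q : ℕ) →
      ∀ τ ∈ A.inertiaSubgroupIn ℚ, τ ζ = ζ
  /-- rational points are divisible by `p` in `M`. -/
  div : ∀ x : M, (∀ σ : Γ, σ • x = x) → ∃ y : M, p • y = x

variable {p S}

theorem smul_nsmul (σ : Γ) (m : ℕ) (x : M) : σ • (m • x) = m • (σ • x) :=
  map_nsmul (DistribSMul.toAddMonoidHom M σ) m x

/-- finitely many elements are simultaneously fixed by an open subgroup. -/
theorem exists_level_finset (h : Hyp M p S) (T : Finset M) :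
    ∃ L : IntermediateField ℚ Qb, FiniteDimensional ℚ L ∧
      ∀ σ : Γ, σ ∈ L.fixingSubgroup → ∀ t ∈ T, σ • t = t := by
  classical
  induction T using Finset.induction_on with
  | empty => exact ⟨⊥, inferInstance, fun _ _ t ht => absurd ht (Finset.notMem_empty t)⟩
  | insert a T _ ih =>
    obtain ⟨L, hLfin, hL⟩ := ih
    obtain ⟨L', hL'fin, hL'⟩ := h.level a
    haveI := hLfin
    haveI := hL'fin
    refine ⟨L ⊔ L', IntermediateField.finiteDimensional_sup L L', fun σ hσ t ht => ?_⟩
    rw [IntermediateField.fixingSubgroup_sup] at hσ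
    rcases Finset.mem_insert.1 ht with rfl | ht
    · exact hL' σ hσ.2
    · exact hL σ hσ.1 t ht

/-- the subgroup of `Γ` fixing `M[p]` pointwise and `ζ`. -/
noncomputable def torsionFixer (M : Type*) [AddCommGroup M] [DistribMulAction Γ M] (p : ℕ) (ζ : Qb) :
    Subgroup Γ where
  carrier := {σ | (∀ t : M, p • t = 0 → σ • t = t) ∧ σ ζ = ζ}
  one_mem' := ⟨fun t _ => one_smul _ t, rfl⟩
  mul_mem' := by
    rintro a b ⟨ha, ha'⟩ ⟨hb, hb'⟩
    refine ⟨fun t ht => ?_, ?_⟩
    · rw [mul_smul, hb t ht, ha t ht]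
    · rw [AlgEquiv.mul_apply, hb', ha']
  inv_mem' := by
    rintro a ⟨ha, ha'⟩
    refine ⟨fun t ht => ?_, ?_⟩
    · conv_lhs => rw [← ha t ht]
      rw [inv_smul_smul]
    · conv_lhs => rw [← ha']
      exact a.symm_apply_apply ζ

/-- the `p`-torsion subgroup of `M`. -/
def tors (M : Type*) [AddCommGroup M] (p : ℕ) : AddSubgroup M :=
  (nsmulAddMonoidHom (α := M) p).ker

theorem mem_tors {M : Type*} [AddCommGroup M] {p : ℕ} {t : M} : t ∈ tors M p ↔ p • t = 0 := by
  show t ∈ (nsmulAddMonoidHom (α := M) p).ker ↔ _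
  rw [AddMonoidHom.mem_ker]
  rfl

theorem tors_nsmul {M : Type*} [AddCommGroup M] {p : ℕ} (t : tors M p) : p • t = 0 :=
  Subtype.ext (mem_tors.1 t.2)

/-- `M[p]` as an `𝔽_p`-vector space. -/
noncomputable instance torsModule (M : Type*) [AddCommGroup M] (p : ℕ) :
    Module (ZMod p) (tors M p) :=
  AddCommGroup.zmodModule tors_nsmul

/-- the stabiliser of `y`. -/
noncomputable def stab (y : M) : Subgroup Γ := MulAction.stabilizer Γ y

/-- **Key step**: a single number field `F₁` over which all `p`-division points of all rational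
points are defined. -/
theorem exists_field_forall_division (h : Hyp M p S) :
    ∃ F₁ : IntermediateField ℚ Qb, FiniteDimensional ℚ F₁ ∧
      ∀ y : M, (∀ σ : Γ, σ • (p • y) = p • y) → ∀ s ∈ F₁.fixingSubgroup, s • y = y := by
  classical
  obtain ⟨ζ, hζ, hζunr⟩ := h.zeta
  -- the field `F₀` trivialising `M[p]` and `μ_p`
  obtain ⟨L₀, hL₀fin, hL₀⟩ := exists_level_finset h h.finite_torsion.toFinset
  haveI := hL₀fin
  haveI : FiniteDimensional ℚ (IntermediateField.adjoin ℚ {ζ}) :=
    IntermediateField.adjoin.finiteDimensional (Algebra.IsIntegral.isIntegral ζ)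
  let L₁ : IntermediateField ℚ Qb := L₀ ⊔ IntermediateField.adjoin ℚ {ζ}
  haveI : FiniteDimensional ℚ L₁ := IntermediateField.finiteDimensional_sup _ _
  let N₀ : Subgroup Γ := torsionFixer M p ζ
  have hL₁N₀ : L₁.fixingSubgroup ≤ N₀ := by
    intro σ hσ
    rw [IntermediateField.fixingSubgroup_sup] at hσ
    refine ⟨fun t ht => hL₀ σ hσ.1 t ((Set.Finite.mem_toFinset _).2 ht), ?_⟩
    have hσ2 : σ ∈ (IntermediateField.adjoin ℚ {ζ}).fixingSubgroup := hσ.2
    rw [IntermediateField.mem_fixingSubgroup_iff] at hσ2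
    exact hσ2 ζ (IntermediateField.mem_adjoin_simple_self ℚ ζ)
  have hinN₀ : ∀ q : Nat.Primes, q ∉ S → ∀ A : ValuationSubring Qb, A.LiesOverPrime (q : ℕ) →
      A.inertiaSubgroupIn ℚ ≤ N₀ := by
    intro q hq A hA τ hτ
    refine ⟨fun t ht => h.unram q hq A hA τ hτ t (fun σ => ?_), hζunr q hq A hA τ hτ⟩
    rw [ht, smul_zero]
  let F₀ : IntermediateField ℚ Qb := IntermediateField.fixedField N₀
  obtain ⟨hF₀fin, hF₀fix⟩ := fixedField_of_le N₀ L₁ hL₁N₀
  haveI := hF₀fin
  have hF₀unr : F₀.IsUnramifiedOutside S := isUnramifiedOutside_fixedField S N₀ L₁ hL₁N₀ hinN₀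
  have hζF₀ : ζ ∈ F₀ := by
    show ζ ∈ IntermediateField.fixedField N₀
    rw [IntermediateField.mem_fixedField_iff]
    exact fun σ hσ => hσ.2
  obtain ⟨F₁, -, hF₁fin, hF₁⟩ :=
    Fermat.Agent.PT.GLOB.H1Finite15.exists_field_forall_hom hp.out S F₀ hF₀unr hζ hζF₀
  refine ⟨F₁, hF₁fin, fun y hy s hs => ?_⟩
  -- the Kummer cocycle of `y`, with values in the `𝔽_p`-vector space `M[p]`
  have hc : ∀ σ : Γ, σ • y - y ∈ tors M p := by
    intro σ
    rw [mem_tors, nsmul_sub, ← smul_nsmul, hy σ, sub_self]
  let c : Γ → tors M p := fun σ => ⟨σ • y - y, hc σ⟩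
  -- the field of definition of `y`
  obtain ⟨Ly, hLyfin, hLy⟩ := h.level y
  haveI := hLyfin
  have hLystab : Ly.fixingSubgroup ≤ stab y := fun σ hσ => hLy σ hσ
  have hinstab : ∀ q : Nat.Primes, q ∉ S → ∀ A : ValuationSubring Qb, A.LiesOverPrime (q : ℕ) →
      A.inertiaSubgroupIn ℚ ≤ stab y :=
    fun q hq A hA τ hτ => h.unram q hq A hA τ hτ y hy
  let E : IntermediateField ℚ Qb := IntermediateField.fixedField (stab y)
  have hEunr : E.IsUnramifiedOutside S :=
    isUnramifiedOutside_fixedField S (stab y) Ly hLystab hinstab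
  have hEfix : E.fixingSubgroup = stab y := (fixedField_of_le (stab y) Ly hLystab).2
  -- `c s = 0`
  have hcs : c s = 0 := by
    rw [← Module.forall_dual_apply_eq_zero_iff (ZMod p)]
    intro lam
    refine hF₁ (fun g => lam (c g)) ?_ ⟨E, hEunr, ?_⟩ s hs
    · intro a ha b _
      rw [hF₀fix] at ha
      show lam (c (a * b)) = lam (c a) + lam (c b)
      rw [← map_add]
      congr 1
      apply Subtype.ext
      show (a * b) • y - y = (a • y - y) + (b • y - y)
      have hab : a • (b • y - y) = b • y - y := ha.1 _ (mem_tors.1 (hc b))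
      rw [mul_smul]
      rw [smul_sub] at hab
      rw [← hab]
      abel
    · intro t ht _
      rw [hEfix] at ht
      have hty : t • y = y := ht
      show lam (c t) = 0
      have : c t = 0 := Subtype.ext (by show t • y - y = 0; rw [hty, sub_self])
      rw [this, map_zero]
  have := congrArg Subtype.val hcs
  exact sub_eq_zero.1 this

/-- **Abstract weak Mordell–Weil**: `p · M^Γ` has finite index in `M^Γ`. -/
theorem finiteIndex_range_nsmul (h : Hyp M p S) :
    (nsmulAddMonoidHom (α := ↥(FixedPoints.addSubgroup Γ M)) p).range.FiniteIndex := by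
  classical
  obtain ⟨F₁, hF₁fin, hF₁⟩ := exists_field_forall_division h
  haveI := hF₁fin
  haveI := Fermat.Agent.PT.GLOB.H1FiniteCoh15.finiteIndex_fixingSubgroup F₁
  -- the finite set of values
  let T : Set M := {t : M | p • t = 0}
  haveI : Finite T := h.finite_torsion.to_subtype
  have hfinLevel := Fermat.Agent.PT.GLOB.H1FiniteCoh15.finite_setOf_level (G := Γ) (X := T)
    F₁.fixingSubgroup
  -- choice of division points
  have hfixed : ∀ x : ↥(FixedPoints.addSubgroup Γ M), ∀ σ : Γ, σ • (x : M) = x := fun x σ => x.2 σ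
  choose d hd using fun x : ↥(FixedPoints.addSubgroup Γ M) => h.div (x : M) (hfixed x)
  have hpd : ∀ (x : ↥(FixedPoints.addSubgroup Γ M)) (σ : Γ), σ • (p • d x) = p • d x :=
    fun x σ => by rw [hd x]; exact hfixed x σ
  have hmem : ∀ (x : ↥(FixedPoints.addSubgroup Γ M)) (σ : Γ), σ • d x - d x ∈ T := by
    intro x σ
    show p • (σ • d x - d x) = 0
    rw [nsmul_sub, ← smul_nsmul, hpd x σ, sub_self]
  let c : ↥(FixedPoints.addSubgroup Γ M) → (Γ → T) := fun x σ => ⟨σ • d x - d x, hmem x σ⟩
  have hcl : ∀ x, c x ∈ {f : Γ → T | ∀ g, ∀ s ∈ F₁.fixingSubgroup, f (g * s) = f g} := by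
    intro x g s hs
    apply Subtype.ext
    show (g * s) • d x - d x = g • d x - d x
    rw [mul_smul, hF₁ (d x) (hpd x) s hs]
  -- the induced map on the quotient is injective into a finite set
  let H := (nsmulAddMonoidHom (α := ↥(FixedPoints.addSubgroup Γ M)) p).range
  haveI : Finite {f : Γ → T | ∀ g, ∀ s ∈ F₁.fixingSubgroup, f (g * s) = f g} :=
    hfinLevel.to_subtype
  have hker : ∀ x x' : ↥(FixedPoints.addSubgroup Γ M), c x = c x' → x - x' ∈ H := by
    intro x x' hxx'
    have hfix : ∀ σ : Γ, σ • (d x - d x') = d x - d x' := by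
      intro σ
      have := congrArg Subtype.val (congrFun hxx' σ)
      have h' : σ • d x - d x = σ • d x' - d x' := this
      rw [smul_sub]
      have e : σ • d x - σ • d x' = (σ • d x - d x) - (σ • d x' - d x') + (d x - d x') := by abel
      rw [e, h', sub_self, zero_add]
    refine ⟨⟨d x - d x', hfix⟩, ?_⟩
    apply Subtype.ext
    show ((p • (⟨d x - d x', hfix⟩ : ↥(FixedPoints.addSubgroup Γ M)) :
      ↥(FixedPoints.addSubgroup Γ M)) : M) = (x : M) - (x' : M)
    rw [AddSubgroup.coe_nsmul]
    show p • (d x - d x') = _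
    rw [nsmul_sub, hd x, hd x']
  have hfinq : Finite (↥(FixedPoints.addSubgroup Γ M) ⧸ H) := by
    refine Finite.of_injective
      (fun q : ↥(FixedPoints.addSubgroup Γ M) ⧸ H =>
        (⟨c q.out, hcl q.out⟩ :
          {f : Γ → T | ∀ g, ∀ s ∈ F₁.fixingSubgroup, f (g * s) = f g})) ?_
    intro q q' hqq'
    have h1 : c q.out = c q'.out := congrArg Subtype.val hqq'
    have h2 := hker _ _ h1
    rw [← QuotientAddGroup.out_eq' q, ← QuotientAddGroup.out_eq' q']
    exact (QuotientAddGroup.eq_iff_sub_mem).2 h2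
  exact AddSubgroup.finiteIndex_of_finite_quotient

end Main

end Fermat.Agent.MW.WeakMWAbs65
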