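/-
Programme MW (S17, Mordell–Weil for `J₀(N)`), brick (W), modular instance (helper65).

**Weak Mordell–Weil for `J₀(N)`, modulo divisibility.**  For every `N ≥ 1` and every prime `p`:
if every `Gal(ℚ̄/ℚ)`-fixed point of `J₀(N)(ℚ̄) = JZero N` is divisible by `p` in `JZero N`, then
`p · J₀(N)(ℚ)` has finite index in `J₀(N)(ℚ)` — in exactly the shape `hweak` required by
`Fermat.Agent.MW73.s17_of_descent` / Mathlib's `AddCommGroup.fg_of_descent`.

Inputs, all unconditional and landed by the earlier programmes: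
* `ES.KUM.FiniteTorsion15.finite_setOf_nsmul_eq_zero` : `J₀(N)[p]` is finite;
* `ES.GAL.OpenStab12.hasLevel_pic0` : open stabilisers;
* `ES.TOP.TorsionGalois12.sp` : for `ℓ ∤ N` a specialisation map, inertia-invariant and injective on
  prime-to-`ℓ` torsion (good reduction of `X₀(N)` at `ℓ`);
* `TW.TWP59.KeyAux24.inertia_apply_rootOfUnity` : `μ_p` is unramified outside `p`;
* `PT.GLOB.H1Finite15.exists_field_forall_hom` (inside `WeakMWAbs65`): finiteness of
  `Hom(G_{F,S}, 𝔽_p)`.
-/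
import Mathlib
import Fermat.Agent.MW.WeakMWAbs65
import Fermat.Agent.ES.TOP.TorsionGalois12
import Fermat.Agent.ES.KUM.FiniteTorsion15
import Fermat.Agent.ES.GAL.OpenStab12
import Fermat.Agent.TW.TWP59.KeyAux24

set_option autoImplicit false
set_option linter.style.haveILetI false

namespace Fermat.Agent.MW.WeakMW65

open ModularCurve AlgebraicCurve Fermat.Agent.MW.WeakMWAbs65

local notation "Qb" => AlgebraicClosure ℚ
local notation "Γ" => (AlgebraicClosure ℚ ≃ₐ[ℚ] AlgebraicClosure ℚ)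

/-- the finite set of primes dividing `N`, together with `p`. -/
noncomputable def badPrimes (N p : ℕ) (hp : p.Prime) : Finset Nat.Primes :=
  insert (⟨p, hp⟩ : Nat.Primes)
    (N.primeFactors.attach.image fun q => (⟨q.1, Nat.prime_of_mem_primeFactors q.2⟩ : Nat.Primes))

theorem mem_badPrimes_self (N p : ℕ) (hp : p.Prime) : (⟨p, hp⟩ : Nat.Primes) ∈ badPrimes N p hp :=
  Finset.mem_insert_self _ _

theorem mem_badPrimes_of_dvd (N p : ℕ) [NeZero N] (hp : p.Prime) (q : Nat.Primes)
    (hq : (q : ℕ) ∣ N) : q ∈ badPrimes N p hp := by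
  classical
  refine Finset.mem_insert_of_mem (Finset.mem_image.2 ?_)
  refine ⟨⟨q.1, Nat.mem_primeFactors.2 ⟨q.2, hq, NeZero.ne N⟩⟩, Finset.mem_attach _ _, ?_⟩
  exact Subtype.ext rfl

variable (N : ℕ) [NeZero N] (p : ℕ) [hp : Fact p.Prime]

/-- The hypotheses of the abstract weak Mordell–Weil theorem hold for `JZero N`, given divisibility
of the rational points. -/
theorem hyp_of_div
    (hdiv : ∀ x : JZero N, (∀ σ : Γ, σ • x = x) → ∃ y : JZero N, p • y = x) :
    Hyp (JZero N) p (badPrimes N p hp.out) where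
  finite_torsion := by
    haveI : NeZero p := ⟨hp.out.ne_zero⟩
    exact Fermat.Agent.ES.KUM.FiniteTorsion15.finite_setOf_nsmul_eq_zero N p
  level := by
    intro y
    obtain ⟨L, hL, H⟩ := Fermat.Agent.ES.GAL.OpenStab12.hasLevel_pic0 N y
    refine ⟨L, hL, fun σ hσ => H σ ?_⟩
    rw [IntermediateField.mem_fixingSubgroup_iff] at hσ
    exact hσ
  unram := by
    intro q hq A hA τ hτ y hy
    have hqN : ¬ (q : ℕ) ∣ N := fun h => hq (mem_badPrimes_of_dvd N p hp.out q h)
    have hqp : ¬ (q : ℕ) ∣ p := by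
      intro h
      apply hq
      have : (q : ℕ) = p := (Nat.prime_dvd_prime_iff_eq q.2 hp.out).1 h
      have e : q = ⟨p, hp.out⟩ := Subtype.ext this
      rw [e]
      exact mem_badPrimes_self N p hp.out
    obtain ⟨G, _, Φ, h1, -, h3⟩ := Fermat.Agent.ES.TOP.TorsionGalois12.sp N q q.2 hqN A hA
    rw [← sub_eq_zero]
    refine h3 p (τ • y - y) hqp ?_ ?_
    · rw [nsmul_sub, ← Fermat.Agent.MW.WeakMWAbs65.smul_nsmul τ p y, hy τ, sub_self]
    · rw [map_sub, h1 τ hτ y, sub_self]
  zeta := by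
    obtain ⟨ζ, hζ⟩ := Fermat.Agent.ES.J.CycloChar8.exists_primitiveRoot p 1
    rw [pow_one] at hζ
    refine ⟨ζ, hζ, fun q hq A hA τ hτ => ?_⟩
    have hqp : (q : ℕ) ≠ p := by
      intro h
      apply hq
      have e : q = ⟨p, hp.out⟩ := Subtype.ext h
      rw [e]
      exact mem_badPrimes_self N p hp.out
    exact Fermat.Agent.TW.TWP59.KeyAux24.inertia_apply_rootOfUnity p q.2 hqp A hA hτ (m := 1)
      (by rw [pow_one]; exact hζ.pow_eq_one)
  div := hdiv

/-- **Weak Mordell–Weil for `J₀(N)` modulo divisibility**: if the rational points of `J₀(N)` are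
divisible by `p` in `J₀(N)(ℚ̄)`, then `p · J₀(N)(ℚ)` has finite index in `J₀(N)(ℚ)`. -/
theorem weakMW_of_div
    (hdiv : ∀ x : JZero N, (∀ σ : Γ, σ • x = x) → ∃ y : JZero N, p • y = x) :
    (nsmulAddMonoidHom (α := ↥(FixedPoints.addSubgroup Γ (JZero N))) p).range.FiniteIndex :=
  finiteIndex_range_nsmul (hyp_of_div N p hdiv)

end Fermat.Agent.MW.WeakMW65
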